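import Mathlib
import Fermat.Prelude.Def_FLTPrelim_Modularity

/-!
# Functions on the upper half plane given by convergent q-series

`HasQ h f A` says that `f τ = ∑ A_n 𝕢_h(τ)^n` for every `τ`.
-/

set_option autoImplicit false

noncomputable section

open UpperHalfPlane hiding I
open Complex Filter Function Topology
open scoped Manifold Real

local notation "𝕢" => Function.Periodic.qParam

namespace FA.Eis

/-- `f` is given by the q-series `A` in the parameter `exp(2πiτ/h)`. -/
def HasQ (h : ℝ) (f : ℍ → ℂ) (A : PowerSeries ℂ) : Prop :=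
  ∀ τ : ℍ, HasSum (fun n => PowerSeries.coeff n A * 𝕢 h τ ^ n) (f τ)

/-- The sum of a power series as a function on the unit disc. -/
def seriesFun (A : PowerSeries ℂ) (w : ℂ) : ℂ := ∑' n, PowerSeries.coeff n A * w ^ n

namespace HasQ

variable {h : ℝ} {f g : ℍ → ℂ} {A B : PowerSeries ℂ}

/-- Every point of the punctured unit disc is a value of the parameter. -/
theorem exists_qParam_eq (hh : 0 < h) {w : ℂ} (hw : ‖w‖ < 1) (hw0 : w ≠ 0) :
    ∃ τ : ℍ, 𝕢 h τ = w :=
  ⟨⟨Periodic.invQParam h w, Periodic.im_invQParam_pos_of_norm_lt_one hh hw hw0⟩,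
    Periodic.qParam_right_inv hh.ne' hw0⟩

theorem summable (hf : HasQ h f A) (hh : 0 < h) {w : ℂ} (hw : ‖w‖ < 1) :
    Summable fun n => PowerSeries.coeff n A * w ^ n := by
  rcases eq_or_ne w 0 with rfl | hw0
  · exact summable_of_ne_finset_zero (s := {0}) (fun n hn => by
      simp [zero_pow (Finset.notMem_singleton.mp hn)])
  · obtain ⟨τ, rfl⟩ := exists_qParam_eq hh hw hw0
    exact (hf τ).summable

theorem hasFPowerSeriesOnBall (hf : HasQ h f A) (hh : 0 < h) :
    HasFPowerSeriesOnBall (seriesFun A)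
      (FormalMultilinearSeries.ofScalars ℂ fun n => PowerSeries.coeff n A) 0 1 := by
  constructor
  · refine le_of_forall_lt_imp_le_of_dense fun r hr => ?_
    lift r to NNReal using hr.ne_top
    apply FormalMultilinearSeries.le_radius_of_summable
    have h1 := (hf.summable hh (w := (r : ℝ)) (by simpa using hr)).norm
    refine h1.congr fun n => ?_
    simp
  · simp
  · intro y hy
    rw [← ENNReal.coe_one, Metric.eball_coe, NNReal.coe_one, mem_ball_zero_iff] at hy
    simpa [seriesFun, mul_comm] using (hf.summable hh hy).hasSum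

theorem eq_seriesFun (hf : HasQ h f A) (τ : ℍ) : f τ = seriesFun A (𝕢 h τ) :=
  (hf τ).tsum_eq.symm

theorem periodic (hf : HasQ h f A) (hh : 0 < h) : Periodic (f ∘ ofComplex) h := by
  intro w
  by_cases hw : 0 < w.im
  · have : 0 < (w + h).im := by simp [hw]
    simp only [comp_apply, ofComplex_apply_of_im_pos this, ofComplex_apply_of_im_pos hw]
    rw [hf.eq_seriesFun, hf.eq_seriesFun]
    congr 1
    have hh' : (h : ℂ) ≠ 0 := mod_cast hh.ne'
    simp only [Periodic.qParam, mul_add, add_div, mul_div_assoc, div_self hh', mul_one,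
      Complex.exp_add, Complex.exp_two_pi_mul_I]
  · have : (w + h).im ≤ 0 := by simpa using not_lt.mp hw
    simp [ofComplex_apply_of_im_nonpos this, ofComplex_apply_of_im_nonpos (not_lt.mp hw)]

theorem differentiableOn (hf : HasQ h f A) (hh : 0 < h) :
    DifferentiableOn ℂ (seriesFun A) (Metric.ball 0 1) := by
  have := (hf.hasFPowerSeriesOnBall hh).differentiableOn
  rwa [← ENNReal.coe_one, Metric.eball_coe, NNReal.coe_one] at this

theorem mdiff (hf : HasQ h f A) (hh : 0 < h) : MDiff f := by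
  intro τ
  rw [UpperHalfPlane.mdifferentiableAt_iff]
  have h1 : DifferentiableAt ℂ (fun z : ℂ => seriesFun A (𝕢 h z)) τ := by
    refine DifferentiableAt.comp (g := seriesFun A) (τ : ℂ) ?_ (by
      unfold Periodic.qParam; fun_prop)
    exact (hf.differentiableOn hh).differentiableAt (Metric.isOpen_ball.mem_nhds
      (mem_ball_zero_iff.mpr (Periodic.norm_qParam_lt_one hh τ.im_pos)))
  refine h1.congr_of_eventuallyEq ?_
  filter_upwards [isOpen_upperHalfPlaneSet.mem_nhds τ.im_pos] with z hz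
  simp [ofComplex_apply_of_im_pos (show 0 < z.im from hz), hf.eq_seriesFun]

theorem tendsto (hf : HasQ h f A) (hh : 0 < h) :
    Tendsto f atImInfty (𝓝 (PowerSeries.coeff 0 A)) := by
  have h1 := ((hf.hasFPowerSeriesOnBall hh).hasFPowerSeriesAt.continuousAt.tendsto.comp
    (qParam_tendsto_atImInfty hh))
  have h0 : seriesFun A 0 = PowerSeries.coeff 0 A := by
    rw [seriesFun, tsum_eq_single 0 (fun n hn => by simp [zero_pow hn])]
    simp
  rw [h0] at h1
  exact h1.congr fun τ => (hf.eq_seriesFun τ).symm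

theorem bdd (hf : HasQ h f A) (hh : 0 < h) : IsBoundedAtImInfty f :=
  (hf.tendsto hh).isBigO_one ℝ

theorem isZero (hf : HasQ h f A) (hh : 0 < h) (h0 : PowerSeries.coeff 0 A = 0) :
    IsZeroAtImInfty f := by
  have := hf.tendsto hh
  rwa [h0] at this

theorem eq_zero_of_fun (hf : HasQ h 0 A) (hh : 0 < h) : A = 0 := by
  have hF := (hf.hasFPowerSeriesOnBall hh).hasFPowerSeriesAt
  have h1 : ∀ᶠ w in 𝓝[≠] (0 : ℂ), seriesFun A w = 0 := by
    filter_upwards [self_mem_nhdsWithin,
      mem_nhdsWithin_of_mem_nhds (Metric.ball_mem_nhds (0 : ℂ) one_pos)] with w hw hw'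
    obtain ⟨τ, rfl⟩ := exists_qParam_eq hh (mem_ball_zero_iff.mp hw') hw
    exact (hf τ).tsum_eq
  have h2 : ∀ᶠ w in 𝓝 (0 : ℂ), seriesFun A w = 0 :=
    (hF.continuousAt.eventuallyEq_nhds_iff_eventuallyEq_nhdsNE continuousAt_const).mp h1
  have h3 : HasFPowerSeriesAt (0 : ℂ → ℂ)
      (FormalMultilinearSeries.ofScalars ℂ fun n => PowerSeries.coeff n A) 0 :=
    hF.congr h2
  have h4 := h3.eq_zero
  ext n
  have h5 := (FormalMultilinearSeries.ofScalars_series_eq_zero (E := ℂ)).mp h4
  simpa using congrFun h5 n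

theorem neg (hf : HasQ h f A) : HasQ h (-f) (-A) := fun τ => by
  simpa using (hf τ).neg

theorem add (hf : HasQ h f A) (hg : HasQ h g B) : HasQ h (f + g) (A + B) := fun τ => by
  simpa [add_mul] using (hf τ).add (hg τ)

theorem sub (hf : HasQ h f A) (hg : HasQ h g B) : HasQ h (f - g) (A - B) := fun τ => by
  simpa [sub_mul] using (hf τ).sub (hg τ)


theorem smul (hf : HasQ h f A) (c : ℂ) : HasQ h (c • f) (c • A) := fun τ => by
  simpa [mul_assoc] using (hf τ).mul_left c

theorem const (h : ℝ) (c : ℂ) : HasQ h (fun _ => c) (PowerSeries.C c) := fun τ => by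
  convert hasSum_ite_eq 0 c using 2 with n
  rcases eq_or_ne n 0 with rfl | hn <;> simp [PowerSeries.coeff_C, *]

theorem one (h : ℝ) : HasQ h 1 1 := by
  simpa using! const h 1

theorem zero (h : ℝ) : HasQ h 0 0 := fun τ => by simp [hasSum_zero]

theorem unique (hh : 0 < h) (hf : HasQ h f A) (hg : HasQ h f B) : A = B :=
  sub_eq_zero.mp (eq_zero_of_fun (by simpa using hf.sub hg) hh)

theorem ext_fun (hf : HasQ h f A) (hg : HasQ h g A) : f = g :=
  funext fun τ => (hf τ).unique (hg τ)

theorem mul (hh : 0 < h) (hf : HasQ h f A) (hg : HasQ h g B) :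
    HasQ h (f * g) (A * B) := fun τ => by
  set q := 𝕢 h (τ : ℂ)
  have hq : ‖q‖ < 1 := Periodic.norm_qParam_lt_one hh τ.im_pos
  have hfs := (hf.summable hh hq).norm
  have hgs := (hg.summable hh hq).norm
  have hs := summable_norm_sum_mul_antidiagonal_of_summable_norm hfs hgs
  have he := tsum_mul_tsum_eq_tsum_sum_antidiagonal_of_summable_norm hfs hgs
  have key : ∀ n, (∑ ij ∈ Finset.HasAntidiagonal.antidiagonal n, (PowerSeries.coeff ij.1 A * q ^ ij.1) *
      (PowerSeries.coeff ij.2 B * q ^ ij.2)) = PowerSeries.coeff n (A * B) * q ^ n := by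
    intro n
    rw [PowerSeries.coeff_mul, Finset.sum_mul]
    refine Finset.sum_congr rfl fun ij hij => ?_
    rw [← Finset.HasAntidiagonal.mem_antidiagonal.mp hij, pow_add]
    ring
  have hsum := hs.of_norm.hasSum
  rw [← he, (hf τ).tsum_eq, (hg τ).tsum_eq] at hsum
  simpa only [key, Pi.mul_apply] using hsum

theorem pow (hh : 0 < h) (hf : HasQ h f A) (n : ℕ) : HasQ h (f ^ n) (A ^ n) := by
  induction n with
  | zero => simpa using! one h
  | succ n ih => simpa [pow_succ] using! ih.mul hh hf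

theorem sum {ι : Type*} (s : Finset ι) {F : ι → ℍ → ℂ} {P : ι → PowerSeries ℂ}
    (hF : ∀ i ∈ s, HasQ h (F i) (P i)) : HasQ h (∑ i ∈ s, F i) (∑ i ∈ s, P i) := fun τ => by
  simpa [Finset.sum_apply, Finset.sum_mul] using hasSum_sum fun i hi => hF i hi τ

theorem prod {ι : Type*} (hh : 0 < h) (s : Finset ι) {F : ι → ℍ → ℂ} {P : ι → PowerSeries ℂ}
    (hF : ∀ i ∈ s, HasQ h (F i) (P i)) : HasQ h (∏ i ∈ s, F i) (∏ i ∈ s, P i) := by
  classical
  induction s using Finset.induction_on with
  | empty => simpa using! one h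
  | insert a s ha ih =>
    rw [Finset.prod_insert ha, Finset.prod_insert ha]
    exact (hF a (Finset.mem_insert_self a s)).mul hh (ih fun i hi => hF i (Finset.mem_insert_of_mem hi))

theorem of_periodic (hh : 0 < h) (hp : Periodic (f ∘ ofComplex) h) (hd : MDiff f)
    (hb : IsBoundedAtImInfty f) : HasQ h f (qExpansion h f) :=
  fun τ => UpperHalfPlane.hasSum_qExpansion hh hp hd hb τ

theorem qExpansion_eq (hh : 0 < h) (hf : HasQ h f A) : qExpansion h f = A :=
  unique hh (of_periodic hh (hf.periodic hh) (hf.mdiff hh) (hf.bdd hh)) hf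

end HasQ

end FA.Eis
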