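import Fermat.Agent.Eisenstein.QOps

/-!
# Forms of prime level: cosets, the Atkin–Lehner substitution and the trace to level one
-/

set_option autoImplicit false

noncomputable section

open UpperHalfPlane hiding I
open Complex Filter Function Topology ModularForm PowerSeries CongruenceSubgroup
open scoped Manifold Real MatrixGroups ModularForm

namespace FA.Eis

/-- The q-expansion of period one. -/
abbrev qe (f : ℍ → ℂ) : PowerSeries ℂ := UpperHalfPlane.qExpansion 1 f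

/-- A holomorphic modular form of weight `k` on `Γ₀(N)`, as a bare function. -/
structure IsLv (N : ℕ) (k : ℤ) (f : ℍ → ℂ) : Prop where
  inv : ∀ γ ∈ Gamma0 N, f ∣[k] γ = f
  hol : MDiff f
  bdd : BddAllCusps k f

theorem T_mem_Gamma0 (N : ℕ) : ModularGroup.T ∈ Gamma0 N := by
  rw [Gamma0_mem]
  simp [ModularGroup.T]

theorem mem_Gamma0_iff_dvd {N : ℕ} {A : SL(2, ℤ)} : A ∈ Gamma0 N ↔ (N : ℤ) ∣ A 1 0 := by
  rw [Gamma0_mem]
  exact ZMod.intCast_zmod_eq_zero_iff_dvd _ _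

theorem mem_Gamma0_one (A : SL(2, ℤ)) : A ∈ Gamma0 1 := by
  rw [mem_Gamma0_iff_dvd]; simp

namespace IsLv

variable {N : ℕ} {k l : ℤ} {f g : ℍ → ℂ}

theorem slash_T (hf : IsLv N k f) : f ∣[k] ModularGroup.T = f := hf.inv _ (T_mem_Gamma0 N)

theorem bdd_infty (hf : IsLv N k f) : IsBoundedAtImInfty f := by simpa using hf.bdd 1

theorem hasQ (hf : IsLv N k f) : HasQ 1 f (qe f) :=
  HasQ.of_periodic one_pos (by simpa using periodic_of_slash_T hf.slash_T) hf.hol hf.bdd_infty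

theorem add (hf : IsLv N k f) (hg : IsLv N k g) : IsLv N k (f + g) where
  inv γ hγ := by rw [SlashAction.add_slash, hf.inv γ hγ, hg.inv γ hγ]
  hol := hf.hol.add hg.hol
  bdd := hf.bdd.add hg.bdd

theorem smul (hf : IsLv N k f) (c : ℂ) : IsLv N k (c • f) where
  inv γ hγ := by rw [ModularForm.SL_smul_slash, hf.inv γ hγ]
  hol := hf.hol.const_smul c
  bdd := hf.bdd.smul c

theorem sub (hf : IsLv N k f) (hg : IsLv N k g) : IsLv N k (f - g) := by
  have := hf.add (hg.smul (-1))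
  rwa [neg_one_smul, ← sub_eq_add_neg] at this

theorem mul (hf : IsLv N k f) (hg : IsLv N l g) : IsLv N (k + l) (f * g) where
  inv γ hγ := by rw [ModularForm.mul_slash_SL2, hf.inv γ hγ, hg.inv γ hγ]
  hol := hf.hol.mul hg.hol
  bdd := hf.bdd.mul hg.bdd

theorem zero (N : ℕ) (k : ℤ) : IsLv N k 0 where
  inv γ _ := SlashAction.zero_slash k γ
  hol := mdifferentiable_const
  bdd A := by
    rw [SlashAction.zero_slash]
    exact Filter.const_boundedAtFilter _ (0 : ℂ)

theorem one (N : ℕ) : IsLv N 0 1 where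
  inv γ _ := ModularForm.is_invariant_one γ
  hol := mdifferentiable_const
  bdd A := by
    rw [ModularForm.is_invariant_one]
    exact Filter.const_boundedAtFilter _ (1 : ℂ)

theorem sum {ι : Type*} (s : Finset ι) {F : ι → ℍ → ℂ} (hF : ∀ i ∈ s, IsLv N k (F i)) :
    IsLv N k (∑ i ∈ s, F i) := by
  classical
  induction s using Finset.induction_on with
  | empty => simpa using zero N k
  | insert a s ha ih =>
    rw [Finset.sum_insert ha]
    exact (hF a (Finset.mem_insert_self a s)).add (ih fun i hi => hF i (Finset.mem_insert_of_mem hi))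

theorem of_levelOne (hf : IsLv 1 k f) (N : ℕ) : IsLv N k f :=
  ⟨fun γ _ => hf.inv γ (mem_Gamma0_one γ), hf.hol, hf.bdd⟩

theorem inv' (hf : IsLv 1 k f) (γ : SL(2, ℤ)) : f ∣[k] γ = f := hf.inv γ (mem_Gamma0_one γ)

theorem dil (hf : IsLv 1 k f) (p : ℕ) [NeZero p] : IsLv p k (FA.Eis.dil p f) where
  inv γ hγ := by
    obtain ⟨c', hc⟩ := mem_Gamma0_iff_dvd.mp hγ
    obtain ⟨B, -, -, -, -, hB⟩ := dil_slash f k γ hc
    rw [hB, hf.inv']
  hol := ((hf.hasQ.dil p).mdiff one_pos)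
  bdd := hf.bdd.dil p

end IsLv

/-- The coset of `A` in `Γ₀(p) \ SL(2, ℤ)` when `p ∤ A 1 0`. -/
theorem exists_coset {p : ℕ} [Fact p.Prime] (A : SL(2, ℤ)) (hA : ¬(p : ℤ) ∣ A 1 0) :
    ∃ j < p, A * (ModularGroup.S * ModularGroup.T ^ (j : ℤ))⁻¹ ∈ Gamma0 p := by
  have hc : (A 1 0 : ZMod p) ≠ 0 := fun h => hA ((ZMod.intCast_zmod_eq_zero_iff_dvd _ _).mp h)
  refine ⟨((A 1 1 : ZMod p) / (A 1 0 : ZMod p)).val, ZMod.val_lt _, ?_⟩
  set j : ℤ := (((A 1 1 : ZMod p) / (A 1 0 : ZMod p)).val : ℤ)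
  rw [Gamma0_mem]
  have hj : (j : ZMod p) * (A 1 0 : ZMod p) = (A 1 1 : ZMod p) := by
    simp [j, div_mul_cancel₀ _ hc]
  have h1 : (A * (ModularGroup.S * ModularGroup.T ^ j)⁻¹) 1 0 = A 1 0 * j - A 1 1 := by
    rw [Matrix.SpecialLinearGroup.coe_mul, Matrix.SpecialLinearGroup.coe_inv,
      Matrix.SpecialLinearGroup.coe_mul, ModularGroup.coe_T_zpow, ModularGroup.coe_S]
    simp [Matrix.adjugate_fin_two, Matrix.mul_apply, Fin.sum_univ_two]
    ring
  rw [h1]
  push_cast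
  rw [mul_comm, hj, sub_self]

theorem slash_eq_of_coset {N : ℕ} {k : ℤ} {f : ℍ → ℂ} (hf : ∀ γ ∈ Gamma0 N, f ∣[k] γ = f)
    {A B : SL(2, ℤ)} (h : A * B⁻¹ ∈ Gamma0 N) : f ∣[k] A = f ∣[k] B := by
  conv_lhs => rw [show A = A * B⁻¹ * B by group]
  rw [SlashAction.slash_mul, hf _ h]

/-- Boundedness at all cusps for prime level needs only be checked at `∞` and `0`. -/
theorem bddAllCusps_of_prime {p : ℕ} [Fact p.Prime] {k : ℤ} {f : ℍ → ℂ}
    (hf : ∀ γ ∈ Gamma0 p, f ∣[k] γ = f) (h1 : IsBoundedAtImInfty f)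
    (hS : IsBoundedAtImInfty (f ∣[k] ModularGroup.S)) : BddAllCusps k f := by
  intro A
  by_cases hA : (p : ℤ) ∣ A 1 0
  · rwa [hf A (mem_Gamma0_iff_dvd.mpr hA)]
  · obtain ⟨j, -, hj⟩ := exists_coset A hA
    rw [slash_eq_of_coset hf hj, SlashAction.slash_mul]
    rw [ModularForm.SL_slash]
    refine IsBoundedAtImInfty.slash k ?_ hS
    show (((ModularGroup.T ^ (j : ℤ) : SL(2, ℤ)) 1 0 : ℤ) : ℝ) = 0
    rw [T_zpow_10, Int.cast_zero]

/-- The Atkin–Lehner substitution `(W f)(τ) = (f ∣ S)(p τ)`. -/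
def W (p : ℕ) (k : ℤ) (f : ℍ → ℂ) : ℍ → ℂ := dil p (f ∣[k] ModularGroup.S)

theorem W_apply (p : ℕ) [NeZero p] (k : ℤ) (f : ℍ → ℂ) (τ : ℍ) :
    W p k f τ = f (ModularGroup.S • scalePt p τ) * ((p : ℂ) * τ) ^ (-k) := by
  rw [W, dil, slash_S_apply', coe_scalePt]

theorem W_mul (p : ℕ) (k l : ℤ) (f g : ℍ → ℂ) : W p (k + l) (f * g) = W p k f * W p l g := by
  rw [W, ModularForm.mul_slash_SL2, dil_mul]
  rfl

theorem W_smul (p : ℕ) (k : ℤ) (c : ℂ) (f : ℍ → ℂ) : W p k (c • f) = c • W p k f := by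
  rw [W, ModularForm.SL_smul_slash, dil_smul]
  rfl

theorem W_add (p : ℕ) (k : ℤ) (f g : ℍ → ℂ) : W p k (f + g) = W p k f + W p k g := by
  rw [W, SlashAction.add_slash]
  rfl

theorem W_sub (p : ℕ) (k : ℤ) (f g : ℍ → ℂ) : W p k (f - g) = W p k f - W p k g := by
  rw [sub_eq_add_neg f g, ← neg_one_smul ℂ g, W_add, W_smul, neg_one_smul, ← sub_eq_add_neg]

theorem S_scale_S_scale (p : ℕ) [NeZero p] (τ : ℍ) :
    ModularGroup.S • scalePt p (ModularGroup.S • scalePt p τ) = τ := by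
  have : (p : ℂ) ≠ 0 := NeZero.ne _
  apply UpperHalfPlane.ext
  rw [coe_S_smul, coe_scalePt, coe_S_smul, coe_scalePt]
  field_simp [UpperHalfPlane.ne_zero τ]

theorem W_W (p : ℕ) [NeZero p] {k : ℤ} (hk : Even k) (f : ℍ → ℂ) :
    W p k (W p k f) = ((p : ℂ) ^ (-k)) • f := by
  funext τ
  have hp : (p : ℂ) ≠ 0 := NeZero.ne _
  have hτ : (τ : ℂ) ≠ 0 := UpperHalfPlane.ne_zero τ
  rw [W_apply, W_apply, S_scale_S_scale, coe_S_smul, coe_scalePt, Pi.smul_apply, smul_eq_mul]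
  rw [mul_assoc, mul_comm ((p : ℂ) ^ (-k)) (f τ)]
  congr 1
  rw [← mul_zpow]
  have : (p : ℂ) * -((p : ℂ) * τ)⁻¹ * ((p : ℂ) * τ) = -(p : ℂ) := by field_simp
  rw [this, hk.neg.neg_zpow]

theorem W_dil {p : ℕ} [NeZero p] {k : ℤ} {H : ℍ → ℂ} (hH : IsLv 1 k H) :
    W p k (dil p H) = ((p : ℂ) ^ (-k)) • H := by
  funext τ
  have hp : (p : ℂ) ≠ 0 := NeZero.ne _
  have hS : scalePt p (ModularGroup.S • scalePt p τ) = ModularGroup.S • τ := by
    apply UpperHalfPlane.ext
    rw [coe_scalePt, coe_S_smul, coe_scalePt, coe_S_smul]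
    field_simp
  have h2 : H (ModularGroup.S • τ) * (τ : ℂ) ^ (-k) = H τ := by
    have := congrFun (hH.inv' ModularGroup.S) τ
    rwa [slash_S_apply'] at this
  rw [W_apply, dil, hS, mul_zpow, Pi.smul_apply, smul_eq_mul, ← h2]
  ring

/-- `W p k f` is again a form of level `p`. -/
theorem IsLv.W {p : ℕ} [Fact p.Prime] {k : ℤ} (hk : Even k) {f : ℍ → ℂ} (hf : IsLv p k f) :
    IsLv p k (FA.Eis.W p k f) where
  inv γ hγ := by
    obtain ⟨c', hc⟩ := mem_Gamma0_iff_dvd.mp hγ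
    obtain ⟨B, hB00, hB01, hB10, hB11, hB⟩ := dil_slash (f ∣[k] ModularGroup.S) k γ hc
    rw [FA.Eis.W, hB, ← SlashAction.slash_mul]
    congr 1
    apply slash_eq_of_coset hf.inv
    rw [mem_Gamma0_iff_dvd, Matrix.SpecialLinearGroup.coe_mul, Matrix.SpecialLinearGroup.coe_inv,
      Matrix.SpecialLinearGroup.coe_mul, ModularGroup.coe_S]
    refine ⟨-γ 0 1, ?_⟩
    simp [Matrix.adjugate_fin_two, Matrix.mul_apply, Fin.sum_univ_two, Matrix.vecMul,
      dotProduct, hB01]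
  hol := by
    have h1 : HasQ (p : ℝ) (f ∣[k] ModularGroup.S) (UpperHalfPlane.qExpansion (p : ℝ) (f ∣[k] ModularGroup.S)) := by
      refine HasQ.of_periodic (by exact_mod_cast (Nat.Prime.pos Fact.out)) ?_ ?_ (hf.bdd _)
      · have hp' : (f ∣[k] ModularGroup.S) ∣[k] (ModularGroup.T ^ (p : ℤ) : SL(2, ℤ)) =
            f ∣[k] ModularGroup.S := by
          rw [← SlashAction.slash_mul]
          apply slash_eq_of_coset hf.inv
          rw [mem_Gamma0_iff_dvd, Matrix.SpecialLinearGroup.coe_mul,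
            Matrix.SpecialLinearGroup.coe_inv, Matrix.SpecialLinearGroup.coe_mul,
            ModularGroup.coe_T_zpow, ModularGroup.coe_S]
          refine ⟨-1, ?_⟩
          simp [Matrix.adjugate_fin_two, Matrix.mul_apply, Fin.sum_univ_two]
        intro w
        by_cases hw : 0 < w.im
        · have : 0 < (w + ((p : ℝ) : ℂ)).im := by simpa using hw
          simp only [comp_apply, ofComplex_apply_of_im_pos this, ofComplex_apply_of_im_pos hw]
          rw [← congrFun hp' ⟨w, hw⟩, slash_T_zpow_apply]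
          refine congrArg _ (UpperHalfPlane.ext ?_)
          simp [add_comm]
        · have : (w + ((p : ℝ) : ℂ)).im ≤ 0 := by simpa using not_lt.mp hw
          simp only [comp_apply, ofComplex_apply_of_im_nonpos this,
            ofComplex_apply_of_im_nonpos (not_lt.mp hw)]
      · exact hf.hol.slash k _
    exact (h1.dil p).mdiff (h := (p : ℝ)) (by exact_mod_cast (Nat.Prime.pos Fact.out))
  bdd := (hf.bdd.slash_sl ModularGroup.S).dil p

theorem slash_S_eq_W (p : ℕ) [NeZero p] (k : ℤ) (f : ℍ → ℂ) (j : ℕ) (τ : ℍ) :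
    ((f ∣[k] ModularGroup.S) ∣[k] (ModularGroup.T ^ (j : ℤ) : SL(2, ℤ))) τ =
      W p k f (fdivPt p j τ) := by
  rw [slash_T_zpow_apply, W, dil]
  refine congrArg _ (UpperHalfPlane.ext ?_)
  rw [scalePt_fdivPt]
  simp [add_comm]

/-- The sum of the translates `f ∣ S T^j`. -/
theorem sum_translates (p : ℕ) [NeZero p] (k : ℤ) (f : ℍ → ℂ) :
    ∑ j ∈ Finset.range p, (f ∣[k] ModularGroup.S) ∣[k] (ModularGroup.T ^ (j : ℤ) : SL(2, ℤ)) =
      (p : ℂ) • avg p (W p k f) := by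
  funext τ
  simp only [Finset.sum_apply, slash_S_eq_W p, Pi.smul_apply, avg, smul_eq_mul]
  rw [mul_inv_cancel_left₀ (NeZero.ne _)]

/-- The trace to level one: `f + p · U_p (W f)`. -/
theorem isLv_one_trace {p : ℕ} [Fact p.Prime] {k : ℤ} (hk : Even k) {f : ℍ → ℂ}
    (hf : IsLv p k f) : IsLv 1 k (f + (p : ℂ) • avg p (W p k f)) := by
  have hW := (hf.W hk).hasQ
  have hQ : HasQ 1 (f + (p : ℂ) • avg p (W p k f)) (qe f + (p : ℂ) • Up p (qe (W p k f))) :=
    hf.hasQ.add ((hW.avg p).smul _)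
  set F := f + (p : ℂ) • avg p (W p k f) with hF
  have hT : F ∣[k] ModularGroup.T = F := by
    funext τ
    have h := slash_T_zpow_apply F k 1 τ
    rw [zpow_one] at h
    rw [h]
    exact hQ.vadd_int 1 τ
  have hS : F ∣[k] ModularGroup.S = F := by
    rw [hF, ← sum_translates p k f, SlashAction.add_slash, SlashAction.sum_slash]
    have hp : 0 < p := Nat.Prime.pos Fact.out
    set term : ℕ → (ℍ → ℂ) := fun j => (f ∣[k] ModularGroup.S) ∣[k]
      (ModularGroup.T ^ (j : ℤ) : SL(2, ℤ))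
    have h0 : term 0 = f ∣[k] ModularGroup.S := by simp [term]
    have hSS : (f ∣[k] ModularGroup.S) ∣[k] ModularGroup.S = f := by
      have : ModularGroup.S * ModularGroup.S = (-1 : SL(2, ℤ)) := by
        ext i j
        fin_cases i <;> fin_cases j <;>
          simp [Matrix.SpecialLinearGroup.coe_mul, ModularGroup.coe_S]
      rw [← SlashAction.slash_mul, this, neg_one_slash f hk]
    -- the permutation of the non-zero residues
    have key : ∀ j ∈ (Finset.range p).erase 0, ∃ i ∈ (Finset.range p).erase 0,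
        (i * j + 1 : ZMod p) = 0 ∧ term j ∣[k] ModularGroup.S = term i := by
      intro j hj
      obtain ⟨hj0, hjp⟩ := Finset.mem_erase.mp hj
      rw [Finset.mem_range] at hjp
      have hjz : (j : ZMod p) ≠ 0 := by
        rw [Ne, ZMod.natCast_eq_zero_iff]
        exact fun h => hj0 (Nat.eq_zero_of_dvd_of_lt h hjp)
      refine ⟨(-(j : ZMod p)⁻¹).val, ?_, ?_, ?_⟩
      · refine Finset.mem_erase.mpr ⟨?_, Finset.mem_range.mpr (ZMod.val_lt _)⟩
        simp [ZMod.val_eq_zero, hjz]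
      · simp [inv_mul_cancel₀ hjz]
      · simp only [term, ← SlashAction.slash_mul]
        apply slash_eq_of_coset hf.inv
        rw [Gamma0_mem, Matrix.SpecialLinearGroup.coe_mul, Matrix.SpecialLinearGroup.coe_inv,
          Matrix.SpecialLinearGroup.coe_mul, Matrix.SpecialLinearGroup.coe_mul,
          Matrix.SpecialLinearGroup.coe_mul, ModularGroup.coe_T_zpow, ModularGroup.coe_T_zpow,
          ModularGroup.coe_S]
        simp [Matrix.adjugate_fin_two, Matrix.mul_apply, Fin.sum_univ_two, hjz]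
    choose! σ hσmem hσ hterm using key
    have hrange : ∀ G : ℕ → (ℍ → ℂ), ∑ j ∈ Finset.range p, G j =
        G 0 + ∑ j ∈ (Finset.range p).erase 0, G j :=
      fun G => (Finset.add_sum_erase _ G (Finset.mem_range.mpr hp)).symm
    rw [hrange, hrange]
    change _ + (term 0 ∣[k] ModularGroup.S + ∑ j ∈ (Finset.range p).erase 0,
      term j ∣[k] ModularGroup.S) = _ + (term 0 + ∑ j ∈ (Finset.range p).erase 0, term j)
    rw [Finset.sum_congr rfl hterm, h0, hSS]
    have hperm : ∑ j ∈ (Finset.range p).erase 0, term (σ j) =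
        ∑ j ∈ (Finset.range p).erase 0, term j := by
      have hinv : ∀ a ∈ (Finset.range p).erase 0, σ (σ a) = a := by
        intro a ha
        have h1 := hσ a ha
        have h2 := hσ (σ a) (hσmem a ha)
        have hz : ((σ (σ a) : ℕ) : ZMod p) = (a : ZMod p) := by
          linear_combination ((σ (σ a) : ℕ) : ZMod p) * h1 - ((a : ℕ) : ZMod p) * h2
        have l1 := Finset.mem_range.mp (Finset.mem_erase.mp (hσmem _ (hσmem a ha))).2
        have l2 := Finset.mem_range.mp (Finset.mem_erase.mp ha).2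
        have := congrArg ZMod.val hz
        rwa [ZMod.val_natCast_of_lt l1, ZMod.val_natCast_of_lt l2] at this
      exact Finset.sum_bij' (fun a _ => σ a) (fun a _ => σ a) hσmem hσmem hinv hinv (fun _ _ => rfl)
    rw [hperm]
    abel
  refine ⟨fun γ _ => SlashInvariantForm.slash_action_generators_SL2Z hS hT γ, hQ.mdiff one_pos,
    fun A => ?_⟩
  rw [SlashInvariantForm.slash_action_generators_SL2Z hS hT A]
  exact hQ.bdd one_pos

/-- The q-expansion of the trace. -/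
theorem hasQ_trace {p : ℕ} [Fact p.Prime] {k : ℤ} (hk : Even k) {f : ℍ → ℂ}
    (hf : IsLv p k f) {A B : PowerSeries ℂ} (hA : HasQ 1 f A) (hB : HasQ 1 (W p k f) B) :
    HasQ 1 (f + (p : ℂ) • avg p (W p k f)) (A + (p : ℂ) • Up p B) :=
  hA.add ((hB.avg p).smul _)

/-- A function of level one as a bundled modular form. -/
def IsLv.toMF {k : ℤ} {f : ℍ → ℂ} (hf : IsLv 1 k f) : ModularForm 𝒮ℒ k where
  toFun := f
  slash_action_eq' γ hγ := by
    obtain ⟨A, rfl⟩ := hγ
    exact hf.inv' A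
  holo' := hf.hol
  bdd_at_cusps' hc := hf.bdd.isBoundedAt hc

theorem IsLv.of_modularForm {k : ℤ} (F : ModularForm 𝒮ℒ k) : IsLv 1 k ⇑F where
  inv γ _ := F.slash_action_eq' _ ⟨γ, rfl⟩
  hol := F.holo'
  bdd A := by
    have h : (⇑F ∣[k] A) = ⇑F := F.slash_action_eq' _ ⟨A, rfl⟩
    rw [h]
    exact ModularFormClass.bdd_at_infty F

theorem IsLv.levelOne_weight_two {f : ℍ → ℂ} (hf : IsLv 1 2 f) : f = 0 := by
  have := rank_zero_iff_forall_zero.mp ModularForm.levelOne_weight_two_rank_zero hf.toMF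
  exact congrArg DFunLike.coe this

/-- For weight two, `W` acts as `-U_p/p`. -/
theorem hasQ_W_weight_two {p : ℕ} [Fact p.Prime] {f : ℍ → ℂ} (hf : IsLv p 2 f)
    {A : PowerSeries ℂ} (hA : HasQ 1 f A) :
    HasQ 1 (W p 2 f) (-((p : ℂ)⁻¹ • Up p A)) := by
  have hWf := hf.W even_two
  have h0 := (isLv_one_trace even_two hWf).levelOne_weight_two
  have hWW : HasQ 1 (W p 2 (W p 2 f)) ((p : ℂ) ^ (-2 : ℤ) • A) := by
    rw [W_W p even_two]
    exact hA.smul _
  have h1 := hasQ_trace even_two hWf hWf.hasQ hWW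
  rw [h0] at h1
  have h2 := HasQ.eq_zero_of_fun h1 one_pos
  have hp : (p : ℂ) ≠ 0 := NeZero.ne _
  have h3 : qe (W p 2 f) = -((p : ℂ)⁻¹ • Up p A) := by
    rw [eq_neg_iff_add_eq_zero, ← h2, map_smul, smul_smul]
    congr 2
    field_simp
  rw [← h3]
  exact hWf.hasQ

end FA.Eis
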