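import Fermat.Agent.Eisenstein.GSeries
import Fermat.Agent.Eisenstein.LevelP

/-!
# An integral weight two form of level `p` with a controlled constant term

Traces from level `pq` of products of weight one Eisenstein series of level `q`.
-/

set_option autoImplicit false

noncomputable section

open UpperHalfPlane hiding I
open Complex Filter Function Topology PowerSeries CongruenceSubgroup
open scoped Real MatrixGroups ModularForm

namespace FA.Eis

variable (p q : ℕ) [Fact p.Prime] [Fact q.Prime]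

/-- `∑_a G_a(τ) G_{ha}(pτ)`. -/
def Fsum (h : ZMod q) : ℍ → ℂ := ∑ a : ZMod q, Gfun q a * dil p (Gfun q (h * a))

/-- The q-series of `Fsum`. -/
def FSer (h : ZMod q) : PowerSeries ℂ := ∑ a : ZMod q, GSer q a * Vp p (GSer q (h * a))

/-- The trace of `Fsum h` from level `pq` to level `p`. -/
def Phi (h : ZMod q) : ℍ → ℂ := Fsum p q h - avg q (Fsum p q (h * p)⁻¹)

/-- The q-series of `Phi`. -/
def PhiSer (h : ZMod q) : PowerSeries ℂ := FSer p q h - Up q (FSer p q (h * p)⁻¹)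

variable {p q}

theorem hasQ_Fsum (h : ZMod q) : HasQ 1 (Fsum p q h) (FSer p q h) :=
  HasQ.sum _ fun a _ => (hasQ_Gfun a).mul one_pos ((hasQ_Gfun (h * a)).dil p)

theorem hasQ_Phi (h : ZMod q) : HasQ 1 (Phi p q h) (PhiSer p q h) :=
  (hasQ_Fsum h).sub ((hasQ_Fsum _).avg q)

theorem bdd_Gfun (a : ZMod q) : BddAllCusps 1 (Gfun q a) := by
  intro A
  by_cases hA : (q : ℤ) ∣ A 1 0
  · rw [Gfun_slash_of_mem a hA]
    exact (hasQ_Gfun _).bdd one_pos
  · have hcz : (A 1 0 : ZMod q) ≠ 0 := fun h =>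
      hA ((ZMod.intCast_zmod_eq_zero_iff_dvd _ _).mp h)
    rw [Gfun_slash_of_not a hA (j := ((A 1 1 : ZMod q) / (A 1 0 : ZMod q)).val)
      (by rw [ZMod.natCast_zmod_val, mul_div_cancel₀ _ hcz])]
    have h1 := ((hasQ_Hfun (-a / (A 1 0 : ZMod q))).fdiv q
      ((A 1 1 : ZMod q) / (A 1 0 : ZMod q)).val).smul (q : ℂ)⁻¹
    exact h1.bdd (by exact_mod_cast (Nat.Prime.pos Fact.out))

theorem bdd_Fsum (h : ZMod q) : BddAllCusps 2 (Fsum p q h) := by
  show BddAllCusps ((1 : ℤ) + 1) (∑ a : ZMod q, Gfun q a * dil p (Gfun q (h * a)))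
  exact BddAllCusps.sum _ fun a _ => (bdd_Gfun a).mul ((bdd_Gfun (h * a)).dil p)

theorem Gfun_neg (a : ZMod q) : Gfun q (-a) = -Gfun q a :=
  (hasQ_Gfun (-a)).ext_fun (by rw [GSer_neg]; exact (hasQ_Gfun a).neg)

theorem sum_stdAddChar (c : ZMod q) :
    ∑ b : ZMod q, ψ q (b * c) = if c = 0 then (q : ℂ) else 0 := by
  have h := AddChar.sum_mulShift c (ZMod.isPrimitive_stdAddChar q)
  rw [ZMod.card] at h
  rw [h, apply_ite (fun n : ℕ => (n : ℂ))]
  simp

theorem sum_saw : ∑ x : ZMod q, saw q x = 0 := by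
  have h : ∑ x : ZMod q, saw q x = ∑ x : ZMod q, saw q (-x) :=
    (Equiv.sum_comp (Equiv.neg _) (saw q)).symm
  simp only [saw_neg, Finset.sum_neg_distrib] at h
  linear_combination h / 2

theorem val_sub_one (x : ZMod q) :
    (((x - 1 : ZMod q).val : ℕ) : ℂ) = (x.val : ℂ) - 1 + if x = 0 then (q : ℂ) else 0 := by
  have hq : 1 < q := Nat.Prime.one_lt Fact.out
  haveI : Fact (1 < q) := ⟨hq⟩
  rcases eq_or_ne x 0 with rfl | hx
  · rw [zero_sub, if_pos rfl, ZMod.val_zero, ZMod.val_neg_of_ne_zero, ZMod.val_one,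
      Nat.cast_sub hq.le]
    push_cast
    ring
  · have hv : 1 ≤ x.val := Nat.pos_of_ne_zero fun h => hx ((ZMod.val_eq_zero x).mp h)
    rw [if_neg hx, add_zero, ZMod.val_sub (by rw [ZMod.val_one]; exact hv), ZMod.val_one,
      Nat.cast_sub hv]
    simp

theorem cotC_eq_sum (b : ZMod q) : cotC q b = ∑ x : ZMod q, ψ q (b * x) * saw q x := by
  rcases eq_or_ne b 0 with rfl | hb
  · simp [cotC, ψ, sum_saw]
  set z := ψ q b with hz
  have hz1 : z - 1 ≠ 0 := sub_ne_zero.mpr fun h => hb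
    (ZMod.injective_stdAddChar (N := q) (by rw [AddChar.map_zero_eq_one]; exact h))
  have hzero : ∑ x : ZMod q, ψ q (b * x) = 0 := by
    have := sum_stdAddChar (q := q) b
    simp only [mul_comm _ b, if_neg hb] at this
    exact this
  have hS : ∑ x : ZMod q, ψ q (b * x) * (x.val : ℂ) = (q : ℂ) / (z - 1) := by
    rw [eq_div_iff hz1]
    have h1 : z * ∑ x : ZMod q, ψ q (b * x) * (x.val : ℂ) =
        ∑ x : ZMod q, ψ q (b * x) * (((x - 1 : ZMod q).val : ℕ) : ℂ) := by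
      rw [← Equiv.sum_comp (Equiv.addRight (1 : ZMod q))
        (fun x => ψ q (b * x) * (((x - 1 : ZMod q).val : ℕ) : ℂ)), Finset.mul_sum]
      refine Finset.sum_congr rfl fun x _ => ?_
      simp only [Equiv.coe_addRight, add_sub_cancel_right, mul_add, mul_one, hz, ψ,
        AddChar.map_add_eq_mul]
      ring
    have h2 : ∑ x : ZMod q, ψ q (b * x) * (((x - 1 : ZMod q).val : ℕ) : ℂ) =
        ∑ x : ZMod q, ψ q (b * x) * (x.val : ℂ) + q := by
      simp_rw [val_sub_one, mul_add, mul_sub, Finset.sum_add_distrib, Finset.sum_sub_distrib,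
        mul_one, hzero, sub_zero]
      congr 1
      simp [ψ, mul_ite]
    linear_combination h1 + h2
  have hsaw : ∀ x : ZMod q, saw q x = (x.val : ℂ) / q - 1 / 2 + if x = 0 then 1 / 2 else 0 := by
    intro x
    rcases eq_or_ne x 0 with rfl | hx
    · simp [saw]
    · simp [saw, hx]
  simp_rw [hsaw, mul_add, mul_sub, Finset.sum_add_distrib, Finset.sum_sub_distrib, mul_div_assoc',
    ← Finset.sum_div, mul_one]
  rw [hzero, hS]
  simp only [ψ, mul_ite, mul_one_div, mul_zero, Finset.sum_ite_eq', Finset.mem_univ, if_true,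
    mul_zero, AddChar.map_zero_eq_one]
  have hq : (q : ℂ) ≠ 0 := NeZero.ne _
  rw [cotC, ← hz]
  field_simp
  ring

theorem HSer_eq_sum (b : ZMod q) : HSer q b = ∑ x : ZMod q, ψ q (b * x) • GSer q x := by
  ext n
  simp only [HSer, GSer, coeff_mk, map_sum, PowerSeries.coeff_smul, smul_eq_mul]
  split_ifs with hn
  · exact cotC_eq_sum b
  · simp only [cH, cG, Int.cast_neg, Int.cast_sum, mul_neg, Finset.mul_sum,
      Finset.sum_neg_distrib]
    rw [Finset.sum_comm]
    congr 1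
    refine Finset.sum_congr rfl fun d _ => ?_
    simp only [chiG, Int.cast_sub, apply_ite (fun z : ℤ => (z : ℂ)), Int.cast_one, Int.cast_zero,
      mul_sub, mul_ite, mul_one, mul_zero, Finset.sum_sub_distrib]
    simp [eq_neg_iff_add_eq_zero, eq_comm (a := (d : ZMod q)), ← sub_eq_zero (a := -_)]
    congr 1
    rw [Finset.sum_eq_single (-(d : ZMod q))]
    · simp
    · intro x _ hx
      rw [if_neg]
      intro h
      apply hx
      linear_combination -h
    · simp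

theorem Hfun_eq_sum (b : ZMod q) : Hfun q b = ∑ x : ZMod q, ψ q (b * x) • Gfun q x := by
  refine (hasQ_Hfun b).ext_fun ?_
  rw [HSer_eq_sum]
  exact HasQ.sum _ fun x _ => (hasQ_Gfun x).smul _

theorem sum_Hfun_mul {k : ZMod q} (hk : k ≠ 0) (τ : ℍ) :
    ∑ b : ZMod q, Hfun q b τ * dil p (Hfun q (k * b)) τ = -(q : ℂ) * Fsum p q k⁻¹ τ := by
  simp only [Hfun_eq_sum, dil, Fsum, Finset.sum_apply, Pi.smul_apply, Pi.mul_apply, smul_eq_mul,
    Finset.sum_mul_sum]
  rw [Finset.mul_sum, Finset.sum_comm]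
  rw [← Equiv.sum_comp (Equiv.neg (ZMod q))]
  refine Finset.sum_congr rfl fun x _ => ?_
  rw [Finset.sum_comm]
  have h : ∀ y : ZMod q, ∑ b : ZMod q,
      ψ q (b * (Equiv.neg (ZMod q) x)) * Gfun q (Equiv.neg (ZMod q) x) τ *
        (ψ q (k * b * y) * Gfun q y (scalePt p τ)) =
      if y = k⁻¹ * x then -(q : ℂ) * (Gfun q x τ * Gfun q y (scalePt p τ)) else 0 := by
    intro y
    have h1 : ∀ b : ZMod q, ψ q (b * (Equiv.neg (ZMod q) x)) * Gfun q (Equiv.neg (ZMod q) x) τ *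
        (ψ q (k * b * y) * Gfun q y (scalePt p τ)) =
        ψ q (b * (-x + k * y)) * (-(Gfun q x τ * Gfun q y (scalePt p τ))) := by
      intro b
      rw [Equiv.neg_apply, Gfun_neg, Pi.neg_apply, mul_add b,
        show b * (k * y) = k * b * y by ring, ψ, ψ, ψ, AddChar.map_add_eq_mul]
      ring
    rw [Finset.sum_congr rfl fun b _ => h1 b, ← Finset.sum_mul, sum_stdAddChar]
    have h2 : (-x + k * y = 0) ↔ y = k⁻¹ * x := by
      rw [neg_add_eq_zero]
      constructor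
      · intro h; rw [h, inv_mul_cancel_left₀ hk]
      · intro h; rw [h, mul_inv_cancel_left₀ hk]
    simp only [h2]
    split_ifs <;> ring
  rw [Finset.sum_congr rfl fun y _ => h y, Finset.sum_ite_eq' _ (k⁻¹ * x), if_pos (Finset.mem_univ _)]

theorem dvd_of_dvd_mul_prime (hpq : p ≠ q) {c c' : ℤ} (hc : c = p * c') :
    (q : ℤ) ∣ c ↔ (q : ℤ) ∣ c' := by
  subst hc
  refine ⟨fun h => ?_, fun h => dvd_mul_of_dvd_right h _⟩
  rcases (Nat.prime_iff_prime_int.mp (Fact.out : q.Prime)).dvd_or_dvd h with h1 | h1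
  · exact absurd ((Nat.prime_dvd_prime_iff_eq Fact.out Fact.out).mp
      (Int.natCast_dvd_natCast.mp h1)) (Ne.symm hpq)
  · exact h1

theorem Fsum_slash_of_mem (hpq : p ≠ q) (h : ZMod q) {γ : SL(2, ℤ)} (hp : (p : ℤ) ∣ γ 1 0)
    (hq : (q : ℤ) ∣ γ 1 0) : Fsum p q h ∣[(2 : ℤ)] γ = Fsum p q h := by
  obtain ⟨c', hc⟩ := hp
  have hα : (γ 0 0 : ZMod q) ≠ 0 := by
    intro h0
    have h1 := congrArg (fun z : ℤ => (z : ZMod q)) (sl_det γ)
    simp only [Int.cast_sub, Int.cast_mul, h0, zero_mul, Int.cast_one,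
      (ZMod.intCast_zmod_eq_zero_iff_dvd _ q).mpr hq, mul_zero, sub_zero] at h1
    exact zero_ne_one h1
  rw [Fsum, SlashAction.sum_slash]
  conv_rhs => rw [← Equiv.sum_comp (Equiv.mulLeft₀ _ hα)]
  refine Finset.sum_congr rfl fun a _ => ?_
  rw [show (2 : ℤ) = 1 + 1 by norm_num, ModularForm.mul_slash_SL2]
  obtain ⟨B, hB00, -, hB10, -, hB⟩ := dil_slash (Gfun q (h * a)) 1 γ hc
  rw [hB, Gfun_slash_of_mem a hq,
    Gfun_slash_of_mem (h * a) (hB10 ▸ (dvd_of_dvd_mul_prime hpq hc).mp hq), hB00]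
  simp only [Equiv.mulLeft₀_apply]
  rw [mul_left_comm h]

theorem Fsum_slash_of_not (hpq : p ≠ q) {h : ZMod q} (hh : h ≠ 0) {γ : SL(2, ℤ)}
    (hp : (p : ℤ) ∣ γ 1 0) (hq : ¬(q : ℤ) ∣ γ 1 0) {j : ℕ}
    (hj : (γ 1 0 : ZMod q) * j = (γ 1 1 : ZMod q)) :
    Fsum p q h ∣[(2 : ℤ)] γ =
      fun τ => -(q : ℂ)⁻¹ * Fsum p q (h * p)⁻¹ (fdivPt q j τ) := by
  obtain ⟨c', hc⟩ := hp
  have hpz : (p : ZMod q) ≠ 0 := by
    rw [Ne, ZMod.natCast_eq_zero_iff, Nat.prime_dvd_prime_iff_eq Fact.out Fact.out]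
    exact Ne.symm hpq
  have hcz : (γ 1 0 : ZMod q) ≠ 0 := fun h0 =>
    hq ((ZMod.intCast_zmod_eq_zero_iff_dvd _ _).mp h0)
  funext τ
  set T := fdivPt q j τ with hT
  have key : ∀ a : ZMod q, (Gfun q a ∣[(1 : ℤ)] γ) τ *
      (dil p (Gfun q (h * a)) ∣[(1 : ℤ)] γ) τ =
      (q : ℂ)⁻¹ * (q : ℂ)⁻¹ * (Hfun q (-a / (γ 1 0 : ZMod q)) T *
        dil p (Hfun q (h * p * (-a / (γ 1 0 : ZMod q)))) T) := by
    intro a
    obtain ⟨B, -, -, hB10, hB11, hB⟩ := dil_slash (Gfun q (h * a)) 1 γ hc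
    have hc' : (γ 1 0 : ZMod q) = (p : ZMod q) * (c' : ZMod q) := by rw [hc]; push_cast; rfl
    have hB' : ¬(q : ℤ) ∣ B 1 0 := hB10 ▸ fun h0 => hq ((dvd_of_dvd_mul_prime hpq hc).mpr h0)
    have hjB : (B 1 0 : ZMod q) * ((p * j : ℕ) : ZMod q) = (B 1 1 : ZMod q) := by
      rw [hB10, hB11, ← hj, hc']
      push_cast
      ring
    have hpt : fdivPt q (p * j) (scalePt p τ) = scalePt p T := by
      apply UpperHalfPlane.ext
      rw [hT, coe_fdivPt, coe_scalePt, coe_scalePt, coe_fdivPt]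
      push_cast
      ring
    have he : -(h * a) / (B 1 0 : ZMod q) = h * p * (-a / (γ 1 0 : ZMod q)) := by
      have hc0 : (c' : ZMod q) ≠ 0 := fun h0 => hcz (by rw [hc', h0, mul_zero])
      rw [hB10, hc']
      field_simp
    rw [hB, Gfun_slash_of_not a hq hj]
    simp only [dil]
    rw [Gfun_slash_of_not (h * a) hB' hjB]
    beta_reduce
    rw [hpt, he]
    ring
  rw [Fsum, SlashAction.sum_slash, Finset.sum_apply]
  simp only [show (2 : ℤ) = 1 + 1 by norm_num, ModularForm.mul_slash_SL2, Pi.mul_apply, key]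
  rw [← Finset.mul_sum]
  have hbij : ∑ a : ZMod q, Hfun q (-a / (γ 1 0 : ZMod q)) T *
      dil p (Hfun q (h * p * (-a / (γ 1 0 : ZMod q)))) T =
      ∑ b : ZMod q, Hfun q b T * dil p (Hfun q (h * p * b)) T :=
    Fintype.sum_equiv ((Equiv.neg _).trans (Equiv.divRight₀ _ hcz)) _ _ fun a => rfl
  rw [hbij, sum_Hfun_mul (mul_ne_zero hh hpz)]
  have hq0 : (q : ℂ) ≠ 0 := NeZero.ne _
  field_simp

/-- The point of `ℙ¹(ZMod q)` of the bottom row. -/
def cls (q : ℕ) [Fact q.Prime] (A : SL(2, ℤ)) : Option (ZMod q) :=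
  if (A 1 0 : ZMod q) = 0 then none else some ((A 1 1 : ZMod q) / (A 1 0 : ZMod q))

theorem cls_eq_iff (A B : SL(2, ℤ)) :
    cls q A = cls q B ↔
      (A 1 0 : ZMod q) * (B 1 1 : ZMod q) = (B 1 0 : ZMod q) * (A 1 1 : ZMod q) := by
  have hne : ∀ M : SL(2, ℤ), (M 1 0 : ZMod q) = 0 → (M 1 1 : ZMod q) ≠ 0 := by
    intro M h0 h1
    have := congrArg (fun z : ℤ => (z : ZMod q)) (sl_det M)
    simp [h0, h1] at this
  rcases eq_or_ne (A 1 0 : ZMod q) 0 with ha | ha <;>
    rcases eq_or_ne (B 1 0 : ZMod q) 0 with hb | hb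
  · simp [cls, ha, hb]
  · simp [cls, ha, hb, hne A ha]
  · simp [cls, ha, hb, hne B hb]
  · simp only [cls, ha, hb, if_false, Option.some.injEq, div_eq_div_iff ha hb]
    constructor <;> intro h <;> linear_combination -h

theorem cls_mul_right_injective {A B : SL(2, ℤ)} (γ : SL(2, ℤ))
    (h : cls q (A * γ) = cls q (B * γ)) : cls q A = cls q B := by
  rw [cls_eq_iff] at h ⊢
  have hd : ((γ 0 0 : ZMod q) * (γ 1 1 : ZMod q) - (γ 0 1 : ZMod q) * (γ 1 0 : ZMod q)) = 1 := by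
    have := congrArg (fun z : ℤ => (z : ZMod q)) (sl_det γ)
    simpa using this
  simp only [Matrix.SpecialLinearGroup.coe_mul, Matrix.mul_apply, Fin.sum_univ_two,
    Int.cast_add, Int.cast_mul] at h
  linear_combination h - ((A 1 0 : ZMod q) * (B 1 1 : ZMod q) -
    (B 1 0 : ZMod q) * (A 1 1 : ZMod q)) * hd

/-- `Phi` is invariant under `Γ₀(p)`. -/
theorem Phi_slash (hpq : p ≠ q) {h : ZMod q} (hh : h ≠ 0) {γ : SL(2, ℤ)}
    (hγ : γ ∈ Gamma0 p) : Phi p q h ∣[(2 : ℤ)] γ = Phi p q h := by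
  obtain ⟨u, v, huv⟩ : IsCoprime (q : ℤ) (p : ℤ) :=
    Int.isCoprime_iff_gcd_eq_one.mpr (by
      simpa [Int.gcd_natCast_natCast] using
        ((Nat.coprime_primes Fact.out Fact.out).mpr (Ne.symm hpq)))
  set M := sl2 u (-v) (p : ℤ) (q : ℤ) (by linear_combination huv)
  set rep : Option (ZMod q) → SL(2, ℤ) := fun x =>
    x.elim 1 fun j => M * ModularGroup.T ^ ((j.val : ℕ) : ℤ)
  have hpz : (p : ZMod q) ≠ 0 := by
    rw [Ne, ZMod.natCast_eq_zero_iff, Nat.prime_dvd_prime_iff_eq Fact.out Fact.out]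
    exact Ne.symm hpq
  have hrep10 : ∀ j : ZMod q, rep (some j) 1 0 = p ∧
      rep (some j) 1 1 = (p : ℤ) * (j.val : ℤ) + q := by
    intro j
    simp only [rep, Option.elim_some, Matrix.SpecialLinearGroup.coe_mul, Matrix.mul_apply,
      Fin.sum_univ_two, ModularGroup.coe_T_zpow]
    simp [M]
  have hmem : ∀ x, rep x ∈ Gamma0 p := by
    intro x
    rcases x with _ | j
    · exact one_mem _
    · rw [mem_Gamma0_iff_dvd, (hrep10 j).1]
  have hcls : ∀ x, cls q (rep x) = x := by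
    intro x
    rcases x with _ | j
    · simp [cls, rep]
    · simp [cls, (hrep10 j).1, (hrep10 j).2, hpz]
  set F := Fsum p q h
  set term : Option (ZMod q) → ℍ → ℂ := fun x => F ∣[(2 : ℤ)] rep x
  have hterm : ∀ A ∈ Gamma0 p, F ∣[(2 : ℤ)] A = term (cls q A) := by
    intro A hA
    have hpA := mem_Gamma0_iff_dvd.mp hA
    rcases eq_or_ne (A 1 0 : ZMod q) 0 with hA0 | hA0
    · rw [show cls q A = none by simp [cls, hA0]]
      simp only [term, rep, Option.elim_none, SlashAction.slash_one]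
      exact Fsum_slash_of_mem hpq h hpA ((ZMod.intCast_zmod_eq_zero_iff_dvd _ _).mp hA0)
    · set j := (A 1 1 : ZMod q) / (A 1 0 : ZMod q) with hj
      rw [show cls q A = some j by simp [cls, hA0, hj]]
      have h1 := Fsum_slash_of_not hpq hh hpA
        (fun h0 => hA0 ((ZMod.intCast_zmod_eq_zero_iff_dvd _ _).mpr h0)) (j := j.val)
        (by rw [ZMod.natCast_zmod_val, hj, mul_div_cancel₀ _ hA0])
      have h2 := Fsum_slash_of_not hpq hh (mem_Gamma0_iff_dvd.mp (hmem (some j)))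
        (γ := rep (some j)) (j := j.val)
        (by
          rw [(hrep10 j).1, Int.natCast_dvd_natCast,
            Nat.prime_dvd_prime_iff_eq Fact.out Fact.out]
          exact Ne.symm hpq)
        (by simp [(hrep10 j).1, (hrep10 j).2])
      simp only [term, F]
      rw [h1, h2]
  have hPhi : Phi p q h = ∑ x, term x := by
    rw [Fintype.sum_option]
    have h0 : term none = F := by simp [term, rep]
    have h2 : ∀ j : ZMod q, term (some j) =
        fun τ => -(q : ℂ)⁻¹ * Fsum p q (h * p)⁻¹ (fdivPt q j.val τ) := fun j =>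
      Fsum_slash_of_not hpq hh (mem_Gamma0_iff_dvd.mp (hmem (some j)))
        (γ := rep (some j)) (j := j.val)
        (by
          rw [(hrep10 j).1, Int.natCast_dvd_natCast,
            Nat.prime_dvd_prime_iff_eq Fact.out Fact.out]
          exact Ne.symm hpq)
        (by simp [(hrep10 j).1, (hrep10 j).2])
    funext τ
    simp only [h0, h2, Phi, F, avg, Pi.sub_apply, Pi.add_apply, Finset.sum_apply]
    rw [← Finset.mul_sum, neg_mul, sub_eq_add_neg]
    congr 3
    refine Finset.sum_nbij' (fun j : ℕ => (j : ZMod q)) ZMod.val ?_ ?_ ?_ ?_ ?_ <;>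
      intro a ha
    · simp
    · exact Finset.mem_range.mpr (ZMod.val_lt a)
    · exact ZMod.val_natCast_of_lt (Finset.mem_range.mp ha)
    · exact ZMod.natCast_zmod_val a
    · rw [ZMod.val_natCast_of_lt (Finset.mem_range.mp ha)]
  rw [hPhi, SlashAction.sum_slash]
  have hstep : ∀ x, term x ∣[(2 : ℤ)] γ = term (cls q (rep x * γ)) := fun x => by
    simp only [term, ← SlashAction.slash_mul]
    exact hterm _ (mul_mem (hmem x) hγ)
  rw [Finset.sum_congr rfl fun x _ => hstep x]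
  exact Fintype.sum_bijective (fun x => cls q (rep x * γ))
    (Finite.injective_iff_bijective.mp fun x y hxy => by
      rw [← hcls x, ← hcls y]; exact cls_mul_right_injective γ hxy) _ _ fun x => rfl

theorem isLv_Phi (hpq : p ≠ q) {h : ZMod q} (hh : h ≠ 0) : IsLv p 2 (Phi p q h) where
  inv γ hγ := Phi_slash hpq hh hγ
  hol := (hasQ_Phi h).mdiff one_pos
  bdd := by
    have h1 := ((bdd_Fsum (p := p) (h * p : ZMod q)⁻¹).avg q).smul (-1)
    have h2 := (bdd_Fsum (p := p) h).add h1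
    rwa [neg_one_smul, ← sub_eq_add_neg] at h2

end FA.Eis
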