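import Fermat.Agent.Deform.EigenLift

/-!
# The Deligne–Serre lifting lemma for cusp forms of level one and weight `k`
-/

set_option autoImplicit false

noncomputable section

open CongruenceSubgroup
open scoped MatrixGroups

namespace FA.EisCong

local notation "ZB" => integralClosure ℤ ℂ

variable {k : ℤ}

theorem gamma0_one_coe :
    ((Gamma0 1 : Subgroup SL(2, ℤ)) : Subgroup (GL (Fin 2) ℝ)) = 𝒮ℒ := by
  have h : Gamma0 1 = ⊤ := eq_top_iff.mpr fun g _ => by
    rw [Gamma0_mem]; exact Subsingleton.elim _ _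
  rw [h, ← MonoidHom.range_eq_map]

/-- Coefficients as a linear map. -/
def qL (k : ℤ) : CuspForm (Gamma0 1) k →ₗ[ℂ] (ℕ → ℂ) where
  toFun f := ModularFormClass.qCoeff f
  map_add' f g := by
    funext n
    have h := ModularForm.qExpansion_add one_pos (one_mem_strictPeriods_Gamma0 1) f g
    simpa [ModularFormClass.qCoeff] using congrArg (PowerSeries.coeff n) h
  map_smul' c f := by
    funext n
    have h := ModularForm.qExpansion_smul one_pos (one_mem_strictPeriods_Gamma0 1) c f
    simpa [ModularFormClass.qCoeff] using congrArg (PowerSeries.coeff n) h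

theorem qL_apply (f : CuspForm (Gamma0 1) k) (n : ℕ) :
    qL k f n = ModularFormClass.qCoeff f n := rfl

theorem qL_zero (f : CuspForm (Gamma0 1) k) : qL k f 0 = 0 :=
  CuspFormClass.qExpansion_coeff_zero f one_pos (one_mem_strictPeriods_Gamma0 1)

theorem qL_injective : Function.Injective (qL k) := by
  intro f g h
  have : Fact (IsCusp OnePoint.infty
      ((Gamma0 1).map (Matrix.SpecialLinearGroup.mapGL ℝ))) :=
    ⟨Subgroup.isCusp_of_mem_strictPeriods one_pos (one_mem_strictPeriods_Gamma0 1)⟩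
  apply DFunLike.coe_injective
  refine UpperHalfPlane.eq_of_forall_qCoeff_eq ?_ (CuspFormClass.holo f) ?_ ?_
    (CuspFormClass.holo g) ?_ (fun n => congrFun h n)
  · exact_mod_cast SlashInvariantFormClass.periodic_comp_ofComplex f (one_mem_strictPeriods_Gamma0 1)
  · exact ModularFormClass.bdd_at_infty f
  · exact_mod_cast SlashInvariantFormClass.periodic_comp_ofComplex g (one_mem_strictPeriods_Gamma0 1)
  · exact ModularFormClass.bdd_at_infty g

theorem qL_heckeT {p : ℕ} (hp : p.Prime) (f : CuspForm (Gamma0 1) k) (n : ℕ) :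
    qL k (CuspForm.heckeTLin k hp hp.not_dvd_one f) n =
      qL k f (n * p) + if p ∣ n then (p : ℂ) ^ (k - 1) * qL k f (n / p) else 0 := by
  rw [qL_apply, CuspForm.coe_heckeTLin_apply,
    ModularFormClass.qCoeff_heckeT f (one_mem_strictPeriods_Gamma0 1) hp.ne_zero,
    ModularForm.coeffHeckeT_apply]
  rfl

theorem intLattice_int (f : CuspForm (Gamma0 1) k) (hf : f ∈ CuspForm.intLattice 1 k) (n : ℕ) :
    ∃ z : ℤ, qL k f n = z := by
  induction hf using Submodule.span_induction with
  | mem x hx => exact hx n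
  | zero => exact ⟨0, by simp⟩
  | add x y _ _ hx hy =>
    obtain ⟨a, ha⟩ := hx
    obtain ⟨b, hb⟩ := hy
    exact ⟨a + b, by simp [ha, hb]⟩
  | smul z x _ hx =>
    obtain ⟨a, ha⟩ := hx
    refine ⟨z * a, ?_⟩
    rw [map_zsmul, Pi.smul_apply, ha, zsmul_eq_mul]
    push_cast
    rfl

/-- The span of the lattice. -/
def latSpan (k : ℤ) : Submodule ℂ (CuspForm (Gamma0 1) k) :=
  Submodule.span ℂ (CuspForm.intLattice 1 k : Set (CuspForm (Gamma0 1) k))

theorem latSpan_finite : FiniteDimensional ℂ (latSpan k) := by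
  obtain ⟨s, hs⟩ := CuspForm.intLattice_fg 1 k
  have e : latSpan k = Submodule.span ℂ (s : Set (CuspForm (Gamma0 1) k)) := by
    rw [latSpan, ← hs, Submodule.span_span_of_tower]
  rw [e]
  exact FiniteDimensional.span_finset ℂ s

theorem latSpan_stable (hk : 1 ≤ k) (t : CuspForm.heckeAlgebra 1 k ∅)
    {w : CuspForm (Gamma0 1) k} (hw : w ∈ latSpan k) :
    (t : Module.End ℂ (CuspForm (Gamma0 1) k)) w ∈ latSpan k := by
  induction hw using Submodule.span_induction with
  | mem x hx => exact Submodule.subset_span (CuspForm.mem_intLattice_of_mem_heckeAlgebra hk t.2 hx)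
  | zero => simp
  | add x y _ _ hx hy => rw [map_add]; exact add_mem hx hy
  | smul c x _ hx => rw [map_smul]; exact Submodule.smul_mem _ c hx

/-- The action on the span of the lattice. -/
def actW (hk : 1 ≤ k) : CuspForm.heckeAlgebra 1 k ∅ →+* Module.End ℂ (latSpan k) where
  toFun t := (t : Module.End ℂ (CuspForm (Gamma0 1) k)).restrict fun _ hw => latSpan_stable hk t hw
  map_one' := rfl
  map_mul' _ _ := rfl
  map_zero' := rfl
  map_add' _ _ := rfl

theorem coe_actW (hk : 1 ≤ k) (t : CuspForm.heckeAlgebra 1 k ∅) (w : latSpan k) :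
    ((actW hk t w : latSpan k) : CuspForm (Gamma0 1) k) =
      (t : Module.End ℂ (CuspForm (Gamma0 1) k)) w := rfl

theorem isIntegral_eigenvalue (hk : 1 ≤ k) (χ : CuspForm.heckeAlgebra 1 k ∅ →+* ℂ)
    {v : latSpan k} (hv : v ≠ 0) (hev : ∀ t, actW hk t v = χ t • v)
    (t : CuspForm.heckeAlgebra 1 k ∅) : IsIntegral ℤ (χ t) := by
  let L := CuspForm.intLattice 1 k
  have : Module.Finite ℤ L := Module.Finite.iff_fg.mpr (CuspForm.intLattice_fg 1 k)
  let res : CuspForm.heckeAlgebra 1 k ∅ →+* Module.End ℤ L :=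
    { toFun := fun s => ((s : Module.End ℂ (CuspForm (Gamma0 1) k)).restrictScalars ℤ).restrict
        (fun x hx => CuspForm.mem_intLattice_of_mem_heckeAlgebra hk s.2 hx)
      map_one' := rfl
      map_mul' := fun _ _ => rfl
      map_zero' := rfl
      map_add' := fun _ _ => rfl }
  obtain ⟨P, hP, -, hPt⟩ := LinearMap.exists_monic_and_natDegree_eq_and_aeval_eq_zero ℤ (res t)
  set u := Polynomial.aeval t P with hu
  have hres : res u = 0 := by
    rw [hu, Polynomial.aeval_def, Polynomial.hom_eval₂, ← hPt, Polynomial.aeval_def]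
    congr 1
  have hact : actW hk u v = 0 := by
    apply Subtype.ext
    rw [coe_actW, ZeroMemClass.coe_zero]
    refine LinearMap.eqOn_span (f := (u : Module.End ℂ (CuspForm (Gamma0 1) k))) (g := 0) ?_ v.2
    intro x hx
    exact congrArg Subtype.val (LinearMap.congr_fun hres ⟨x, hx⟩)
  have h0 : χ u = 0 := by
    rw [hev] at hact
    exact (smul_eq_zero.mp hact).resolve_right hv
  refine ⟨P, hP, ?_⟩
  rw [hu, Polynomial.aeval_def, Polynomial.hom_eval₂] at h0
  rwa [RingHom.ext_int (χ.comp _) (algebraMap ℤ ℂ)] at h0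

/-- **Deligne–Serre lifting in level one**: a system congruent to eigenvalues lifts to an eigenform. -/
theorem exists_eigen_congruent (hk : 1 ≤ k) {q : ℕ} (hq : q.Prime) {b : ℕ → ℤ}
    (f₀ : CuspForm (Gamma0 1) k) (hf₀ : f₀ ∈ CuspForm.intLattice 1 k)
    (h1 : ∀ z : ℤ, qL k f₀ 1 = (z : ℂ) → ¬ (q : ℤ) ∣ z)
    (heig : ∀ (ℓ : ℕ) (hℓ : ℓ.Prime) (n : ℕ), ∃ z : ℤ,
      qL k (CuspForm.heckeTLin k hℓ hℓ.not_dvd_one f₀ - (b ℓ : ℂ) • f₀) n = ((q * z : ℤ) : ℂ)) :
    ∃ (f : CuspForm (Gamma0 1) k) (m : Ideal ZB), m.IsMaximal ∧ (q : ZB) ∈ m ∧ qL k f 1 = 1 ∧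
      (∀ a c : ℕ, a.Coprime c → qL k f (a * c) = qL k f a * qL k f c) ∧
      (∀ ℓ r : ℕ, ℓ.Prime → qL k f (ℓ ^ (r + 2)) =
        qL k f ℓ * qL k f (ℓ ^ (r + 1)) - (ℓ : ℂ) ^ (k - 1) * qL k f (ℓ ^ r)) ∧
      ∀ ℓ : ℕ, ℓ.Prime → ∃ c : ZB, (c : ℂ) = qL k f ℓ ∧ c - (b ℓ : ZB) ∈ m := by
  classical
  let T := CuspForm.heckeAlgebra 1 k ∅
  let act : T →+* Module.End ℂ (CuspForm (Gamma0 1) k) := T.val.toRingHom
  have := latSpan_finite (k := k)
  let Dv : CuspForm (Gamma0 1) k → Prop := fun g => ∀ n, ∃ z : ℤ, qL k g n = ((q * z : ℤ) : ℂ)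
  have hq0 : (q : ℂ) ≠ 0 := by exact_mod_cast hq.ne_zero
  have hdiv : ∀ g, Dv g → ∃ g', g' ∈ CuspForm.intLattice 1 k ∧ g = (q : ℂ) • g' := by
    intro g hg
    refine ⟨(q : ℂ)⁻¹ • g, Submodule.subset_span fun n => ?_,
      by rw [smul_smul, mul_inv_cancel₀ hq0, one_smul]⟩
    obtain ⟨z, hz⟩ := hg n
    refine ⟨z, ?_⟩
    rw [← qL_apply, map_smul, Pi.smul_apply, hz, smul_eq_mul]
    push_cast
    field_simp
  let I : Ideal T :=
    { carrier := {t | Dv (act t f₀)}
      zero_mem' := fun n => ⟨0, by simp⟩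
      add_mem' := fun {x y} hx hy n => by
        obtain ⟨u, hu⟩ := hx n
        obtain ⟨w, hw⟩ := hy n
        refine ⟨u + w, ?_⟩
        rw [map_add, LinearMap.add_apply, map_add, Pi.add_apply, hu, hw]
        push_cast
        ring
      smul_mem' := fun s t ht n => by
        obtain ⟨g, hg, hgt⟩ := hdiv _ ht
        obtain ⟨z, hz⟩ := intLattice_int _
          (CuspForm.mem_intLattice_of_mem_heckeAlgebra hk s.2 hg) n
        refine ⟨z, ?_⟩
        rw [smul_eq_mul, map_mul, Module.End.mul_apply, hgt, map_smul, map_smul, Pi.smul_apply,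
          show act s g = (s : Module.End ℂ (CuspForm (Gamma0 1) k)) g from rfl, hz, smul_eq_mul]
        push_cast
        ring }
  have hI : I ≠ ⊤ := by
    rw [Ne, Ideal.eq_top_iff_one]
    intro h'
    obtain ⟨z, hz⟩ := h' 1
    rw [map_one, Module.End.one_apply] at hz
    exact h1 _ hz (dvd_mul_right _ _)
  obtain ⟨m, hmax, hIm⟩ := I.exists_le_maximal hI
  have := hmax.isPrime
  have hqm : (q : T) ∈ m := hIm fun n => by
    obtain ⟨z, hz⟩ := intLattice_int f₀ hf₀ n
    refine ⟨z, ?_⟩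
    rw [map_natCast, Module.End.natCast_apply, map_nsmul, Pi.smul_apply, hz, nsmul_eq_mul]
    push_cast
    rfl
  obtain ⟨v, χ, hv, hev, hker⟩ := FA.Deform.exists_eigenvector_of_prime (actW hk) m (fun t ht => hIm
    fun n => by
      have h := congrArg Subtype.val (LinearMap.congr_fun ht ⟨f₀, Submodule.subset_span hf₀⟩)
      refine ⟨0, ?_⟩
      rw [show act t f₀ = 0 from h]
      simp)
  -- the eigenform
  set c : ℕ → ℂ := qL k (v : CuspForm (Gamma0 1) k) with hc
  let lam : ℕ → ℂ := fun l => if hl : l.Prime then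
    χ (CuspForm.heckeAlgebra.T hl hl.not_dvd_one (Set.notMem_empty _)) else 0
  have hrec : ∀ l : ℕ, l.Prime → ∀ n,
      c (n * l) + (if l ∣ n then (l : ℂ) ^ (k - 1) * c (n / l) else 0) = lam l * c n := by
    intro l hl n
    have h := congrArg (fun w : latSpan k => qL k (w : CuspForm (Gamma0 1) k) n)
      (hev (CuspForm.heckeAlgebra.T hl hl.not_dvd_one (Set.notMem_empty _)))
    simp only [coe_actW, CuspForm.heckeAlgebra.coe_T, Submodule.coe_smul, map_smul, Pi.smul_apply,
      smul_eq_mul, qL_heckeT hl] at h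
    simpa [lam, hl, hc] using h
  have hc1 : c 1 ≠ 0 := by
    intro e1
    apply hv
    apply Subtype.ext
    apply qL_injective
    funext n
    induction n using Nat.strong_induction_on with
    | _ n ih =>
      rw [ZeroMemClass.coe_zero, map_zero, Pi.zero_apply]
      rcases Nat.eq_zero_or_pos n with rfl | hn
      · exact qL_zero _
      rcases eq_or_ne n 1 with rfl | hne
      · exact e1
      obtain ⟨l, hl, j, rfl⟩ := Nat.exists_prime_and_dvd hne
      have hj : j < l * j := lt_mul_of_one_lt_left (Nat.pos_of_mul_pos_left hn) hl.one_lt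
      have e := hrec l hl j
      have h2 := ih j hj
      have h3 := ih _ ((Nat.div_le_self j l).trans_lt hj)
      rw [ZeroMemClass.coe_zero, map_zero, Pi.zero_apply] at h2 h3
      simp only [hc, h2, h3, mul_zero, ite_self, add_zero, mul_comm j l] at e
      exact e
  let f := (c 1)⁻¹ • (v : CuspForm (Gamma0 1) k)
  have hf : ∀ n, qL k f n = (c 1)⁻¹ * c n := fun n => by
    rw [map_smul, Pi.smul_apply, smul_eq_mul]
  have hone : qL k f 1 = 1 := by rw [hf]; exact inv_mul_cancel₀ hc1
  have hrec' : ∀ l : ℕ, l.Prime → ∀ n, qL k f (n * l) +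
      (if l ∣ n then (l : ℂ) ^ (k - 1) * qL k f (n / l) else 0) = lam l * qL k f n := by
    intro l hl n
    have e := hrec l hl n
    simp only [hf]
    split_ifs with h
    · rw [if_pos h] at e
      linear_combination (c 1)⁻¹ * e
    · rw [if_neg h] at e
      linear_combination (c 1)⁻¹ * e
  have hcp : ∀ l : ℕ, l.Prime → qL k f l = lam l := by
    intro l hl
    have e := hrec' l hl 1
    rwa [one_mul, if_neg (fun h => hl.ne_one (Nat.dvd_one.mp h)), add_zero, hone, mul_one] at e
  -- the prime over `m`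
  let χ' : T →+* ZB := χ.codRestrict (integralClosure ℤ ℂ).toSubring fun t =>
    isIntegral_eigenvalue hk χ hv hev t
  let : Algebra T ZB := χ'.toAlgebra
  have : IsScalarTower ℤ T ZB := IsScalarTower.of_algebraMap_eq' (RingHom.ext_int _ _)
  have : Algebra.IsIntegral T ZB :=
    ⟨fun x => (Algebra.IsIntegral.isIntegral (R := ℤ) x).tower_top⟩
  obtain ⟨m', hm', hover⟩ :=
    Ideal.exists_ideal_over_maximal_of_isIntegral (S := ZB) m (by
      intro t ht
      exact hker (congrArg Subtype.val (RingHom.mem_ker.mp ht)))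
  have hmem : ∀ t : T, χ' t ∈ m' ↔ t ∈ m := fun t => by rw [← hover]; rfl
  refine ⟨f, m', hm', ?_, hone, FA.Deform.mul_of_coprime_of_rec (qL_zero f) hone hrec', ?_, ?_⟩
  · have := (hmem (q : T)).mpr hqm
    rwa [map_natCast] at this
  · intro l r hl
    have e := hrec' l hl (l ^ (r + 1))
    rw [if_pos (dvd_pow_self l (Nat.succ_ne_zero r)), pow_succ l r,
      Nat.mul_div_cancel _ hl.pos] at e
    rw [hcp l hl, show l ^ (r + 2) = l ^ r * l * l by ring, pow_succ l r]
    linear_combination e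
  · intro l hl
    refine ⟨χ' (CuspForm.heckeAlgebra.T hl hl.not_dvd_one (Set.notMem_empty _)), ?_, ?_⟩
    · rw [hcp l hl]
      simp only [lam, dif_pos hl]
      rfl
    · have h : CuspForm.heckeAlgebra.T hl hl.not_dvd_one (Set.notMem_empty _) - (b l : T) ∈ m :=
        hIm fun n => by
          obtain ⟨z, hz⟩ := heig l hl n
          refine ⟨z, ?_⟩
          rw [map_sub, map_intCast, LinearMap.sub_apply, Module.End.intCast_apply,
            ← Int.cast_smul_eq_zsmul ℂ, ← hz]
          rfl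
      have h' := (hmem _).mpr h
      rwa [map_sub, map_intCast] at h'

end FA.EisCong
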