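import Fermat.Agent.Eisenstein.Slash
import Fermat.Prelude.Thm_UpperHalfPlane_qCoeff_heckeU

/-!
# Operators on q-series: dilation, averaging, change of period
-/

set_option autoImplicit false

noncomputable section

open UpperHalfPlane hiding I
open Complex Filter Function Topology PowerSeries
open scoped Manifold Real

local notation "𝕢" => Function.Periodic.qParam

namespace FA.Eis

/-- The coefficient operator `∑ a_n X^n ↦ ∑ a_{np} X^n`. -/
def Up {R : Type*} [CommRing R] (p : ℕ) : PowerSeries R →ₗ[R] PowerSeries R where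
  toFun A := PowerSeries.mk fun n => coeff (n * p) A
  map_add' A B := by ext n; simp
  map_smul' c A := by ext n; simp

@[simp] theorem coeff_Up {R : Type*} [CommRing R] (p : ℕ) (A : PowerSeries R) (n : ℕ) :
    coeff n (Up p A) = coeff (n * p) A := by simp [Up]

/-- `A(X) ↦ A(X^p)`. -/
abbrev Vp {R : Type*} [CommRing R] (p : ℕ) [NeZero p] : PowerSeries R →ₐ[R] PowerSeries R :=
  PowerSeries.expand p (NeZero.ne p)

theorem map_Up {R S : Type*} [CommRing R] [CommRing S] (φ : R →+* S) (p : ℕ) (A : PowerSeries R) :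
    PowerSeries.map φ (Up p A) = Up p (PowerSeries.map φ A) := by ext n; simp

theorem coeff_Vp {R : Type*} [CommRing R] (p : ℕ) [NeZero p] (A : PowerSeries R) (n : ℕ) :
    coeff n (Vp p A) = if p ∣ n then coeff (n / p) A else 0 := by
  rw [PowerSeries.coeff_expand]

theorem Up_mul_Vp {R : Type*} [CommRing R] (p : ℕ) [NeZero p] (A : PowerSeries R) :
    Up p (Vp p A) = A := by
  ext n
  simp [coeff_Vp, Nat.pos_of_ne_zero (NeZero.ne p)]

theorem qParam_one_fdivPt (p : ℕ) [NeZero p] (j : ℕ) (τ : ℍ) :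
    𝕢 1 ((fdivPt p j τ : ℍ) : ℂ) = exp (2 * π * I / p) ^ j * 𝕢 (p : ℝ) τ := by
  have : (p : ℂ) ≠ 0 := NeZero.ne _
  rw [coe_fdivPt, ← Complex.exp_nat_mul, Periodic.qParam, Periodic.qParam, ← Complex.exp_add]
  congr 1
  push_cast
  field_simp
  ring

theorem qParam_scalePt (p : ℕ) [NeZero p] (h : ℝ) (τ : ℍ) :
    𝕢 h ((scalePt p τ : ℍ) : ℂ) = 𝕢 h τ ^ p := by
  rw [coe_scalePt, Periodic.qParam, Periodic.qParam, ← Complex.exp_nat_mul]
  congr 1
  ring

theorem qParam_natCast_pow (p : ℕ) [NeZero p] (τ : ℍ) : 𝕢 (p : ℝ) τ ^ p = 𝕢 1 τ := by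
  have : (p : ℂ) ≠ 0 := NeZero.ne _
  rw [Periodic.qParam, Periodic.qParam, ← Complex.exp_nat_mul]
  congr 1
  push_cast
  field_simp

private theorem hasSum_expand {h : ℝ} {A : PowerSeries ℂ} (p : ℕ) [NeZero p] {q : ℂ} {s : ℂ}
    (hs : HasSum (fun n => coeff n A * (q ^ p) ^ n) s) :
    HasSum (fun n => coeff n (Vp p A) * q ^ n) s := by
  have hinj : Function.Injective (fun l : ℕ => l * p) := mul_left_injective₀ (NeZero.ne p)
  refine (hinj.hasSum_iff (fun m hm => ?_)).mp ?_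
  · have : ¬ p ∣ m := by
      rintro ⟨l, rfl⟩
      exact hm ⟨l, mul_comm l p⟩
    simp [coeff_Vp, this]
  · refine hs.congr_fun fun l => ?_
    simp [coeff_Vp, Nat.mul_div_cancel_left l (Nat.pos_of_ne_zero (NeZero.ne p)), ← pow_mul,
      mul_comm l p]

namespace HasQ

variable {f : ℍ → ℂ} {A : PowerSeries ℂ}

theorem dil {h : ℝ} (hf : HasQ h f A) (p : ℕ) [NeZero p] :
    HasQ h (FA.Eis.dil p f) (Vp p A) := fun τ => by
  have := hf (scalePt p τ)
  rw [qParam_scalePt] at this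
  exact hasSum_expand (h := h) p this

theorem changePeriod (hf : HasQ 1 f A) (p : ℕ) [NeZero p] : HasQ (p : ℝ) f (Vp p A) := fun τ => by
  have := hf τ
  rw [← qParam_natCast_pow p τ] at this
  exact hasSum_expand (h := 1) p this

theorem fdiv (hf : HasQ 1 f A) (p : ℕ) [NeZero p] (j : ℕ) :
    HasQ (p : ℝ) (fun τ => f (fdivPt p j τ)) (rescale (exp (2 * π * I / p) ^ j) A) := fun τ => by
  have := hf (fdivPt p j τ)
  rw [qParam_one_fdivPt] at this
  refine this.congr_fun fun n => ?_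
  rw [coeff_rescale, mul_pow]
  ring

theorem avg (hf : HasQ 1 f A) (p : ℕ) [NeZero p] : HasQ 1 (FA.Eis.avg p f) (Up p A) := fun τ => by
  have := P2MW.S_UpperHalfPlane_qCoeff_heckeU.M4cP1W2.hasSum_average (NeZero.ne p)
    (by simpa using hf.periodic one_pos) (hf.mdiff one_pos) (hf.bdd one_pos) τ
  refine this.congr_fun fun n => ?_
  rw [coeff_Up, ModularFormClass.qCoeff, hf.qExpansion_eq one_pos]

theorem vadd_int (hf : HasQ 1 f A) (n : ℤ) (τ : ℍ) : f ((n : ℝ) +ᵥ τ) = f τ := by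
  rw [hf.eq_seriesFun, hf.eq_seriesFun]
  congr 1
  rw [UpperHalfPlane.coe_vadd, Periodic.qParam, Periodic.qParam]
  push_cast
  rw [show 2 * π * I * ((n : ℂ) + τ) / 1 = 2 * π * I * τ / 1 + (n : ℂ) * (2 * π * I) by ring,
    Complex.exp_add, Complex.exp_int_mul_two_pi_mul_I, mul_one]

end HasQ

end FA.Eis
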