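import Fermat.Agent.Eisenstein.LevelP

/-!
# The Eisenstein series of weight two and prime level, and cusp forms from `IsLv`
-/

set_option autoImplicit false

noncomputable section

open UpperHalfPlane hiding I
open Complex Filter Function Topology PowerSeries CongruenceSubgroup EisensteinSeries
open scoped Real MatrixGroups ModularForm ArithmeticFunction.sigma

local notation "𝕢" => Function.Periodic.qParam

namespace FA.Eis

/-- The sum of the divisors of `n` which are prime to `p`. -/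
def sigP (p n : ℕ) : ℤ := ∑ d ∈ n.divisors with ¬p ∣ d, (d : ℤ)

@[simp] theorem sigP_zero (p : ℕ) : sigP p 0 = 0 := by simp [sigP]

theorem sigP_one (p : ℕ) [Fact p.Prime] : sigP p 1 = 1 := by
  simp [sigP, Finset.filter_singleton, (Fact.out : p.Prime).ne_one]

theorem sum_divisors_prime_mul {ℓ : ℕ} (hℓ : ℓ.Prime) (k : ℕ) (F : ℕ → ℤ) :
    ∑ d ∈ (ℓ * k).divisors, F d =
      ∑ d ∈ k.divisors with ¬ℓ ∣ d, F d + ∑ d ∈ k.divisors, F (ℓ * d) := by
  rcases eq_or_ne k 0 with rfl | hk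
  · simp
  rw [← Finset.sum_filter_add_sum_filter_not (ℓ * k).divisors (fun d => ¬ℓ ∣ d)]
  congr 1
  · refine Finset.sum_congr ?_ fun _ _ => rfl
    ext d
    simp only [Finset.mem_filter, Nat.mem_divisors]
    constructor
    · rintro ⟨⟨hd, -⟩, hnd⟩
      exact ⟨⟨(Nat.Coprime.dvd_of_dvd_mul_left
        ((Nat.Prime.coprime_iff_not_dvd hℓ).mpr hnd).symm hd), hk⟩, hnd⟩
    · rintro ⟨⟨hd, -⟩, hnd⟩
      exact ⟨⟨dvd_mul_of_dvd_right hd _, mul_ne_zero hℓ.ne_zero hk⟩, hnd⟩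
  · refine (Finset.sum_nbij' (fun d => ℓ * d) (fun d => d / ℓ) ?_ ?_ ?_ ?_ ?_).symm
    · intro d hd
      simp only [Finset.mem_coe, Finset.mem_filter, Nat.mem_divisors, not_not] at hd ⊢
      exact ⟨⟨mul_dvd_mul_left _ hd.1, mul_ne_zero hℓ.ne_zero hk⟩, dvd_mul_right _ _⟩
    · intro d hd
      simp only [Finset.mem_coe, Finset.mem_filter, Nat.mem_divisors, not_not] at hd ⊢
      exact ⟨Nat.div_dvd_iff_dvd_mul hd.2 hℓ.pos |>.mpr hd.1.1, hk⟩
    · intro d _
      exact Nat.mul_div_cancel_left d hℓ.pos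
    · intro d hd
      simp only [Finset.mem_coe, Finset.mem_filter, not_not] at hd
      exact Nat.mul_div_cancel' hd.2
    · intro d _
      rfl

theorem sigP_p_mul (p : ℕ) [Fact p.Prime] (k : ℕ) : sigP p (p * k) = sigP p k := by
  simp only [sigP, Finset.sum_filter]
  rw [sum_divisors_prime_mul Fact.out k fun d => if ¬p ∣ d then (d : ℤ) else 0]
  simp only [dvd_mul_right, not_true_eq_false, if_false, Finset.sum_const_zero, add_zero,
    Finset.sum_filter]
  exact Finset.sum_congr rfl fun d _ => by split_ifs <;> rfl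

theorem sigP_prime_mul (p : ℕ) [Fact p.Prime] {ℓ : ℕ} (hℓ : ℓ.Prime) (hne : ℓ ≠ p) (k : ℕ) :
    sigP p (ℓ * k) =
      (1 + ℓ) * sigP p k - if ℓ ∣ k then (ℓ : ℤ) * sigP p (k / ℓ) else 0 := by
  have key : ∀ d : ℕ, p ∣ ℓ * d ↔ p ∣ d := fun d => by
    rw [(Fact.out : p.Prime).dvd_mul]
    simp [Nat.prime_dvd_prime_iff_eq Fact.out hℓ, Ne.symm hne]
  have hmul : ∀ m : ℕ, ∑ d ∈ m.divisors, (if ¬p ∣ ℓ * d then ((ℓ * d : ℕ) : ℤ) else 0) =
      ℓ * sigP p m := fun m => by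
    simp only [sigP, Finset.sum_filter, Finset.mul_sum, key, mul_ite, mul_zero, Nat.cast_mul]
  set F : ℕ → ℤ := fun d => if ¬p ∣ d then (d : ℤ) else 0 with hF
  have h1 : sigP p (ℓ * k) = ∑ d ∈ k.divisors with ¬ℓ ∣ d, F d + ℓ * sigP p k := by
    rw [← hmul k, sigP, Finset.sum_filter]
    exact sum_divisors_prime_mul hℓ k F
  by_cases hk : ℓ ∣ k
  · obtain ⟨j, rfl⟩ := hk
    have h2 : sigP p (ℓ * j) = ∑ d ∈ j.divisors with ¬ℓ ∣ d, F d + ℓ * sigP p j := by
      rw [← hmul j, sigP, Finset.sum_filter]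
      exact sum_divisors_prime_mul hℓ j F
    have h3 : ∑ d ∈ (ℓ * j).divisors with ¬ℓ ∣ d, F d = ∑ d ∈ j.divisors with ¬ℓ ∣ d, F d := by
      rw [Finset.sum_filter,
        sum_divisors_prime_mul hℓ j (fun d => if ¬ℓ ∣ d then F d else 0)]
      simp [Finset.sum_filter]
      exact Finset.sum_congr rfl fun x _ => by split_ifs <;> rfl
    rw [if_pos (dvd_mul_right ℓ j), Nat.mul_div_cancel_left j hℓ.pos, h1, h3]
    linear_combination -h2
  · rw [if_neg hk, h1]
    have : ∑ d ∈ k.divisors with ¬ℓ ∣ d, F d = sigP p k := by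
      rw [sigP, Finset.sum_filter, Finset.sum_filter]
      refine Finset.sum_congr rfl fun d hd => ?_
      rw [if_pos fun h => hk (h.trans (Nat.dvd_of_mem_divisors hd))]
    rw [this]
    ring

/-- `∑ σ'(n) X^n`. -/
def sigPSer (p : ℕ) : PowerSeries ℤ := PowerSeries.mk (sigP p)

@[simp] theorem coeff_sigPSer (p n : ℕ) : coeff n (sigPSer p) = sigP p n := coeff_mk _ _

theorem Up_sigPSer (p : ℕ) [Fact p.Prime] : Up p (sigPSer p) = sigPSer p := by
  ext n
  rw [coeff_Up, coeff_sigPSer, coeff_sigPSer, mul_comm, sigP_p_mul]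

/-- The q-series of `Efun`. -/
def EZ (p : ℕ) : PowerSeries ℤ := C ((p : ℤ) - 1) + C 24 * sigPSer p

theorem coeff_EZ (p n : ℕ) :
    coeff n (EZ p) = if n = 0 then (p : ℤ) - 1 else 24 * sigP p n := by
  rw [EZ, map_add, coeff_C_mul, coeff_sigPSer, coeff_C]
  split_ifs with h <;> simp [h]

theorem Up_EZ (p : ℕ) [Fact p.Prime] : Up p (EZ p) = EZ p := by
  have hp : p ≠ 0 := (Fact.out : p.Prime).ne_zero
  ext n
  rw [coeff_Up, coeff_EZ, coeff_EZ, mul_comm n p, sigP_p_mul]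
  simp [hp]

/-- `p E₂(pτ) - E₂(τ)`. -/
def Efun (p : ℕ) : ℍ → ℂ := (p : ℂ) • dil p E2 - E2

theorem isBoundedAtImInfty_D2 (A : SL(2, ℤ)) : IsBoundedAtImInfty (D2 A) := by
  rw [UpperHalfPlane.isBoundedAtImInfty_iff]
  refine ⟨2 * π * |(A 1 0 : ℝ)|, 1, fun z hz => ?_⟩
  rcases eq_or_ne (A 1 0) 0 with h | h
  · simp [D2, h]
  · have hc : (1 : ℝ) ≤ |(A 1 0 : ℝ)| := by exact_mod_cast Int.one_le_abs h
    have hden : (1 : ℝ) ≤ ‖UpperHalfPlane.denom A z‖ := by
      rw [denom_eq_den]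
      refine le_trans ?_ (Complex.abs_im_le_norm _)
      have : (den A z).im = (A 1 0 : ℝ) * z.im := by simp [den]
      rw [this, abs_mul, abs_of_pos z.im_pos]
      calc (1 : ℝ) = 1 * 1 := (one_mul 1).symm
        _ ≤ |(A 1 0 : ℝ)| * z.im := mul_le_mul hc hz zero_le_one (abs_nonneg _)
    have hnum : ‖2 * π * I * (A 1 0 : ℂ)‖ = 2 * π * |(A 1 0 : ℝ)| := by
      simp [abs_of_pos Real.pi_pos]
    rw [D2, norm_div, hnum]
    exact div_le_self (by positivity) hden

theorem bdd_E2 : BddAllCusps 2 E2 := fun A => by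
  rw [E2_slash_action, sub_eq_add_neg]
  exact isBoundedAtImInfty_E2.add ((isBoundedAtImInfty_D2 A).const_smul_left _).neg_left

theorem hasQ_E2 : HasQ 1 E2
    (PowerSeries.mk fun m => if m = 0 then (1 : ℂ) else -24 * (σ 1 m : ℂ)) := by
  intro τ
  refine (hasSum_qExpansion_E2 (z := τ)).congr_fun fun m => ?_
  simp [Periodic.qParam, smul_eq_mul]

theorem sigma_one_eq (p : ℕ) [Fact p.Prime] (n : ℕ) :
    (σ 1 n : ℤ) = sigP p n + if p ∣ n then (p : ℤ) * (σ 1 (n / p) : ℤ) else 0 := by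
  rw [ArithmeticFunction.sigma_one_apply, Nat.cast_sum]
  by_cases hn : p ∣ n
  · obtain ⟨j, rfl⟩ := hn
    rw [sum_divisors_prime_mul Fact.out j fun d => (d : ℤ), sigP_p_mul, if_pos (dvd_mul_right p j),
      Nat.mul_div_cancel_left j (Fact.out : p.Prime).pos, ArithmeticFunction.sigma_one_apply,
      Nat.cast_sum, Finset.mul_sum]
    simp [sigP]
  · rw [if_neg hn, add_zero, sigP, Finset.sum_filter]
    refine Finset.sum_congr rfl fun d hd => ?_
    rw [if_pos fun h => hn (h.trans (Nat.dvd_of_mem_divisors hd))]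

theorem hasQ_Efun (p : ℕ) [Fact p.Prime] :
    HasQ 1 (Efun p) (PowerSeries.map (Int.castRingHom ℂ) (EZ p)) := by
  have hp : 0 < p := (Fact.out : p.Prime).pos
  have h := ((hasQ_E2.dil p).smul (p : ℂ)).sub hasQ_E2
  show HasQ 1 ((p : ℂ) • dil p E2 - E2) _
  convert h using 1
  ext n
  simp only [coeff_map, coeff_EZ, map_sub, PowerSeries.coeff_smul, coeff_Vp, coeff_mk,
    smul_eq_mul, eq_intCast]
  rcases eq_or_ne n 0 with rfl | hn
  · simp
  · have hs := congrArg (fun z : ℤ => (z : ℂ)) (sigma_one_eq p n)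
    simp only [if_neg hn]
    by_cases hd : p ∣ n
    · have hne : n / p ≠ 0 := (Nat.div_pos (Nat.le_of_dvd (Nat.pos_of_ne_zero hn) hd) hp).ne'
      simp only [if_pos hd, if_neg hne] at hs ⊢
      push_cast at hs ⊢
      linear_combination -24 * hs
    · simp only [if_neg hd, add_zero] at hs ⊢
      push_cast at hs ⊢
      linear_combination -24 * hs

theorem isLv_Efun (p : ℕ) [Fact p.Prime] : IsLv p 2 (Efun p) where
  inv γ hγ := by
    obtain ⟨c', hc⟩ := mem_Gamma0_iff_dvd.mp hγ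
    obtain ⟨B, -, -, hB10, hB11, hB⟩ := dil_slash E2 2 γ hc
    rw [Efun, sub_eq_add_neg, SlashAction.add_slash, SlashAction.neg_slash,
      ModularForm.SL_smul_slash, hB, E2_slash_action, E2_slash_action]
    funext τ
    simp only [Pi.add_apply, Pi.neg_apply, Pi.smul_apply, Pi.sub_apply, dil, smul_eq_mul, D2,
      denom_eq_den]
    have h1 : den B (scalePt p τ) = den γ τ := by
      simp only [den, hB10, hB11, hc, coe_scalePt, Int.cast_mul, Int.cast_natCast]
      ring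
    rw [h1, hB10, hc]
    push_cast
    ring
  hol := (hasQ_Efun p).mdiff one_pos
  bdd := by
    have h := ((bdd_E2.dil p).smul (p : ℂ)).add (bdd_E2.smul (-1))
    rwa [neg_one_smul, ← sub_eq_add_neg] at h

/-- A form of prime level with vanishing constant term is a cusp form. -/
theorem IsLv.exists_cuspForm {p : ℕ} [Fact p.Prime] {f : ℍ → ℂ} (hf : IsLv p 2 f)
    {A : PowerSeries ℂ} (hA : HasQ 1 f A) (h0 : coeff 0 A = 0) :
    ∃ F : CuspForm (Gamma0 p) 2, ⇑F = f := by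
  have hW := hasQ_W_weight_two hf hA
  have hz : ∀ M : SL(2, ℤ), IsZeroAtImInfty (f ∣[(2 : ℤ)] M) := by
    intro M
    by_cases hM : (p : ℤ) ∣ M 1 0
    · rw [hf.inv M (mem_Gamma0_iff_dvd.mpr hM)]
      exact hA.isZero one_pos h0
    · obtain ⟨j, -, hj⟩ := exists_coset M hM
      rw [slash_eq_of_coset hf.inv hj, SlashAction.slash_mul]
      have hj' := hW.fdiv p j
      have e : ((f ∣[(2 : ℤ)] ModularGroup.S) ∣[(2 : ℤ)]
          (ModularGroup.T ^ (j : ℤ) : SL(2, ℤ))) = fun τ => FA.Eis.W p 2 f (fdivPt p j τ) :=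
        funext fun τ => slash_S_eq_W p 2 f j τ
      rw [e]
      refine hj'.isZero (by exact_mod_cast (Fact.out : p.Prime).pos) ?_
      simp [coeff_rescale, map_neg, PowerSeries.coeff_smul, h0]
  refine ⟨{ toFun := f, slash_action_eq' := ?_, holo' := hf.hol, zero_at_cusps' := ?_ }, rfl⟩
  · rintro γ ⟨M, hM, rfl⟩
    exact hf.inv M hM
  · intro c hc
    rw [Subgroup.IsArithmetic.isCusp_iff_isCusp_SL2Z] at hc
    exact (OnePoint.isZeroAt_iff_forall_SL2Z hc).mpr fun M _ => hz M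

theorem isLv_of_cuspForm {p : ℕ} [Fact p.Prime] (F : CuspForm (Gamma0 p) 2) : IsLv p 2 ⇑F where
  inv γ hγ := F.slash_action_eq' _ ⟨γ, hγ, rfl⟩
  hol := F.holo'
  bdd A := by
    have hc : IsCusp ((Matrix.SpecialLinearGroup.mapGL ℝ A) • OnePoint.infty)
        (Gamma0 p : Subgroup (GL (Fin 2) ℝ)) := by
      rw [Subgroup.IsArithmetic.isCusp_iff_isCusp_SL2Z]
      exact isCusp_SL2Z_iff'.mpr ⟨A, rfl⟩
    exact (ModularFormClass.bdd_at_cusps F hc) _ rfl

end FA.Eis
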