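import Fermat.Agent.Eisenstein.PsiInt
import Fermat.Agent.Eisenstein.EForm
import Fermat.Prelude.Def_ModularCurve_ModularUnit
import Mathlib.NumberTheory.LSeries.PrimesInAP
import Mathlib.NumberTheory.LegendreSymbol.QuadraticReciprocity

/-!
# An integral cusp form congruent to the Eisenstein series modulo the Eisenstein numerator
-/

set_option autoImplicit false

noncomputable section

open UpperHalfPlane hiding I
open Complex Filter Function Topology PowerSeries CongruenceSubgroup
open scoped Real MatrixGroups ModularForm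

local notation "ι" => PowerSeries.map (Int.castRingHom ℂ)

namespace FA.Eis

/-- An auxiliary prime. -/
theorem exists_auxPrime {p : ℕ} [hp : Fact p.Prime] (h5 : 5 ≤ p) :
    ∃ q : ℕ, q.Prime ∧ p ≠ q ∧ q ≠ 2 ∧ (p : ZMod q) ^ (q / 2) = -1 ∧
      ((36 * (p - 1) : ℕ) : ℤ) ∣ (q : ℤ) + 1 := by
  set M := 36 * (p - 1) with hM
  have hM0 : M ≠ 0 := by omega
  haveI : NeZero M := ⟨hM0⟩
  have hco : Nat.Coprime M p := by
    rw [Nat.coprime_comm, Nat.Prime.coprime_iff_not_dvd hp.out]
    intro h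
    rcases (Nat.Prime.dvd_mul hp.out).mp h with h36 | hc
    · rcases (Nat.Prime.dvd_mul hp.out).mp (show p ∣ 4 * 9 from h36) with h4 | h9
      · have := Nat.le_of_dvd (by norm_num) h4
        interval_cases p <;> revert h4 <;> decide
      · have := Nat.le_of_dvd (by norm_num) h9
        interval_cases p <;> first | (revert h9; decide) | (have := hp.out; revert this; decide)
    · have := Nat.le_of_dvd (by omega) hc
      omega
  obtain ⟨r, hr0, hr⟩ : ∃ r : ZMod p, r ≠ 0 ∧
      (if p % 4 = 1 then ¬IsSquare r else r = 1) := by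
    by_cases h4 : p % 4 = 1
    · obtain ⟨r, hr⟩ := FiniteField.exists_nonsquare (F := ZMod p)
        (by rw [ZMod.ringChar_zmod_n]; omega)
      exact ⟨r, fun h => hr (h ▸ IsSquare.zero), by rw [if_pos h4]; exact hr⟩
    · exact ⟨1, one_ne_zero, by rw [if_neg h4]⟩
  set e := ZMod.chineseRemainder hco with he
  have hu : IsUnit (e.symm (-1, r)) := by
    refine IsUnit.map e.symm ?_
    rw [Prod.isUnit_iff]
    exact ⟨isUnit_one.neg, isUnit_iff_ne_zero.mpr hr0⟩
  haveI : NeZero (M * p) := ⟨mul_ne_zero hM0 hp.out.ne_zero⟩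
  obtain ⟨q, hqp, hq, hqe⟩ := Nat.forall_exists_prime_gt_and_eq_mod hu p
  have hq' : e (q : ZMod (M * p)) = (-1, r) := by rw [hqe, RingEquiv.apply_symm_apply]
  rw [map_natCast] at hq'
  have hqM : ((M : ℕ) : ℤ) ∣ (q : ℤ) + 1 := by
    rw [← ZMod.intCast_zmod_eq_zero_iff_dvd]
    push_cast
    have h1 := congrArg Prod.fst hq'
    rw [Prod.fst_natCast] at h1
    rw [h1]
    ring
  have hqr : ((q : ℤ) : ZMod p) = r := by
    have h1 := congrArg Prod.snd hq'
    rw [Prod.snd_natCast] at h1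
    rw [Int.cast_natCast, h1]
  have hq4 : q % 4 = 3 := by
    have : (4 : ℤ) ∣ (q : ℤ) + 1 := dvd_trans ⟨9 * (p - 1 : ℕ), by rw [hM]; push_cast; ring⟩ hqM
    omega
  haveI : Fact q.Prime := ⟨hq⟩
  refine ⟨q, hq, by omega, by omega, ?_, hqM⟩
  have hleg : legendreSym q p = -1 := by
    by_cases h4 : p % 4 = 1
    · rw [legendreSym.quadratic_reciprocity_one_mod_four h4 (by omega),
        legendreSym.eq_neg_one_iff, hqr]
      rwa [if_pos h4] at hr
    · have h43 : p % 4 = 3 := by
        have := hp.out.odd_of_ne_two (by omega)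
        rw [Nat.odd_iff] at this
        omega
      rw [if_neg h4] at hr
      rw [legendreSym.quadratic_reciprocity_three_mod_four h43 hq4,
        (legendreSym.eq_one_iff p (by rw [hqr, hr]; exact one_ne_zero)).mpr
          (by rw [hqr, hr]; exact IsSquare.one)]
  have h := legendreSym.eq_pow q p
  rw [hleg] at h
  push_cast at h
  exact h.symm

/-- An integral cusp form congruent to the Eisenstein series. -/
theorem exists_lower (p : ℕ) [hp : Fact p.Prime] :
    ∃ (F : CuspForm (Gamma0 p) 2) (A : PowerSeries ℤ), HasQ 1 ⇑F (ι A) ∧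
      ∀ m : ℕ, 1 ≤ m → (ModularCurve.eisensteinNumerator p : ℤ) ∣ coeff m A - sigP p m := by
  have h2 := hp.out.two_le
  rcases Nat.lt_or_ge p 5 with h5 | h5
  · refine ⟨0, 0, ?_, fun m _ => ?_⟩
    · rw [map_zero, CuspForm.coe_zero]
      exact HasQ.zero 1
    · have : ModularCurve.eisensteinNumerator p = 1 := by
        interval_cases p
        · decide
        · decide
        · exact absurd hp.out (by decide)
      rw [this]
      exact ⟨_, (one_mul _).symm⟩
  obtain ⟨q, hq, hpq, hq2, hm, t, ht⟩ := exists_auxPrime h5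
  haveI : Fact q.Prime := ⟨hq⟩
  obtain ⟨ψf, B, hψ, hB0, hψQ⟩ := exists_Psi hpq hq2 hm
  set g := Nat.gcd (p - 1) 12 with hg
  set n := ModularCurve.eisensteinNumerator p with hn
  have hgn : (g : ℤ) * n = (p : ℤ) - 1 := by
    have : g * n = p - 1 := by
      rw [hn, ModularCurve.eisensteinNumerator, ← hg, Nat.mul_div_cancel' (Nat.gcd_dvd_left _ _)]
    rw [← Nat.cast_mul, this, Nat.cast_sub (by omega), Nat.cast_one]
  have hg0 : (g : ℤ) ≠ 0 := by
    have : 0 < g := Nat.gcd_pos_of_pos_right _ (by norm_num)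
    omega
  have ht' : (q : ℤ) = 36 * ((p : ℤ) - 1) * t - 1 := by
    rw [Nat.cast_mul, Nat.cast_sub (by omega : 1 ≤ p)] at ht
    push_cast at ht
    linarith
  set K : ℤ := 2 * ((q : ℤ) - 1) * ((q : ℤ) - 2) with hK
  set u : ℤ := 2 * (36 * ((p : ℤ) - 1) * t ^ 2 - 5 * t) with hu
  have hKu : K = 12 + 36 * ((p : ℤ) - 1) * u := by rw [hK, hu, ht']; ring
  obtain ⟨K', hK'⟩ : (g : ℤ) ∣ K := by
    rw [hKu]
    exact dvd_add (by exact_mod_cast Nat.gcd_dvd_right (p - 1) 12)
      (dvd_mul_of_dvd_left (dvd_mul_of_dvd_right (show (g : ℤ) ∣ (p : ℤ) - 1 from ⟨n, hgn.symm⟩) _) _)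
  obtain ⟨x, y', hxy⟩ : ∃ x y' : ℤ, 12 * x + ((p : ℤ) - 1) * y' = g := by
    refine ⟨Nat.gcdB (p - 1) 12, Nat.gcdA (p - 1) 12, ?_⟩
    have := Nat.gcd_eq_gcd_ab (p - 1) 12
    rw [← hg, Nat.cast_sub (by omega : 1 ≤ p)] at this
    push_cast at this
    linarith
  set y : ℤ := y' - 36 * u * x with hy
  have hone : x * K' + n * y = 1 := by
    apply mul_left_cancel₀ hg0
    rw [hy]
    linear_combination hxy - x * hK' + x * hKu + (y' - 36 * u * x) * hgn
  set f : ℍ → ℂ := (((x * K' : ℤ) : ℂ) / 24) • Efun p + (-((x * n : ℤ) : ℂ)) • ψf with hf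
  set A : PowerSeries ℤ := C (x * K') * sigPSer p - C (x * n) * B with hA
  have hQ : HasQ 1 f (ι A) := by
    have h := ((hasQ_Efun p).smul (((x * K' : ℤ) : ℂ) / 24)).add
      (hψQ.smul (-((x * n : ℤ) : ℂ)))
    have hzero : ((x * K' : ℤ) : ℂ) / 24 * ((p : ℂ) - 1) +
        -((x * n : ℤ) : ℂ) * (((q : ℂ) - 1) * ((q : ℂ) - 2) / 12) = 0 := by
      have hz : x * K' * ((p : ℤ) - 1) - x * n * K = 0 := by
        linear_combination -(x * K') * hgn - (x * (n : ℤ)) * hK'
      have := congrArg (fun z : ℤ => (z : ℂ)) hz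
      rw [hK] at this
      push_cast at this ⊢
      linear_combination this / 24
    convert h using 1
    ext m
    simp only [hA, EZ, map_sub, map_add, PowerSeries.coeff_smul, coeff_map, coeff_C_mul,
      coeff_sigPSer, coeff_C, smul_eq_mul]
    rcases eq_or_ne m 0 with rfl | hm0
    · simp [hB0]
      push_cast at hzero
      linear_combination -hzero
    · simp [hm0]
      ring
  have h0 : coeff 0 (ι A) = 0 := by
    rw [coeff_map, hA, map_sub, coeff_C_mul, coeff_C_mul, hB0, coeff_sigPSer, sigP_zero]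
    simp
  obtain ⟨F, hF⟩ := (((isLv_Efun p).smul _).add (hψ.smul _) :
    IsLv p 2 f).exists_cuspForm hQ h0
  refine ⟨F, A, hF ▸ hQ, fun m _ => ⟨-(y * sigP p m + x * coeff m B), ?_⟩⟩
  rw [hA, map_sub, coeff_C_mul, coeff_C_mul, coeff_sigPSer]
  linear_combination sigP p m * hone

end FA.Eis
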