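import Fermat.Agent.Eisenstein.Upper
import Fermat.Agent.Eisenstein.Lower
import Fermat.Agent.Deform.EigenLift
import Fermat.Prelude.Def_CuspForm_HeckeLocal
import Fermat.Prelude.Def_CuspForm_HeckeEvalForms
import Fermat.Prelude.Def_HeckeGalois_EichlerShimura

/-!
# The Eisenstein quotient of the Hecke algebra
-/

set_option autoImplicit false

noncomputable section

open CongruenceSubgroup ModularCurve CuspForm PowerSeries FA.Deform

namespace FA.Eis

set_option synthInstance.maxHeartbeats 400000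
set_option maxHeartbeats 3200000

variable {p : ℕ} [Fact p.Prime]

/-- The `n`-th coefficient on the lattice, as an integer. -/
def zCoeff (n : ℕ) : ↥(intLattice p 2) →ₗ[ℤ] ℤ where
  toFun f := (intLattice_int (f : CuspForm (Gamma0 p) 2) f.2 n).choose
  map_add' f g := by
    apply Int.cast_injective (α := ℂ)
    rw [Int.cast_add, ← (intLattice_int _ (f + g).2 n).choose_spec,
      ← (intLattice_int _ f.2 n).choose_spec, ← (intLattice_int _ g.2 n).choose_spec]
    simp
  map_smul' c f := by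
    apply Int.cast_injective (α := ℂ)
    rw [RingHom.id_apply, smul_eq_mul, Int.cast_mul, ← (intLattice_int _ (c • f).2 n).choose_spec,
      ← (intLattice_int _ f.2 n).choose_spec, Submodule.coe_smul, map_zsmul, Pi.smul_apply,
      zsmul_eq_mul]

theorem cast_zCoeff (n : ℕ) (f : ↥(intLattice p 2)) :
    (zCoeff n f : ℂ) = qLin p (f : CuspForm (Gamma0 p) 2) n :=
  (intLattice_int (f : CuspForm (Gamma0 p) 2) f.2 n).choose_spec.symm

theorem zCoeff_zero (f : ↥(intLattice p 2)) : zCoeff 0 f = 0 := by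
  apply Int.cast_injective (α := ℂ)
  rw [cast_zCoeff, qLin_zero_apply, Int.cast_zero]

theorem zCoeff_ext {f g : ↥(intLattice p 2)} (h : ∀ n, zCoeff n f = zCoeff n g) : f = g :=
  Subtype.ext (qLin_injective (funext fun n => by rw [← cast_zCoeff, ← cast_zCoeff, h n]))

theorem hasQ_lattice (f : ↥(intLattice p 2)) :
    HasQ 1 ⇑(f : CuspForm (Gamma0 p) 2) (toC (PowerSeries.mk fun n => zCoeff n f)) := by
  convert (isLv_of_cuspForm (f : CuspForm (Gamma0 p) 2)).hasQ using 1
  ext n
  rw [coeff_toC, coeff_mk, cast_zCoeff, qLin_apply]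
  rfl

/-- Evaluation of Hecke polynomials on the lattice. -/
def latEval (p : ℕ) [Fact p.Prime] : HeckeAlg →+* ↥(heckeLatticeAlgebra p ∅) :=
  (latticeRestrictHom p ∅).toRingHom.comp (heckeEvalForms p 2)

theorem latEval_surjective : Function.Surjective (latEval p) := by
  intro t
  obtain ⟨⟨s, hs⟩, rfl⟩ := latticeRestrictHom_surjective p ∅ t
  suffices h : ∃ x, (heckeEvalForms p 2 x : Module.End ℂ (CuspForm (Gamma0 p) 2)) = s by
    obtain ⟨x, hx⟩ := h
    exact ⟨x, congrArg (latticeRestrictHom p ∅) (Subtype.ext hx)⟩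
  induction hs using Algebra.adjoin_induction with
  | mem s hs =>
    rcases hs with ⟨ℓ, hℓ, hℓN, _, rfl⟩ | ⟨q, hqN, hq, _, rfl⟩
    · exact ⟨heckeGen (⟨ℓ, hℓ⟩ : Nat.Primes),
        congrArg Subtype.val (heckeEvalForms_heckeGen_of_not_dvd (ℓ := (⟨ℓ, hℓ⟩ : Nat.Primes)) hℓN)⟩
    · exact ⟨heckeGen (⟨q, hq⟩ : Nat.Primes),
        congrArg Subtype.val (heckeEvalForms_heckeGen_of_dvd (q := (⟨q, hq⟩ : Nat.Primes)) hqN)⟩
  | algebraMap r => exact ⟨MvPolynomial.C r, by rw [heckeEvalForms_C]; rfl⟩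
  | add a b _ _ ha hb =>
    obtain ⟨x, rfl⟩ := ha
    obtain ⟨y, rfl⟩ := hb
    exact ⟨x + y, by rw [map_add]; rfl⟩
  | mul a b _ _ ha hb =>
    obtain ⟨x, rfl⟩ := ha
    obtain ⟨y, rfl⟩ := hb
    exact ⟨x * y, by rw [map_mul]; rfl⟩

/-- The action on the lattice. -/
abbrev act (t : ↥(heckeLatticeAlgebra p ∅)) : Module.End ℤ ↥(intLattice p 2) := t

theorem latEval_C (r : ℤ) : latEval p (MvPolynomial.C r) = (r : ↥(heckeLatticeAlgebra p ∅)) := by
  rw [show (MvPolynomial.C r : HeckeAlg) = (r : HeckeAlg) by simp, map_intCast]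

theorem zCoeff_gen (ℓ : Nat.Primes) (f : ↥(intLattice p 2)) (n : ℕ) :
    zCoeff n (act (latEval p (heckeGen ℓ)) f) = zCoeff (n * ℓ) f +
      if (ℓ : ℕ) = p then 0 else if (ℓ : ℕ) ∣ n then ((ℓ : ℕ) : ℤ) * zCoeff (n / ℓ) f else 0 := by
  have hpp : p.Prime := Fact.out
  have hcoe : ((act (latEval p (heckeGen ℓ)) f : ↥(intLattice p 2)) : CuspForm (Gamma0 p) 2) =
      (heckeEvalForms p 2 (heckeGen ℓ) : Module.End ℂ (CuspForm (Gamma0 p) 2)) f := rfl
  apply Int.cast_injective (α := ℂ)
  rw [cast_zCoeff, hcoe]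
  by_cases h : (ℓ : ℕ) = p
  · have hd : (ℓ : ℕ) ∣ p := by rw [h]
    rw [heckeEvalForms_heckeGen_of_dvd hd, heckeAlgebra.coe_U, qLin_heckeU ℓ.2 hd, if_pos h,
      add_zero, cast_zCoeff]
  · have hd : ¬(ℓ : ℕ) ∣ p := fun hd => h ((Nat.prime_dvd_prime_iff_eq ℓ.2 hpp).mp hd)
    rw [heckeEvalForms_heckeGen_of_not_dvd hd, heckeAlgebra.coe_T, qLin_heckeT ℓ.2 hd, if_neg h]
    push_cast [cast_zCoeff]
    rfl

theorem zCoeff_dvd_of_pairing (D : ℤ) :
    ∀ (n : ℕ) (f : ↥(intLattice p 2)),
      (∀ t : ↥(heckeLatticeAlgebra p ∅), D ∣ zCoeff 1 (act t f)) → D ∣ zCoeff n f := by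
  intro n
  induction n using Nat.strong_induction_on with
  | _ n ih =>
    intro f hf
    rcases Nat.eq_zero_or_pos n with rfl | hn
    · rw [zCoeff_zero]; exact dvd_zero D
    rcases eq_or_ne n 1 with rfl | h1
    · exact hf 1
    obtain ⟨ℓ', hℓ', k, rfl⟩ := Nat.exists_prime_and_dvd h1
    obtain ⟨ℓ, rfl⟩ : ∃ q : Nat.Primes, (q : ℕ) = ℓ' := ⟨⟨ℓ', hℓ'⟩, rfl⟩
    have hℓ := ℓ.2
    have hk : k < (ℓ : ℕ) * k := lt_mul_of_one_lt_left (Nat.pos_of_mul_pos_left hn) hℓ.one_lt
    have h := zCoeff_gen (p := p) ℓ f k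
    have hgen : D ∣ zCoeff k (act (latEval p (heckeGen ℓ)) f) :=
      ih k hk _ fun t => hf (t * latEval p (heckeGen ℓ))
    rw [h] at hgen
    rw [mul_comm (ℓ : ℕ) k]
    refine (dvd_add_left ?_).mp hgen
    split_ifs
    · exact dvd_zero D
    · exact (ih (k / (ℓ : ℕ)) ((Nat.div_le_self _ _).trans_lt hk) f hf).mul_left _
    · exact dvd_zero D

/-- The pairing `(f, t) ↦ a₁(t f)`. -/
def pair (p : ℕ) [Fact p.Prime] :
    ↥(intLattice p 2) →ₗ[ℤ] ↥(heckeLatticeAlgebra p ∅) →ₗ[ℤ] ℤ :=
  LinearMap.mk₂ ℤ (fun f t => zCoeff 1 (act t f))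
    (fun f g t => by simp only [map_add])
    (fun c f t => by simp only [map_smul])
    (fun f s t => by
      show zCoeff 1 (act s f + act t f) = _
      rw [map_add])
    (fun c f t => by
      show zCoeff 1 (c • act t f) = _
      rw [map_smul])

theorem pair_apply (f : ↥(intLattice p 2)) (t : ↥(heckeLatticeAlgebra p ∅)) :
    pair p f t = zCoeff 1 (act t f) := rfl

theorem pair_injective : Function.Injective (pair p) := by
  intro f g h
  apply zCoeff_ext
  intro n
  have := zCoeff_dvd_of_pairing 0 n (f - g) fun t => by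
    rw [zero_dvd_iff, ← pair_apply, map_sub, h, sub_self, LinearMap.zero_apply]
  rw [zero_dvd_iff, map_sub, sub_eq_zero] at this
  exact this

theorem pair_flip_injective : Function.Injective (pair p).flip := by
  intro s t h
  apply Subtype.ext
  refine LinearMap.ext fun f => zCoeff_ext fun n => ?_
  have := zCoeff_dvd_of_pairing 0 n (act s f - act t f) fun r => by
    have h' := LinearMap.congr_fun h (act r f)
    simp only [LinearMap.flip_apply, pair_apply] at h'
    rw [zero_dvd_iff, map_sub, map_sub, sub_eq_zero]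
    have e : ∀ u, act r (act u f) = act u (act r f) := fun u => by
      show ((r * u : ↥(heckeLatticeAlgebra p ∅)) : Module.End ℤ _) f = (u * r : ↥(heckeLatticeAlgebra p ∅)).1 f
      rw [mul_comm]
    rw [e s, e t, h']
  rw [zero_dvd_iff, map_sub, sub_eq_zero] at this
  exact this

/-- Every linear form on the lattice algebra which is a lift of a residual one comes from a form. -/
theorem exists_form_of_character {M : ℕ} (χ : ↥(heckeLatticeAlgebra p ∅) →+* ZMod M) :
    ∃ f : ↥(intLattice p 2), ∀ t, ((zCoeff 1 (act t f) : ℤ) : ZMod M) = χ t := by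
  haveI := intLattice.moduleFinite p
  haveI := intLattice.moduleFree p
  set T := ↥(heckeLatticeAlgebra p ∅)
  set b := Module.Free.chooseBasis ℤ T
  set φ : T →ₗ[ℤ] ℤ := b.constr ℤ fun i => ((χ (b i)).cast : ℤ)
  have hφ : ∀ t, ((φ t : ℤ) : ZMod M) = χ t := by
    intro t
    have e : (Int.castAddHom (ZMod M)).toIntLinearMap ∘ₗ φ = χ.toAddMonoidHom.toIntLinearMap :=
      b.ext fun i => by simp [φ]
    exact LinearMap.congr_fun e t
  have hrank : Module.finrank ℤ ↥(LinearMap.range (pair p)) = Module.finrank ℤ (T →ₗ[ℤ] ℤ) := by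
    rw [LinearMap.finrank_range_of_inj pair_injective, Module.finrank_linearMap_self]
    refine le_antisymm ?_ ?_
    · have := LinearMap.finrank_le_finrank_of_injective (pair_injective (p := p))
      rwa [Module.finrank_linearMap_self] at this
    · have := LinearMap.finrank_le_finrank_of_injective (pair_flip_injective (p := p))
      rwa [Module.finrank_linearMap_self] at this
  have hq : Module.finrank ℤ ((T →ₗ[ℤ] ℤ) ⧸ LinearMap.range (pair p)) = 0 := by
    have := Submodule.finrank_quotient_add_finrank (LinearMap.range (pair p))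
    exact Nat.add_eq_right.mp (this.trans hrank.symm)
  obtain ⟨D, hD, hDφ⟩ := (Module.finrank_eq_zero_iff.mp hq) (Submodule.Quotient.mk φ)
  rw [← Submodule.Quotient.mk_smul, Submodule.Quotient.mk_eq_zero] at hDφ
  obtain ⟨g, hg⟩ := hDφ
  have hdvd : ∀ n, D ∣ zCoeff n g := fun n => zCoeff_dvd_of_pairing D n g fun t => by
    rw [← pair_apply, hg]
    exact dvd_mul_right D _
  choose z hz using hdvd
  have hD' : (D : ℂ) ≠ 0 := Int.cast_ne_zero.mpr hD
  set f : ↥(intLattice p 2) := ⟨(D : ℂ)⁻¹ • (g : CuspForm (Gamma0 p) 2),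
    Submodule.subset_span fun n => ⟨z n, by
      rw [← qLin_apply, map_smul, Pi.smul_apply, ← cast_zCoeff, hz, smul_eq_mul, Int.cast_mul,
        inv_mul_cancel_left₀ hD']⟩⟩
  have hfg : D • f = g := Subtype.ext (by
    rw [Submodule.coe_smul, ← Int.cast_smul_eq_zsmul ℂ, smul_smul, mul_inv_cancel₀ hD', one_smul])
  have hpf : pair p f = φ := by
    apply smul_right_injective _ hD
    show D • pair p f = D • φ
    rw [← map_smul, hfg, hg]
  exact ⟨f, fun t => by rw [← hφ t, ← hpf, pair_apply]⟩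

theorem eisensteinSystem_eq (ℓ : Nat.Primes) :
    eisensteinSystem p ℓ = if (ℓ : ℕ) = p then 1 else 1 + ((ℓ : ℕ) : ℤ) := by
  by_cases h : (ℓ : ℕ) = p
  · rw [if_pos h, eisensteinSystem_of_dvd (by rw [h])]
  · rw [if_neg h, eisensteinSystem_of_not_dvd
      (fun hd => h ((Nat.prime_dvd_prime_iff_eq ℓ.2 Fact.out).mp hd))]

/-- Eisenstein residual characters have modulus dividing the numerator. -/
theorem dvd_numerator_of_character {M : ℕ} (χ : ↥(heckeLatticeAlgebra p ∅) →+* ZMod M)
    (hχ : ∀ ℓ, χ (latEval p (heckeGen ℓ)) = (eisensteinSystem p ℓ : ZMod M)) :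
    M ∣ eisensteinNumerator p := by
  obtain ⟨f, hf⟩ := exists_form_of_character χ
  have key : ∀ m, 1 ≤ m → ∀ t, ((zCoeff m (act t f) : ℤ) : ZMod M) = (sigP p m : ZMod M) * χ t := by
    intro m
    induction m using Nat.strong_induction_on with
    | _ m ih =>
      intro hm t
      rcases eq_or_ne m 1 with rfl | h1
      · rw [hf, sigP_one, Int.cast_one, one_mul]
      obtain ⟨ℓ', hℓ', k, rfl⟩ := Nat.exists_prime_and_dvd h1
      obtain ⟨ℓ, rfl⟩ : ∃ q : Nat.Primes, (q : ℕ) = ℓ' := ⟨⟨ℓ', hℓ'⟩, rfl⟩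
      have hℓ := ℓ.2
      have hk0 : 0 < k := Nat.pos_of_mul_pos_left hm
      have hk : k < (ℓ : ℕ) * k := lt_mul_of_one_lt_left hk0 hℓ.one_lt
      have h := zCoeff_gen (p := p) ℓ (act t f) k
      have hgen := ih k hk hk0 (latEval p (heckeGen ℓ) * t)
      rw [map_mul, hχ, eisensteinSystem_eq] at hgen
      rw [show act (latEval p (heckeGen ℓ) * t) f =
        act (latEval p (heckeGen ℓ)) (act t f) from rfl, h, mul_comm k ℓ] at hgen
      by_cases hp : (ℓ : ℕ) = p
      · simp only [hp, if_true, add_zero, Int.cast_one, one_mul, mul_comm k] at hgen ⊢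
        rw [hgen, sigP_p_mul]
      · simp only [hp, if_false] at hgen
        rw [sigP_prime_mul p hℓ hp]
        by_cases hd : (ℓ : ℕ) ∣ k
        · rw [if_pos hd] at hgen ⊢
          have := ih (k / (ℓ : ℕ)) ((Nat.div_le_self _ _).trans_lt hk)
            (Nat.div_pos (Nat.le_of_dvd hk0 hd) hℓ.pos) t
          push_cast at hgen ⊢
          linear_combination hgen - ((ℓ : ℕ) : ZMod M) * this
        · rw [if_neg hd] at hgen ⊢
          push_cast at hgen ⊢
          linear_combination hgen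
  refine dvd_numerator_of_congr (f : CuspForm (Gamma0 p) 2) _ (hasQ_lattice f) fun m hm => ?_
  rw [coeff_mk, ← ZMod.intCast_zmod_eq_zero_iff_dvd, Int.cast_sub, sub_eq_zero]
  have := key m hm 1
  rw [map_one, mul_one] at this
  exact this

/-- The numerator divides every integer in the Eisenstein ideal. -/
theorem numerator_dvd_of_mem {N : ℕ}
    (hN : (N : ↥(heckeLatticeAlgebra p ∅)) ∈ Ideal.map (latEval p) (eisensteinIdeal p)) :
    eisensteinNumerator p ∣ N := by
  obtain ⟨F, A, hA, hcong⟩ := exists_lower p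
  set n := eisensteinNumerator p
  have hq : ∀ m, qLin p F m = ((coeff m A : ℤ) : ℂ) := fun m => by
    rw [qLin_apply, ← coeff_toC A m]
    show coeff m (UpperHalfPlane.qExpansion 1 ⇑F) = _
    rw [HasQ.qExpansion_eq one_pos hA]
    rfl
  set f : ↥(intLattice p 2) := ⟨F, Submodule.subset_span fun m => ⟨coeff m A, hq m⟩⟩
  have hcf : ∀ m, ((zCoeff m f : ℤ) : ZMod n) = (sigP p m : ZMod n) := by
    intro m
    rcases Nat.eq_zero_or_pos m with rfl | hm
    · rw [zCoeff_zero, sigP_zero]
    · have e : zCoeff m f = coeff m A := Int.cast_injective (α := ℂ) (by rw [cast_zCoeff]; exact hq m)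
      rw [e, ← sub_eq_zero, ← Int.cast_sub, ZMod.intCast_zmod_eq_zero_iff_dvd]
      exact hcong m hm
  have key : ∀ (x : HeckeAlg) (m : ℕ), ((zCoeff m (act (latEval p x) f) : ℤ) : ZMod n) =
      ((MvPolynomial.aeval (eisensteinSystem p) x : ℤ) : ZMod n) * (sigP p m : ZMod n) := by
    intro x
    induction x using MvPolynomial.induction_on with
    | C r =>
      intro m
      rw [latEval_C, MvPolynomial.aeval_C, show act (r : ↥(heckeLatticeAlgebra p ∅)) f = r • f by
        simp [act], map_smul, smul_eq_mul, Int.cast_mul, hcf]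
      simp
    | add x y hx hy =>
      intro m
      rw [map_add, map_add, show act (latEval p x + latEval p y) f =
        act (latEval p x) f + act (latEval p y) f from rfl, map_add, Int.cast_add, hx, hy]
      push_cast
      ring
    | mul_X x ℓ hx =>
      intro m
      rw [map_mul (latEval p), mul_comm (latEval p x)]
      have e : act (latEval p (MvPolynomial.X ℓ) * latEval p x) f =
          act (latEval p (heckeGen ℓ)) (act (latEval p x) f) := rfl
      rw [e, zCoeff_gen, map_mul, MvPolynomial.aeval_X, eisensteinSystem_eq]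
      by_cases hℓ : (ℓ : ℕ) = p
      · rw [if_pos hℓ, if_pos hℓ, add_zero, mul_one, hx, hℓ, mul_comm m p, sigP_p_mul]
      · rw [if_neg hℓ, if_neg hℓ, mul_comm m, Int.cast_add, hx, sigP_prime_mul p ℓ.2 hℓ]
        by_cases hd : (ℓ : ℕ) ∣ m
        · rw [if_pos hd, if_pos hd, Int.cast_mul, hx]
          push_cast
          ring
        · rw [if_neg hd, if_neg hd]
          push_cast
          ring
  obtain ⟨x, hx, hxN⟩ := (Ideal.mem_map_iff_of_surjective _ latEval_surjective).mp hN
  have h := key x 1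
  rw [hxN, (mem_eigenIdeal_iff _ x).mp hx, sigP_one] at h
  rw [show act (N : ↥(heckeLatticeAlgebra p ∅)) f = (N : ℤ) • f by simp [act],
    map_smul, smul_eq_mul, Int.cast_mul, hcf, sigP_one] at h
  simpa [ZMod.natCast_eq_zero_iff] using h

/-- The order of the Eisenstein quotient. -/
theorem natCard_eisensteinQuotient :
    Nat.card (↥(heckeLatticeAlgebra p ∅) ⧸ Ideal.map (latEval p) (eisensteinIdeal p)) =
      eisensteinNumerator p := by
  set I := Ideal.map (latEval p) (eisensteinIdeal p)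
  set Q := ↥(heckeLatticeAlgebra p ∅) ⧸ I
  set π : ↥(heckeLatticeAlgebra p ∅) →+* Q := Ideal.Quotient.mk I
  have hval : ∀ x : HeckeAlg, π (latEval p x) =
      ((MvPolynomial.aeval (eisensteinSystem p) x : ℤ) : Q) := by
    intro x
    have hmem : x - MvPolynomial.C (MvPolynomial.aeval (eisensteinSystem p) x) ∈ eisensteinIdeal p := by
      rw [eisensteinIdeal, mem_eigenIdeal_iff, map_sub, MvPolynomial.aeval_C]
      simp
    have h : latEval p (x - MvPolynomial.C (MvPolynomial.aeval (eisensteinSystem p) x)) ∈ I :=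
      Ideal.mem_map_of_mem _ hmem
    rw [← Ideal.Quotient.eq_zero_iff_mem] at h
    change π _ = 0 at h
    rwa [map_sub, map_sub, latEval_C, map_intCast, sub_eq_zero] at h
  set N := ringChar Q
  set e := ZMod.castHom (dvd_refl N) Q with he
  have hbij : Function.Bijective e := by
    refine ⟨ZMod.castHom_injective Q, fun y => ?_⟩
    obtain ⟨t, rfl⟩ := Ideal.Quotient.mk_surjective y
    obtain ⟨x, rfl⟩ := latEval_surjective t
    exact ⟨(MvPolynomial.aeval (eisensteinSystem p) x : ℤ), by rw [map_intCast]; exact (hval x).symm⟩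
  rw [← Nat.card_eq_of_bijective e hbij, Nat.card_zmod]
  refine Nat.dvd_antisymm ?_ ?_
  · set ee := RingEquiv.ofBijective e hbij
    refine dvd_numerator_of_character (ee.symm.toRingHom.comp π) fun ℓ => ?_
    rw [RingHom.comp_apply, hval, map_intCast, heckeGen, MvPolynomial.aeval_X]
  · refine numerator_dvd_of_mem (N := N) ?_
    rw [← Ideal.Quotient.eq_zero_iff_mem, map_natCast]
    exact CharP.cast_eq_zero Q N

end FA.Eis
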