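import Fermat.Agent.Eisenstein.Psi

/-!
# Integrality of a weighted sum of the forms `Phi`
-/

set_option autoImplicit false

noncomputable section

open UpperHalfPlane hiding I
open Complex Filter Function Topology PowerSeries CongruenceSubgroup
open scoped Real MatrixGroups ModularForm

local notation "ι" => PowerSeries.map (Int.castRingHom ℂ)
local notation "π₂" => PowerSeries.map (Int.castRingHom (ZMod 2))

namespace FA.Eis

theorem map_Vp {R S : Type*} [CommRing R] [CommRing S] (φ : R →+* S) (p : ℕ) [NeZero p]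
    (A : PowerSeries R) : PowerSeries.map φ (Vp p A) = Vp p (PowerSeries.map φ A) := by
  ext n
  simp only [coeff_map, coeff_Vp]
  split_ifs <;> simp

theorem Up_C {R : Type*} [CommRing R] (p : ℕ) [NeZero p] (c : R) : Up p (C c) = C c := by
  ext n
  simp [coeff_C, NeZero.ne p]

variable (p q : ℕ) [Fact p.Prime] [Fact q.Prime]

/-- The nonconstant part of `GSer`. -/
def GI (a : ZMod q) : PowerSeries ℤ := PowerSeries.mk (cG q a)

/-- `q` times the linear part of `FSer`. -/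
def LI (h : ZMod q) : PowerSeries ℤ := ∑ a : ZMod q, C (a.val : ℤ) * GI q (h * a)

/-- The quadratic part of `FSer`. -/
def QI (h : ZMod q) : PowerSeries ℤ := ∑ a : ZMod q, GI q a * Vp p (GI q (h * a))

/-- `q` times the nonconstant part of `FSer`. -/
def FI (h : ZMod q) : PowerSeries ℤ := Vp p (LI q h) + LI q h⁻¹ + C (q : ℤ) * QI p q h

/-- The Dedekind sum. -/
def sDed (h : ZMod q) : ℂ := ∑ a : ZMod q, saw q a * saw q (h * a)

/-- The number of divisors prime to `q`, mod `2`. -/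
def L₂ : PowerSeries (ZMod 2) :=
  PowerSeries.mk fun m => ∑ d ∈ m.divisors, if (d : ZMod q) = 0 then 0 else 1

variable {p q}

theorem GI_neg (a : ZMod q) : GI q (-a) = -GI q a := by
  ext n
  simp [GI, cG_neg]

theorem GI_zero : GI q (0 : ZMod q) = 0 := by
  ext n
  simp [GI, cG, chiG]

theorem GSer_eq (a : ZMod q) : GSer q a = C (saw q a) + ι (GI q a) := by
  ext n
  simp only [GSer, GI, coeff_mk, map_add, coeff_C, coeff_map]
  rcases eq_or_ne n 0 with rfl | hn
  · simp [cG]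
  · simp [hn]

theorem sum_GI_mul (h : ZMod q) : ∑ a : ZMod q, GI q (h * a) = 0 := by
  have h1 : ∑ a : ZMod q, GI q (h * a) = ∑ a : ZMod q, GI q (h * -a) :=
    (Equiv.sum_comp (Equiv.neg _) fun a => GI q (h * a)).symm
  simp only [mul_neg, GI_neg, Finset.sum_neg_distrib] at h1
  ext n
  have := congrArg (coeff n) h1
  simp only [map_neg, map_zero] at this ⊢
  omega

theorem q_mul_saw (a : ZMod q) :
    (q : ℂ) * saw q a = (a.val : ℂ) - (q : ℂ) / 2 * (if a = 0 then 0 else 1) := by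
  rcases eq_or_ne a 0 with rfl | ha
  · simp [saw]
  · have : (q : ℂ) ≠ 0 := NeZero.ne _
    rw [saw, if_neg ha, if_neg ha]
    field_simp

theorem sum_saw_GI (h : ZMod q) :
    C (q : ℂ) * ∑ a : ZMod q, C (saw q a) * ι (GI q (h * a)) = ι (LI q h) := by
  have e : ∀ a : ZMod q, C (q : ℂ) * (C (saw q a) * ι (GI q (h * a))) =
      ι (C (a.val : ℤ) * GI q (h * a)) - C ((q : ℂ) / 2) * ι (GI q (h * a)) := by
    intro a
    rw [← mul_assoc, ← map_mul, q_mul_saw, map_mul, map_sub, PowerSeries.map_C]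
    rcases eq_or_ne a 0 with rfl | ha
    · simp [GI_zero]
    · simp [ha, sub_mul]
  rw [Finset.mul_sum, Finset.sum_congr rfl fun a _ => e a, Finset.sum_sub_distrib, ← Finset.mul_sum,
    ← map_sum (ι) (fun a => GI q (h * a)), sum_GI_mul, LI, map_sum]
  simp

theorem sum_saw_GI' {h : ZMod q} (hh : h ≠ 0) :
    C (q : ℂ) * ∑ a : ZMod q, C (saw q (h * a)) * ι (GI q a) = ι (LI q h⁻¹) := by
  rw [← sum_saw_GI h⁻¹]
  congr 1
  refine Fintype.sum_equiv (Equiv.mulLeft₀ h hh) _ _ fun a => ?_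
  simp [inv_mul_cancel_left₀ hh]

theorem q_mul_FSer {h : ZMod q} (hh : h ≠ 0) :
    C (q : ℂ) * FSer p q h = C ((q : ℂ) * sDed q h) + ι (FI p q h) := by
  have e : ∀ a : ZMod q, GSer q a * Vp p (GSer q (h * a)) =
      C (saw q a * saw q (h * a)) + Vp p (C (saw q a) * ι (GI q (h * a))) +
        C (saw q (h * a)) * ι (GI q a) + ι (GI q a * Vp p (GI q (h * a))) := by
    intro a
    simp only [GSer_eq, map_add, map_mul, map_Vp, PowerSeries.expand_C]
    ring
  have hC : (C (q : ℂ) : PowerSeries ℂ) = Vp p (C (q : ℂ)) := by simp [PowerSeries.expand_C]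
  rw [FSer, Finset.sum_congr rfl fun a _ => e a, Finset.sum_add_distrib, Finset.sum_add_distrib,
    Finset.sum_add_distrib, mul_add, mul_add, mul_add, sum_saw_GI' hh, ← map_sum (Vp p)]
  nth_rewrite 2 [hC]
  rw [← map_mul (Vp p), sum_saw_GI, ← map_sum (ι), ← map_sum C, FI, QI, sDed]
  simp only [map_mul, map_add, map_Vp, eq_intCast, Int.cast_natCast, map_natCast]
  ring

theorem coeff_zero_FI (h : ZMod q) : coeff 0 (FI p q h) = 0 := by
  have hG : ∀ a : ZMod q, constantCoeff (GI q a) = 0 := fun a => by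
    simp [GI, cG, ← coeff_zero_eq_constantCoeff_apply]
  simp [FI, LI, QI, hG]

theorem sum_val_chiG {h : ZMod q} (hh : h ≠ 0) (hq2 : q ≠ 2) (d : ℕ) :
    ((∑ a : ZMod q, (a.val : ℤ) * chiG q (h * a) d : ℤ) : ZMod 2) =
      if (d : ZMod q) = 0 then 0 else 1 := by
  have e1 : ∀ a : ZMod q, (d : ZMod q) = h * a ↔ a = h⁻¹ * d := fun a => by
    constructor <;> intro H
    · rw [H, inv_mul_cancel_left₀ hh]
    · rw [H, mul_inv_cancel_left₀ hh]
  have e2 : ∀ a : ZMod q, (d : ZMod q) = -(h * a) ↔ a = -(h⁻¹ * d) := fun a => by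
    rw [← mul_neg, e1, neg_eq_iff_eq_neg]
  simp only [chiG, e1, e2, mul_sub, mul_ite, mul_one, mul_zero, Finset.sum_sub_distrib,
    Finset.sum_ite_eq', Finset.mem_univ, if_true]
  by_cases hd : (d : ZMod q) = 0
  · simp [hd]
  · rw [if_neg hd]
    have hne : h⁻¹ * (d : ZMod q) ≠ 0 := mul_ne_zero (inv_ne_zero hh) hd
    haveI : NeZero (h⁻¹ * (d : ZMod q)) := ⟨hne⟩
    rw [ZMod.val_neg_of_ne_zero, Nat.cast_sub (ZMod.val_lt _).le]
    have hodd : ((q : ℕ) : ZMod 2) = 1 := by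
      rw [ZMod.natCast_eq_one_iff_odd]
      exact (Fact.out : q.Prime).odd_of_ne_two hq2
    push_cast
    rw [hodd, CharTwo.sub_eq_add, CharTwo.sub_eq_add, ← add_assoc, add_comm _ (1 : ZMod 2),
      add_assoc, CharTwo.add_self_eq_zero, add_zero]

theorem map_LI {h : ZMod q} (hh : h ≠ 0) (hq2 : q ≠ 2) : π₂ (LI q h) = L₂ q := by
  ext n
  rw [coeff_map, LI, map_sum, eq_intCast]
  simp only [GI, coeff_C_mul, coeff_mk, L₂, cG]
  simp only [mul_neg, Finset.mul_sum, Finset.sum_neg_distrib]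
  rw [Finset.sum_comm, Int.cast_neg, CharTwo.neg_eq, Int.cast_sum]
  exact Finset.sum_congr rfl fun d _ => sum_val_chiG hh hq2 d

theorem map_QI (h : ZMod q) (hq2 : q ≠ 2) : π₂ (QI p q h) = 0 := by
  ext n
  simp only [QI, coeff_map, map_sum, map_zero, eq_intCast]
  refine Finset.sum_involution (fun a _ => -a) (fun a _ => ?_) (fun a _ ha e => ?_)
    (fun a _ => Finset.mem_univ _) fun a _ => neg_neg a
  · simp [mul_neg, GI_neg, CharTwo.add_self_eq_zero]
  · rcases (ZMod.neg_eq_self_iff a).mp e with rfl | h2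
    · simp [GI_zero] at ha
    · exact hq2 ((Nat.prime_dvd_prime_iff_eq Nat.prime_two Fact.out).mp ⟨a.val, h2.symm⟩).symm

theorem map_FI {h : ZMod q} (hh : h ≠ 0) (hq2 : q ≠ 2) :
    π₂ (FI p q h) = Vp p (L₂ q) + L₂ q := by
  rw [FI, map_add, map_add, map_mul, map_Vp, map_LI hh hq2, map_LI (inv_ne_zero hh) hq2,
    map_QI h hq2, mul_zero, add_zero]

theorem Up_L₂ : Up q (L₂ q) = L₂ q := by
  have hq : q.Prime := Fact.out
  ext n
  simp only [L₂, coeff_Up, coeff_mk]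
  rcases eq_or_ne n 0 with rfl | hn
  · simp
  refine (Finset.sum_subset (Nat.divisors_subset_of_dvd ?_ (dvd_mul_right n q)) fun d hd hd' => ?_).symm
  · exact mul_ne_zero hn hq.ne_zero
  · rw [if_pos]
    rw [ZMod.natCast_eq_zero_iff]
    by_contra hc
    simp only [Nat.mem_divisors] at hd hd'
    exact hd' ⟨Nat.Coprime.dvd_of_dvd_mul_right ((Nat.Prime.coprime_iff_not_dvd hq).mpr hc).symm
      hd.1, hn⟩

theorem Up_Vp_L₂ (hpq : p ≠ q) : Up q (Vp p (L₂ q)) = Vp p (L₂ q) := by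
  have hp : p.Prime := Fact.out
  have hq : q.Prime := Fact.out
  ext n
  rw [coeff_Up, coeff_Vp, coeff_Vp]
  by_cases h : p ∣ n
  · obtain ⟨k, rfl⟩ := h
    rw [if_pos (dvd_mul_right p k), if_pos ⟨k * q, by ring⟩, mul_assoc,
      Nat.mul_div_cancel_left _ hp.pos, Nat.mul_div_cancel_left _ hp.pos, ← coeff_Up, Up_L₂]
  · rw [if_neg h, if_neg]
    exact fun h' => ((Nat.Prime.dvd_mul hp).mp h').elim h
      fun h'' => hpq ((Nat.prime_dvd_prime_iff_eq hp hq).mp h'')

/-- `q` times the nonconstant part of `PhiSer`. -/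
def PhiI (p q : ℕ) [Fact p.Prime] [Fact q.Prime] (h : ZMod q) : PowerSeries ℤ :=
  FI p q h - Up q (FI p q (h * p)⁻¹)

theorem natCast_prime_ne_zero (hpq : p ≠ q) : (p : ZMod q) ≠ 0 := by
  rw [Ne, ZMod.natCast_eq_zero_iff, Nat.prime_dvd_prime_iff_eq Fact.out Fact.out]
  exact Ne.symm hpq

theorem map_PhiI (hpq : p ≠ q) {h : ZMod q} (hh : h ≠ 0) (hq2 : q ≠ 2) :
    π₂ (PhiI p q h) = 0 := by
  rw [PhiI, map_sub, map_Up, map_FI hh hq2,
    map_FI (inv_ne_zero (mul_ne_zero hh (natCast_prime_ne_zero hpq))) hq2, map_add, Up_L₂,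
    Up_Vp_L₂ hpq, sub_self]

theorem q_mul_PhiSer (hpq : p ≠ q) {h : ZMod q} (hh : h ≠ 0) :
    C (q : ℂ) * PhiSer p q h =
      C ((q : ℂ) * sDed q h - (q : ℂ) * sDed q (h * p)⁻¹) + ι (PhiI p q h) := by
  rw [PhiSer, mul_sub, q_mul_FSer hh, ← smul_eq_C_mul _ (q : ℂ), ← map_smul, smul_eq_C_mul,
    q_mul_FSer (inv_ne_zero (mul_ne_zero hh (natCast_prime_ne_zero hpq))), map_add, Up_C, PhiI,
    map_sub, map_sub, map_Up]
  ring

theorem sDed_inv {h : ZMod q} (hh : h ≠ 0) : sDed q h⁻¹ = sDed q h := by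
  refine (Fintype.sum_equiv (Equiv.mulLeft₀ h hh) _ _ fun a => ?_).symm
  simp [inv_mul_cancel_left₀ hh, mul_comm]

theorem sDed_neg (h : ZMod q) : sDed q (-h) = -sDed q h := by
  simp [sDed, saw_neg, Finset.sum_neg_distrib]

theorem sum_sub_sq (c : ℂ) (N : ℕ) : ∑ v ∈ Finset.range N, ((v : ℂ) - c) ^ 2 =
    (N : ℂ) * (N - 1) * (2 * N - 1) / 6 - c * N * (N - 1) + N * c ^ 2 := by
  induction N with
  | zero => simp
  | succ N ih => rw [Finset.sum_range_succ, ih]; push_cast; ring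

theorem q_mul_sDed_one : (q : ℂ) * sDed q 1 = ((q : ℂ) - 1) * ((q : ℂ) - 2) / 12 := by
  have hq : (q : ℂ) ≠ 0 := NeZero.ne _
  have e : ∀ a : ZMod q, saw q a * saw q (1 * a) =
      (((a.val : ℂ) - q / 2) ^ 2 - if a = 0 then ((q : ℂ) / 2) ^ 2 else 0) / (q : ℂ) ^ 2 := by
    intro a
    rcases eq_or_ne a 0 with rfl | ha
    · simp [saw]
    · rw [one_mul, saw, if_neg ha, if_neg ha]
      field_simp
      ring
  have hr : ∑ a : ZMod q, ((a.val : ℂ) - q / 2) ^ 2 =
      ∑ v ∈ Finset.range q, ((v : ℂ) - q / 2) ^ 2 :=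
    Finset.sum_nbij' (fun a : ZMod q => a.val) (fun n => (n : ZMod q))
      (fun a _ => Finset.mem_coe.mpr (Finset.mem_range.mpr (ZMod.val_lt a)))
      (fun n _ => Finset.mem_coe.mpr (Finset.mem_univ _)) (fun a _ => ZMod.natCast_zmod_val a)
      (fun n hn => ZMod.val_cast_of_lt (Finset.mem_range.mp (Finset.mem_coe.mp hn)))
      fun a _ => rfl
  rw [sDed, Finset.sum_congr rfl fun a _ => e a, ← Finset.sum_div, Finset.sum_sub_distrib, hr,
    sum_sub_sq, Finset.sum_ite_eq' Finset.univ (0 : ZMod q), if_pos (Finset.mem_univ _)]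
  field_simp
  ring

/-- A form of level `p` with nonzero constant term and integral q-series. -/
theorem exists_Psi (hpq : p ≠ q) (hq2 : q ≠ 2) (hm : (p : ZMod q) ^ (q / 2) = -1) :
    ∃ (f : ℍ → ℂ) (A : PowerSeries ℤ), IsLv p 2 f ∧ coeff 0 A = 0 ∧
      HasQ 1 f (C (((q : ℂ) - 1) * ((q : ℂ) - 2) / 12) + ι A) := by
  have hne : ∀ i : ℕ, (p : ZMod q) ^ i ≠ 0 := fun i => pow_ne_zero _ (natCast_prime_ne_zero hpq)
  have h2 : ∀ (i n : ℕ), ∃ z : ℤ, coeff n (PhiI p q ((p : ZMod q) ^ i)) = 2 * z := fun i n => by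
    have := congrArg (coeff n) (map_PhiI hpq (hne i) hq2)
    rw [coeff_map, map_zero, eq_intCast, ZMod.intCast_zmod_eq_zero_iff_dvd] at this
    exact this
  choose z hz using h2
  have hPhi0 : ∀ h : ZMod q, coeff 0 (PhiI p q h) = 0 := fun h => by
    simp only [PhiI, map_sub, coeff_Up, zero_mul, coeff_zero_FI, sub_self]
  set H : ℕ → PowerSeries ℤ := fun i => PowerSeries.mk (z i) with hH
  have hH2 : ∀ i, PhiI p q ((p : ZMod q) ^ i) = C 2 * H i := fun i => by
    ext n; rw [coeff_C_mul, hH, coeff_mk, hz]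
  refine ⟨((q : ℂ) / 2) • ∑ i ∈ Finset.range (q / 2), Phi p q ((p : ZMod q) ^ i),
    ∑ i ∈ Finset.range (q / 2), H i, ?_, ?_, ?_⟩
  · exact (IsLv.sum _ fun i _ => isLv_Phi hpq (hne i)).smul _
  · rw [map_sum]
    refine Finset.sum_eq_zero fun i _ => ?_
    have := hz i 0
    rw [hPhi0] at this
    rw [hH, coeff_mk]
    omega
  · have h := (HasQ.sum (Finset.range (q / 2))
      fun i _ => hasQ_Phi (p := p) ((p : ZMod q) ^ i)).smul ((q : ℂ) / 2)
    convert h using 1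
    have key : ∀ i, C (q : ℂ) * PhiSer p q ((p : ZMod q) ^ i) =
        C ((q : ℂ) * sDed q ((p : ZMod q) ^ i) - (q : ℂ) * sDed q ((p : ZMod q) ^ (i + 1))) +
          C 2 * ι (H i) := fun i => by
      rw [q_mul_PhiSer hpq (hne i), ← pow_succ, sDed_inv (hne _), hH2, map_mul, PowerSeries.map_C,
        eq_intCast, Int.cast_ofNat]
    have h2q : (C ((q : ℂ) / 2) : PowerSeries ℂ) = C (1 / 2) * C (q : ℂ) := by
      rw [← map_mul]; ring_nf
    rw [PowerSeries.smul_eq_C_mul, h2q, mul_assoc, Finset.mul_sum (a := C (q : ℂ)),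
      Finset.sum_congr rfl fun i _ => key i, Finset.sum_add_distrib, ← map_sum C,
      Finset.sum_range_sub' (fun i => (q : ℂ) * sDed q ((p : ZMod q) ^ i)), pow_zero, hm, sDed_neg,
      ← Finset.mul_sum, mul_add, ← map_mul, ← mul_assoc, ← map_mul, map_sum]
    congr 2
    · linear_combination -(q_mul_sDed_one (q := q))
    · norm_num

end FA.Eis
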