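import Fermat.Agent.Eisenstein.Zfun
import Fermat.Agent.Eisenstein.QOps

/-!
# The weight one Eisenstein series of prime level `q`

`Gfun a` and, at the other cusps, `Hfun b`.
-/

set_option autoImplicit false

noncomputable section

open UpperHalfPlane hiding I
open Complex Filter Function Topology PowerSeries CongruenceSubgroup
open scoped Real MatrixGroups ModularForm

local notation "𝕢" => Function.Periodic.qParam

namespace FA.Eis

theorem qParam_one_eq_qq (τ : ℍ) : 𝕢 1 τ = qq τ := by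
  simp [Periodic.qParam, eu]

theorem qq_scalePt (q : ℕ) [NeZero q] (τ : ℍ) : qq (scalePt q τ) = qq τ ^ q := by
  rw [← qParam_one_eq_qq, qParam_scalePt, qParam_one_eq_qq]

theorem hasSum_geometric_pnat {y : ℂ} (hy : ‖y‖ < 1) :
    HasSum (fun m : ℕ+ => y ^ (m : ℕ)) (-rr y) := by
  have h := (hasSum_geometric_of_norm_lt_one hy).mul_left y
  have e : (fun n : ℕ => y * y ^ n) = (fun m : ℕ+ => y ^ (m : ℕ)) ∘ Equiv.pnatEquivNat.symm := by
    funext n
    simp [pow_succ']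
  rw [e, Equiv.hasSum_iff] at h
  have h2 : y * (1 - y)⁻¹ = -rr y := by
    rw [rr, ← neg_div_neg_eq, neg_sub, neg_div, neg_neg, div_eq_mul_inv]
  rwa [h2] at h

/-- Lambert series regrouping. -/
theorem hasSum_lambert {f : ℕ → ℂ} {C : ℝ} (hf : ∀ d, ‖f d‖ ≤ C) {x : ℂ} (hx : ‖x‖ < 1) :
    ∃ S : ℂ, HasSum (fun N : ℕ => (∑ d ∈ N.divisors, f d) * x ^ N) S ∧
      HasSum (fun c : ℕ+ × ℕ+ => f c.1 * x ^ ((c.1 : ℕ) * c.2)) S := by
  have hC : 0 ≤ C := le_trans (norm_nonneg _) (hf 0)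
  have hs0 : Summable fun c : ℕ+ × ℕ+ => ‖x‖ ^ ((c.1 : ℕ) * c.2) := by
    have h := summable_prod_mul_pow 0 (r := ‖x‖) (by simpa using hx)
    simpa using h
  have hs : Summable fun c : ℕ+ × ℕ+ => f c.1 * x ^ ((c.1 : ℕ) * c.2) := by
    refine Summable.of_norm_bounded (hs0.mul_left C) fun c => ?_
    rw [norm_mul, norm_pow]
    exact mul_le_mul_of_nonneg_right (hf _) (by positivity)
  obtain ⟨S, hS⟩ := hs
  refine ⟨S, ?_, hS⟩
  have h1 := sigmaAntidiagonalEquivProd.hasSum_iff.mpr hS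
  have h2 : HasSum (fun n : ℕ+ => (∑ d ∈ (n : ℕ).divisors, f d) * x ^ (n : ℕ)) S := by
    refine h1.sigma fun n => ?_
    simp only [Function.comp_def, sigmaAntidiagonalEquivProd, divisorsAntidiagonalFactors,
      Equiv.coe_fn_mk, PNat.mk_coe]
    convert hasSum_fintype (fun c : (n : ℕ).divisorsAntidiagonal =>
      f c.1.1 * x ^ (c.1.1 * c.1.2)) using 1
    rw [Finset.sum_mul, ← Nat.sum_divisorsAntidiagonal (fun d _ => f d * x ^ (n : ℕ)),
      Finset.univ_eq_attach, Finset.sum_attach _ (fun c : ℕ × ℕ => f c.1 * x ^ (c.1 * c.2))]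
    refine Finset.sum_congr rfl fun c hc => ?_
    rw [(Nat.mem_divisorsAntidiagonal.mp hc).1]
  have hinj : Function.Injective (fun n : ℕ+ => (n : ℕ)) := PNat.coe_injective
  refine (hinj.hasSum_iff fun N hN => ?_).mp h2
  have : N = 0 := by
    by_contra h
    exact hN ⟨⟨N, Nat.pos_of_ne_zero h⟩, rfl⟩
  simp [this]

variable (q : ℕ) [Fact q.Prime]

/-- The sawtooth value at `a/q`. -/
def saw (a : ZMod q) : ℂ := if a = 0 then 0 else (a.val : ℂ) / q - 1 / 2

/-- `[d ≡ a] - [d ≡ -a]`. -/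
def chiG (a : ZMod q) (d : ℕ) : ℤ :=
  (if (d : ZMod q) = a then 1 else 0) - (if (d : ZMod q) = -a then 1 else 0)

/-- The coefficients of `Gfun a`. -/
def cG (a : ZMod q) (n : ℕ) : ℤ := -∑ d ∈ n.divisors, chiG q a d

/-- The q-series of `Gfun a`. -/
def GSer (a : ZMod q) : PowerSeries ℂ :=
  PowerSeries.mk fun n => if n = 0 then saw q a else (cG q a n : ℂ)

/-- The weight one Eisenstein series. -/
def Gfun (a : ZMod q) : ℍ → ℂ := fun τ =>
  (2 * π * I)⁻¹ * Zf ((a.val : ℂ) * τ) (scalePt q τ) + (a.val : ℂ) / q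

/-- The standard character. -/
abbrev ψ (x : ZMod q) : ℂ := ZMod.stdAddChar x

/-- The constant terms at the other cusps. -/
def cotC (b : ZMod q) : ℂ := (ψ q b + 1) / (2 * (ψ q b - 1))

/-- The coefficients of `Hfun b`. -/
def cH (b : ZMod q) (n : ℕ) : ℂ :=
  -∑ m ∈ n.divisors, (ψ q (b * m) - ψ q (-(b * m)))

/-- The q-series of `Hfun b`. -/
def HSer (b : ZMod q) : PowerSeries ℂ :=
  PowerSeries.mk fun n => if n = 0 then cotC q b else cH q b n

/-- The weight one series at the other cusps. -/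
def Hfun (b : ZMod q) : ℍ → ℂ := fun τ => (2 * π * I)⁻¹ * Zf ((b.val : ℂ) / q) τ

variable {q}

theorem saw_neg (a : ZMod q) : saw q (-a) = -saw q a := by
  rcases eq_or_ne a 0 with rfl | ha
  · simp [saw]
  · haveI : NeZero a := ⟨ha⟩
    rw [saw, saw, if_neg ha, if_neg (neg_ne_zero.mpr ha), ZMod.val_neg_of_ne_zero,
      Nat.cast_sub (ZMod.val_lt a).le]
    have : (q : ℂ) ≠ 0 := NeZero.ne _
    field_simp
    ring

theorem chiG_neg (a : ZMod q) (d : ℕ) : chiG q (-a) d = -chiG q a d := by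
  simp [chiG]

theorem cG_neg (a : ZMod q) (n : ℕ) : cG q (-a) n = -cG q a n := by
  simp [cG, chiG_neg, Finset.sum_neg_distrib]

theorem GSer_neg (a : ZMod q) : GSer q (-a) = -GSer q a := by
  ext n
  simp only [GSer, coeff_mk, map_neg, saw_neg, cG_neg]
  split_ifs <;> simp

theorem hasSum_residue_class {x : ℂ} (a : ZMod q) (ha : a ≠ 0)
    (hs : Summable fun n : ℕ => rr (x ^ (a.val + q * n))) :
    HasSum (fun d : ℕ+ => (if ((d : ℕ) : ZMod q) = a then 1 else 0) * rr (x ^ (d : ℕ)))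
      (∑' n : ℕ, rr (x ^ (a.val + q * n))) := by
  have hv : 0 < a.val := Nat.pos_of_ne_zero fun h => ha ((ZMod.val_eq_zero a).mp h)
  set i : ℕ → ℕ+ := fun n => ⟨a.val + q * n, by omega⟩
  have hinj : Function.Injective i := fun m n h => by
    have := congrArg PNat.val h
    simp only [i, PNat.mk_coe] at this
    exact Nat.eq_of_mul_eq_mul_left (NeZero.pos q) (by omega)
  refine (hinj.hasSum_iff fun d hd => ?_).mp ?_
  · rw [if_neg, zero_mul]
    intro h
    apply hd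
    refine ⟨(d : ℕ) / q, PNat.coe_injective ?_⟩
    have h1 := congrArg ZMod.val h
    rw [ZMod.val_natCast] at h1
    simp only [i, PNat.mk_coe, ← h1]
    exact Nat.mod_add_div _ _
  · refine hs.hasSum.congr_fun fun n => ?_
    rw [Function.comp_apply]
    simp [i]

theorem hasQ_Gfun (a : ZMod q) : HasQ 1 (Gfun q a) (GSer q a) := by
  rcases eq_or_ne a 0 with rfl | ha
  · intro τ
    have h : GSer q (0 : ZMod q) = 0 := by
      ext n; simp [GSer, saw, cG, chiG]
    simp [h, Gfun, Zf_zero, hasSum_zero]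
  intro τ
  haveI : NeZero a := ⟨ha⟩
  set x := qq τ with hx
  have hxn : ‖x‖ < 1 := norm_qq_lt_one τ
  have hxq : qq (scalePt q τ) = x ^ q := qq_scalePt q τ
  have hv : 0 < a.val := Nat.pos_of_ne_zero fun h => ha ((ZMod.val_eq_zero a).mp h)
  have hvq := ZMod.val_lt a
  have hnv : (-a).val = q - a.val := ZMod.val_neg_of_ne_zero a
  have sa : Summable fun n : ℕ => rr (x ^ (a.val + q * n)) :=
    (summable_rr_mul_pow (x ^ a.val) (scalePt q τ)).congr fun n => by
      rw [hxq, ← pow_mul, ← pow_add]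
  have hu : eu ((a.val : ℂ) * τ) = x ^ a.val := eu_nat_mul _ _
  have sna : Summable fun n : ℕ => rr (x ^ ((-a).val + q * n)) :=
    (summable_rr_mul_pow (x ^ (-a).val) (scalePt q τ)).congr fun n => by
      rw [hxq, ← pow_mul, ← pow_add]
  have hA := hasSum_residue_class a ha sa
  have hB := hasSum_residue_class (-a) (neg_ne_zero.mpr ha) sna
  have hD : HasSum (fun d : ℕ+ => (chiG q a d : ℂ) * rr (x ^ (d : ℕ)))
      (∑' n : ℕ, rr (x ^ (a.val + q * n)) - ∑' n : ℕ, rr (x ^ ((-a).val + q * n))) := by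
    refine (hA.sub hB).congr_fun fun d => ?_
    simp [chiG, sub_mul, apply_ite (fun z : ℤ => (z : ℂ))]
  obtain ⟨S, hS1, hS2⟩ := hasSum_lambert (f := fun d => (chiG q a d : ℂ)) (C := 2)
    (fun d => by unfold chiG; split_ifs <;> norm_num) hxn
  have hDS := hS2.prod_fiberwise (g := fun d : ℕ+ => -((chiG q a d : ℂ) * rr (x ^ (d : ℕ))))
    fun d => by
      have h := (hasSum_geometric_pnat (y := x ^ (d : ℕ))
        (by rw [norm_pow]; exact pow_lt_one₀ (norm_nonneg _) hxn d.pos.ne')).mul_left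
          (chiG q a d : ℂ)
      rw [mul_neg] at h
      exact h.congr_fun fun m => by rw [pow_mul]
  have hSval := hDS.unique hD.neg
  have hpow1 : x ^ a.val ≠ 1 := by
    intro h
    have := congrArg norm h
    rw [norm_pow, norm_one] at this
    exact absurd this (pow_lt_one₀ (norm_nonneg _) hxn hv.ne').ne
  have hGf : Gfun q a τ = saw q a +
      (∑' n : ℕ, rr (x ^ (a.val + q * n)) - ∑' n : ℕ, rr (x ^ ((-a).val + q * n))) := by
    have e1 : (fun n : ℕ => rr (x ^ a.val * (x ^ q) ^ (n + 1))) =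
        fun n : ℕ => rr (x ^ (a.val + q * (n + 1))) := by
      funext n; rw [← pow_mul, ← pow_add]
    have hxne : x ≠ 0 := eu_ne_zero _
    have e2 : (fun n : ℕ => rr ((x ^ a.val)⁻¹ * (x ^ q) ^ (n + 1))) =
        fun n : ℕ => rr (x ^ ((-a).val + q * n)) := by
      funext n
      congr 1
      rw [inv_mul_eq_iff_eq_mul₀ (pow_ne_zero _ hxne), ← pow_mul, ← pow_add, hnv]
      congr 1
      have : q * (n + 1) = q * n + q := by ring
      omega
    have e3 := sa.tsum_eq_zero_add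
    simp only [mul_zero, add_zero] at e3
    rw [Gfun, Zf, Zhead, Zreg_eq_sub, hu, hxq, e1, e2, e3, saw, if_neg ha,
      two_rr_sub_one hpow1]
    field_simp [Real.pi_ne_zero, I_ne_zero]
    ring
  have h0 : HasSum (fun N : ℕ => if N = 0 then saw q a else 0) (saw q a) := hasSum_ite_eq 0 _
  have hall := h0.add hS1.neg
  rw [hSval, neg_neg, ← hGf] at hall
  refine hall.congr_fun fun N => ?_
  rw [qParam_one_eq_qq]
  rcases eq_or_ne N 0 with rfl | hN
  · simp [GSer]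
  · simp [GSer, cG, hN, hx]

theorem stdAddChar_val (b : ZMod q) : ψ q b = eu ((b.val : ℂ) / q) := by
  conv_lhs => rw [← ZMod.natCast_zmod_val b]
  have := ZMod.stdAddChar_coe (N := q) (b.val : ℤ)
  rw [ψ, eu, show (2 * π * I * ((b.val : ℂ) / q)) = 2 * π * I * (b.val : ℂ) / q by ring]
  simpa using this

theorem norm_stdAddChar (b : ZMod q) : ‖ψ q b‖ = 1 := by
  simp [ψ, ZMod.stdAddChar_apply, Circle.norm_coe]

theorem hasQ_Hfun (b : ZMod q) : HasQ 1 (Hfun q b) (HSer q b) := by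
  intro τ
  set X := qq τ with hX
  have hXn : ‖X‖ < 1 := norm_qq_lt_one τ
  set u := ψ q b with hu
  have hun : ‖u‖ = 1 := norm_stdAddChar b
  have hu0 : u ≠ 0 := by rw [← norm_pos_iff, hun]; exact one_pos
  have hchar : ∀ m : ℕ, ψ q (b * m) = u ^ m ∧ ψ q (-(b * m)) = u⁻¹ ^ m := fun m => by
    have h1 : b * (m : ZMod q) = m • b := by rw [nsmul_eq_mul, mul_comm]
    constructor
    · rw [hu, ψ, ψ, h1, AddChar.map_nsmul_eq_pow]
    · rw [hu, ψ, ψ, h1, ← neg_nsmul, AddChar.map_nsmul_eq_pow, AddChar.map_neg_eq_inv]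
  obtain ⟨S, hS1, hS2⟩ := hasSum_lambert (f := fun m : ℕ => u ^ m - u⁻¹ ^ m) (C := 2)
    (fun d => (norm_sub_le _ _).trans (by simp [norm_pow, norm_inv, hun]; norm_num)) hXn
  have hS2' := ((Equiv.prodComm ℕ+ ℕ+).hasSum_iff).mpr hS2
  have hDS := hS2'.prod_fiberwise
    (g := fun d : ℕ+ => -rr (u * X ^ (d : ℕ)) - -rr (u⁻¹ * X ^ (d : ℕ))) fun d => by
      have hd : ‖X ^ (d : ℕ)‖ < 1 := by
        rw [norm_pow]; exact pow_lt_one₀ (norm_nonneg _) hXn d.pos.ne'
      have g1 := hasSum_geometric_pnat (y := u * X ^ (d : ℕ)) (by rwa [norm_mul, hun, one_mul])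
      have g2 := hasSum_geometric_pnat (y := u⁻¹ * X ^ (d : ℕ))
        (by rwa [norm_mul, norm_inv, hun, inv_one, one_mul])
      refine (g1.sub g2).congr_fun fun m => ?_
      simp only [Function.comp_apply, Equiv.prodComm_apply, Prod.swap_prod_mk]
      rw [mul_pow, mul_pow, ← pow_mul, mul_comm (d : ℕ) (m : ℕ)]
      ring
  have hnat : HasSum (fun n : ℕ => -rr (u * X ^ (n + 1)) - -rr (u⁻¹ * X ^ (n + 1))) S := by
    have h := Equiv.pnatEquivNat.symm.hasSum_iff.mpr hDS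
    simpa [Function.comp_def] using h
  have hSval : ∑' n : ℕ, rr (u * X ^ (n + 1)) - ∑' n : ℕ, rr (u⁻¹ * X ^ (n + 1)) = -S := by
    refine ((summable_rr_succ u τ).hasSum.sub (summable_rr_succ u⁻¹ τ).hasSum).unique ?_
    refine hnat.neg.congr_fun fun n => ?_
    ring
  have hHf : Hfun q b τ = cotC q b + -S := by
    rw [Hfun, Zf, Zhead, Zreg_eq_sub, ← stdAddChar_val, ← hu, ← hX, hSval, cotC, ← hu]
    field_simp [Real.pi_ne_zero, I_ne_zero]
  have h0 : HasSum (fun N : ℕ => if N = 0 then cotC q b else 0) (cotC q b) := hasSum_ite_eq 0 _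
  have hall := h0.add hS1.neg
  rw [← hHf] at hall
  refine hall.congr_fun fun N => ?_
  rw [qParam_one_eq_qq]
  rcases eq_or_ne N 0 with rfl | hN
  · simp [HSer]
  · simp [HSer, cH, hN, ← hX, hchar]
    ring

theorem Zf_add_intCast (w : ℂ) (n : ℤ) (τ : ℍ) : Zf (w + n) τ = Zf w τ := by
  simp [Zf, Zhead, Zreg, eu_add]

theorem Zf_add_int_mul {τ : ℍ} {w : ℂ} (h : OffL τ w) (m : ℤ) :
    Zf (w + m * τ) τ = Zf w τ - 2 * π * I * m := by
  induction m using Int.induction_on with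
  | zero => simp
  | succ i ih =>
    have h' : OffL τ (w + (i : ℤ) * τ) := by simpa using offL_add_lattice h i 0
    have := Zf_add_self h'
    rw [ih] at this
    rw [show w + ((i : ℤ) + 1 : ℤ) * (τ : ℂ) = w + (i : ℤ) * τ + τ by push_cast; ring, this]
    push_cast; ring
  | pred i ih =>
    have h' : OffL τ (w + ((-i - 1 : ℤ) : ℂ) * τ) := by
      simpa using offL_add_lattice h (-i - 1) 0
    have := Zf_add_self h'
    rw [show w + ((-i - 1 : ℤ) : ℂ) * (τ : ℂ) + τ = w + ((-i : ℤ) : ℂ) * τ by push_cast; ring,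
      ih] at this
    push_cast at this ⊢
    linear_combination -this

/-- Transformation of `Gfun` under `Γ₀(q)`. -/
theorem Gfun_slash_of_mem (a : ZMod q) {γ : SL(2, ℤ)} (hγ : (q : ℤ) ∣ γ 1 0) :
    Gfun q a ∣[(1 : ℤ)] γ = Gfun q ((γ 0 0 : ZMod q) * a) := by
  rcases eq_or_ne a 0 with rfl | ha
  · funext τ
    simp [slash_sl_apply, Gfun, Zf_zero]
  obtain ⟨c', hc⟩ := hγ
  funext τ
  set a' := (γ 0 0 : ZMod q) * a with ha'
  have ha'0 : a' ≠ 0 := by
    have h1 : (γ 0 0 : ZMod q) * (γ 1 1 : ZMod q) = 1 := by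
      have := congrArg (fun z : ℤ => (z : ZMod q)) (sl_det γ)
      simpa [hc] using this
    exact mul_ne_zero (left_ne_zero_of_mul_eq_one h1) ha
  obtain ⟨k, hk⟩ : ∃ k : ℤ, (a.val : ℤ) * γ 0 0 = (a'.val : ℤ) + k * q := by
    have h : (((a.val : ℤ) * γ 0 0 - (a'.val : ℤ) : ℤ) : ZMod q) = 0 := by
      simp [ha', mul_comm]
    obtain ⟨k, hk⟩ := (ZMod.intCast_zmod_eq_zero_iff_dvd _ _).mp h
    exact ⟨k, by linarith⟩
  have hd : γ 0 0 * γ 1 1 - q * γ 0 1 * c' = 1 := by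
    have := sl_det γ
    rw [hc] at this
    linarith
  set σ := sl2 (γ 0 0) (q * γ 0 1) c' (γ 1 1) hd
  have hden : den σ (scalePt q τ) = den γ τ := by
    simp only [den, σ, sl2_10, sl2_11, coe_scalePt, hc, Int.cast_mul, Int.cast_natCast]
    ring
  have hne := den_ne_zero γ τ
  have hpt : scalePt q (γ • τ) = σ • scalePt q τ := by
    apply UpperHalfPlane.ext
    rw [coe_sl_smul, hden, coe_scalePt, coe_scalePt, coe_sl_smul]
    simp only [σ, sl2_00, sl2_01, Int.cast_mul, Int.cast_natCast]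
    field_simp
  have hqτ : (scalePt q τ : ℂ) = (q : ℂ) * τ := coe_scalePt τ
  have hkC : (a.val : ℂ) * (γ 0 0 : ℂ) = (a'.val : ℂ) + (k : ℂ) * q := by
    have := congrArg (fun z : ℤ => (z : ℂ)) hk
    push_cast at this
    exact this
  have hoff : OffL (scalePt q τ) ((a'.val : ℂ) * τ) := by
    by_contra h
    obtain ⟨m, n, hmn⟩ := (not_offL_iff _ _).mp h
    rw [hqτ] at hmn
    have him := congrArg Complex.im hmn
    simp [-ZMod.natCast_val] at him
    have h1 : (a'.val : ℤ) = m * q := by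
      have : ((a'.val : ℝ) - m * q) * τ.im = 0 := by linarith
      rcases mul_eq_zero.mp this with h2 | h2
      · exact_mod_cast (sub_eq_zero.mp h2)
      · exact absurd h2 τ.im_ne_zero
    apply ha'0
    have := congrArg (fun z : ℤ => (z : ZMod q)) h1
    simpa using this
  set w : ℂ := (a.val : ℂ) * ((γ 0 0 : ℂ) * τ + (γ 0 1 : ℂ)) with hw
  have hwe : w = (a'.val : ℂ) * τ + ((k : ℂ) * (scalePt q τ : ℂ) + ((a.val : ℤ) * γ 0 1 : ℤ)) := by
    rw [hw, hqτ]
    push_cast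
    linear_combination (τ : ℂ) * hkC
  have hoffw : OffL (scalePt q τ) w := hwe ▸ offL_add_lattice hoff k _
  obtain ⟨-, hlaw⟩ := zLaw σ (scalePt q τ) w hoffw
  rw [← hpt, hden, show σ 1 0 = c' from rfl] at hlaw
  have hwd : (a.val : ℂ) * ((γ • τ : ℍ) : ℂ) = w / den γ τ := by
    rw [hw, coe_sl_smul]; ring
  have hZ : Zf w (scalePt q τ) = Zf ((a'.val : ℂ) * τ) (scalePt q τ) - 2 * π * I * k := by
    rw [hwe, ← add_assoc, Zf_add_intCast, Zf_add_int_mul hoff]
  rw [slash_sl_apply, Gfun, Gfun, hwd, hlaw, hZ, zpow_neg_one]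
  have hdd : den γ τ = (q : ℂ) * (c' : ℂ) * τ + (γ 1 1 : ℂ) := by
    simp [den, hc]
  have hdet : (γ 0 0 : ℂ) * (γ 1 1 : ℂ) - (q : ℂ) * (γ 0 1 : ℂ) * (c' : ℂ) = 1 := by
    exact_mod_cast hd
  have hq0 : (q : ℂ) ≠ 0 := NeZero.ne _
  field_simp [Real.pi_ne_zero, I_ne_zero]
  rw [hdd, hw]
  linear_combination (2 * π * I) * ((q : ℂ) * c' * (τ : ℂ) * hkC + (γ 1 1 : ℂ) * hkC - (a.val : ℂ) * hdet)

/-- Transformation of `Gfun` by a matrix outside `Γ₀(q)`. -/
theorem Gfun_slash_of_not (a : ZMod q) {γ : SL(2, ℤ)} (hγ : ¬(q : ℤ) ∣ γ 1 0) {j : ℕ}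
    (hj : (γ 1 0 : ZMod q) * j = (γ 1 1 : ZMod q)) :
    Gfun q a ∣[(1 : ℤ)] γ =
      fun τ => (q : ℂ)⁻¹ * Hfun q (-a / (γ 1 0 : ZMod q)) (fdivPt q j τ) := by
  rcases eq_or_ne a 0 with rfl | ha
  · funext τ
    simp [slash_sl_apply, Gfun, Hfun, Zf_zero]
  funext τ
  have hcz : (γ 1 0 : ZMod q) ≠ 0 := fun h =>
    hγ ((ZMod.intCast_zmod_eq_zero_iff_dvd _ _).mp h)
  obtain ⟨δ, hδ⟩ : ∃ δ : ℤ, γ 1 1 - γ 1 0 * j = q * δ := by
    have h : ((γ 1 1 - γ 1 0 * j : ℤ) : ZMod q) = 0 := by push_cast; rw [hj, sub_self]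
    exact (ZMod.intCast_zmod_eq_zero_iff_dvd _ _).mp h
  set B : ℤ := γ 0 1 - γ 0 0 * j with hB
  have hd : (q : ℤ) * γ 0 0 * δ - B * γ 1 0 = 1 := by
    rw [hB]
    linear_combination sl_det γ - γ 0 0 * hδ
  set σ := sl2 ((q : ℤ) * γ 0 0) B (γ 1 0) δ hd
  set b := -a / (γ 1 0 : ZMod q) with hb
  set T := fdivPt q j τ with hT
  have hq0 : (q : ℂ) ≠ 0 := NeZero.ne _
  have hTc : (T : ℂ) = ((τ : ℂ) + j) / q := coe_fdivPt j τ
  have hne := den_ne_zero γ τ
  have hδC : (γ 1 1 : ℂ) - (γ 1 0 : ℂ) * j = (q : ℂ) * δ := by exact_mod_cast hδ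
  have hBC : (B : ℂ) = (γ 0 1 : ℂ) - (γ 0 0 : ℂ) * j := by rw [hB]; push_cast; ring
  have hden : den σ T = den γ τ / q := by
    simp only [den, σ, sl2_10, sl2_11, hTc]
    field_simp
    linear_combination -hδC
  have hpt : scalePt q (γ • τ) = σ • T := by
    apply UpperHalfPlane.ext
    rw [coe_sl_smul, hden, coe_scalePt, coe_sl_smul, hTc]
    simp only [σ, sl2_00, sl2_01, Int.cast_mul, Int.cast_natCast]
    rw [hBC]
    field_simp
    ring
  obtain ⟨n, hn⟩ : ∃ n : ℤ, (a.val : ℤ) * B = (b.val : ℤ) + q * n := by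
    have hcB : (γ 1 0 : ZMod q) * (B : ZMod q) = -1 := by
      have := congrArg (fun z : ℤ => (z : ZMod q)) hd
      push_cast at this
      simp only [ZMod.natCast_self, zero_mul] at this
      linear_combination -this
    have h : (((a.val : ℤ) * B - (b.val : ℤ) : ℤ) : ZMod q) = 0 := by
      push_cast
      rw [ZMod.natCast_zmod_val, ZMod.natCast_zmod_val, hb, sub_eq_zero, eq_div_iff hcz]
      linear_combination a * hcB
    obtain ⟨n, hn⟩ := (ZMod.intCast_zmod_eq_zero_iff_dvd _ _).mp h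
    exact ⟨n, by linarith⟩
  have hnC : (a.val : ℂ) * (B : ℂ) = (b.val : ℂ) + (q : ℂ) * n := by
    have := congrArg (fun z : ℤ => (z : ℂ)) hn
    push_cast at this
    exact this
  have hb0 : b ≠ 0 := div_ne_zero (neg_ne_zero.mpr ha) hcz
  have hoff : OffL T ((b.val : ℂ) / q) := by
    by_contra h
    obtain ⟨m', n', hmn⟩ := (not_offL_iff _ _).mp h
    have him := congrArg Complex.im hmn
    simp [-ZMod.natCast_val] at him
    rcases him with h1 | h1
    · subst h1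
      simp [-ZMod.natCast_val] at hmn
      rw [div_eq_iff hq0] at hmn
      have h2 : (b.val : ℤ) = n' * q := by exact_mod_cast hmn
      apply hb0
      have := congrArg (fun z : ℤ => (z : ZMod q)) h2
      simpa using this
    · exact T.im_ne_zero h1
  set w : ℂ := (a.val : ℂ) * ((γ 0 0 : ℂ) * τ + (γ 0 1 : ℂ)) / q with hw
  have hwe : w = (b.val : ℂ) / q + (((a.val : ℤ) * γ 0 0 : ℤ) * (T : ℂ) + n) := by
    rw [hw, hTc]
    push_cast
    field_simp
    linear_combination hnC - (a.val : ℂ) * hBC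
  have hoffw : OffL T w := hwe ▸ offL_add_lattice hoff _ n
  obtain ⟨-, hlaw⟩ := zLaw σ T w hoffw
  rw [← hpt, hden, show σ 1 0 = γ 1 0 from rfl] at hlaw
  have hwd : (a.val : ℂ) * ((γ • τ : ℍ) : ℂ) = w / (den γ τ / q) := by
    rw [hw, coe_sl_smul]; field_simp
  have hZ : Zf w T = Zf ((b.val : ℂ) / q) T - 2 * π * I * (((a.val : ℤ) * γ 0 0 : ℤ) : ℂ) := by
    rw [hwe, ← add_assoc, Zf_add_intCast, Zf_add_int_mul hoff]
  have hdet : (γ 0 0 : ℂ) * (γ 1 1 : ℂ) - (γ 0 1 : ℂ) * (γ 1 0 : ℂ) = 1 := by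
    exact_mod_cast sl_det γ
  rw [slash_sl_apply, Gfun, Hfun, hwd, hlaw, hZ, zpow_neg_one]
  field_simp [Real.pi_ne_zero, I_ne_zero]
  rw [hw]
  simp only [den]
  push_cast
  field_simp
  linear_combination (2 * π * I) * (-(a.val : ℂ) * hdet)

end FA.Eis
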