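import Fermat.Agent.Eisenstein.LevelP

/-!
# Level one forms with integral q-expansions
-/

set_option autoImplicit false

noncomputable section

open UpperHalfPlane hiding I
open Complex Filter Function Topology ModularForm PowerSeries CongruenceSubgroup
open scoped Manifold Real MatrixGroups ModularForm ArithmeticFunction.sigma

namespace FA.Eis

/-- `∑_{n ≥ 1} σ_j(n) X^n`. -/
def sigmaSeries (j : ℕ) : PowerSeries ℤ :=
  PowerSeries.mk fun n => if n = 0 then 0 else (σ j n : ℤ)

@[simp] theorem coeff_sigmaSeries (j n : ℕ) :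
    coeff n (sigmaSeries j) = if n = 0 then 0 else (σ j n : ℤ) := coeff_mk n _

@[simp] theorem constantCoeff_sigmaSeries (j : ℕ) : constantCoeff (sigmaSeries j) = 0 := by
  rw [← coeff_zero_eq_constantCoeff_apply, coeff_sigmaSeries, if_pos rfl]

/-- `E₄` as an integral series. -/
def Qz : PowerSeries ℤ := 1 + 240 * sigmaSeries 3

/-- `E₆` as an integral series. -/
def Rz : PowerSeries ℤ := 1 - 504 * sigmaSeries 5

/-- `∑ (5σ₃(n) + 7σ₅(n))/12 X^n`. -/
def sigma35Series : PowerSeries ℤ :=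
  PowerSeries.mk fun n => if n = 0 then 0 else
    (5 * (σ 3 n : ℤ) + 7 * (σ 5 n : ℤ)) / 12

theorem sigma35_dvd (n : ℕ) : (12 : ℤ) ∣ 5 * (σ 3 n : ℤ) + 7 * (σ 5 n : ℤ) := by
  refine (ZMod.intCast_zmod_eq_zero_iff_dvd _ 12).mp ?_
  simp only [ArithmeticFunction.sigma_apply, Nat.cast_sum, Nat.cast_pow, Int.cast_add,
    Int.cast_mul, Int.cast_sum, Int.cast_pow, Int.cast_natCast, Finset.mul_sum,
    ← Finset.sum_add_distrib]
  refine Finset.sum_eq_zero fun d _ => ?_
  have h : ∀ x : ZMod 12, (5 : ℤ) * x ^ 3 + (7 : ℤ) * x ^ 5 = 0 := by decide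
  exact h _

theorem twelve_mul_sigma35Series :
    12 * sigma35Series = 5 * sigmaSeries 3 + 7 * sigmaSeries 5 := by
  ext n
  rw [show (12 : PowerSeries ℤ) = C 12 from (map_ofNat C 12).symm,
    show (5 : PowerSeries ℤ) = C 5 from (map_ofNat C 5).symm,
    show (7 : PowerSeries ℤ) = C 7 from (map_ofNat C 7).symm, map_add]
  simp only [coeff_C_mul, coeff_sigmaSeries, sigma35Series, coeff_mk]
  split_ifs
  · simp
  · rw [Int.mul_ediv_cancel' (sigma35_dvd n)]

/-- The discriminant as an integral series. -/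
def Dz : PowerSeries ℤ :=
  sigma35Series + 100 * sigmaSeries 3 ^ 2 + 8000 * sigmaSeries 3 ^ 3 - 147 * sigmaSeries 5 ^ 2

theorem Qz_cube_sub_Rz_sq : Qz ^ 3 - Rz ^ 2 = 1728 * Dz := by
  simp only [Qz, Rz, Dz]
  linear_combination -144 * twelve_mul_sigma35Series

@[simp] theorem constantCoeff_Qz : constantCoeff Qz = 1 := by simp [Qz]

@[simp] theorem constantCoeff_Rz : constantCoeff Rz = 1 := by simp [Rz]

@[simp] theorem constantCoeff_Dz : constantCoeff Dz = 0 := by
  simp [Dz, sigma35Series]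

theorem coeff_one_Dz : coeff 1 Dz = 1 := by
  have h : ∀ A B : PowerSeries ℤ, constantCoeff A = 0 → constantCoeff B = 0 →
      coeff 1 (A * B) = 0 := by
    intro A B hA hB
    simp [PowerSeries.coeff_one_mul, hA, hB]
  have h2 : coeff 1 (sigmaSeries 3 ^ 2) = 0 := by rw [pow_two]; exact h _ _ (by simp) (by simp)
  have h3 : coeff 1 (sigmaSeries 3 ^ 3) = 0 := by rw [pow_succ]; exact h _ _ (by simp) (by simp)
  have h5 : coeff 1 (sigmaSeries 5 ^ 2) = 0 := by rw [pow_two]; exact h _ _ (by simp) (by simp)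
  rw [Dz, show (100 : PowerSeries ℤ) = C 100 from (map_ofNat C 100).symm,
    show (8000 : PowerSeries ℤ) = C 8000 from (map_ofNat C 8000).symm,
    show (147 : PowerSeries ℤ) = C 147 from (map_ofNat C 147).symm, map_sub, map_add, map_add,
    coeff_C_mul, coeff_C_mul, coeff_C_mul, h2, h3, h5]
  simp [sigma35Series]

/-- Extension of scalars of integral series to `ℂ`. -/
def toC : PowerSeries ℤ →+* PowerSeries ℂ := PowerSeries.map (Int.castRingHom ℂ)

@[simp] theorem coeff_toC (A : PowerSeries ℤ) (n : ℕ) : coeff n (toC A) = ((coeff n A : ℤ) : ℂ) := by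
  simp [toC]

theorem toC_injective : Function.Injective toC := fun A B h => by
  ext n
  simpa using congrArg (coeff n) h

/-- The complex series of `E₄`. -/
def Qs : PowerSeries ℂ := toC Qz

/-- The complex series of `E₆`. -/
def Rs : PowerSeries ℂ := toC Rz

/-- The complex series of `Δ`. -/
def Ds : PowerSeries ℂ := toC Dz

@[simp] theorem constantCoeff_Qs : constantCoeff Qs = 1 := by
  rw [← coeff_zero_eq_constantCoeff_apply, Qs, coeff_toC, coeff_zero_eq_constantCoeff_apply,
    constantCoeff_Qz, Int.cast_one]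

@[simp] theorem constantCoeff_Rs : constantCoeff Rs = 1 := by
  rw [← coeff_zero_eq_constantCoeff_apply, Rs, coeff_toC, coeff_zero_eq_constantCoeff_apply,
    constantCoeff_Rz, Int.cast_one]

@[simp] theorem constantCoeff_Ds : constantCoeff Ds = 0 := by
  rw [← coeff_zero_eq_constantCoeff_apply, Ds, coeff_toC, coeff_zero_eq_constantCoeff_apply,
    constantCoeff_Dz, Int.cast_zero]

theorem hasQ_modularForm {k : ℤ} (F : ModularForm 𝒮ℒ k) : HasQ 1 ⇑F (qe ⇑F) :=
  (IsLv.of_modularForm F).hasQ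

theorem hasQ_E₄ : HasQ 1 ⇑E₄ Qs := by
  have h : qe ⇑E₄ = Qs := by
    ext n
    rw [qe, EisensteinSeries.E_qExpansion_coeff (by norm_num) ⟨2, rfl⟩,
      show bernoulli 4 = -1 / 30 by decide +kernel]
    simp only [Qs, coeff_toC, Qz, show (240 : PowerSeries ℤ) = C 240 from (map_ofNat C 240).symm,
      map_add, coeff_C_mul, coeff_sigmaSeries, coeff_one]
    split_ifs <;> norm_num
  exact h ▸ hasQ_modularForm E₄

theorem hasQ_E₆ : HasQ 1 ⇑E₆ Rs := by
  have h : qe ⇑E₆ = Rs := by
    ext n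
    rw [qe, EisensteinSeries.E_qExpansion_coeff (by norm_num) ⟨3, rfl⟩,
      show bernoulli 6 = 1 / 42 by decide +kernel]
    simp only [Rs, coeff_toC, Rz, show (504 : PowerSeries ℤ) = C 504 from (map_ofNat C 504).symm,
      map_sub, coeff_C_mul, coeff_sigmaSeries, coeff_one]
    split_ifs <;> norm_num
  exact h ▸ hasQ_modularForm E₆

/-- The discriminant as a function. -/
abbrev Δf : ℍ → ℂ := ⇑CuspForm.discriminant

theorem isLv_discriminant : IsLv 1 12 Δf where
  inv γ _ := CuspForm.discriminant.slash_action_eq' _ ⟨γ, rfl⟩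
  hol := CuspForm.discriminant.holo'
  bdd A := by
    have h : (Δf ∣[(12 : ℤ)] A) = Δf := CuspForm.discriminant.slash_action_eq' _ ⟨A, rfl⟩
    rw [h]
    exact ModularFormClass.bdd_at_infty CuspForm.discriminant

theorem isLv_E₄ : IsLv 1 4 ⇑E₄ := IsLv.of_modularForm E₄

theorem isLv_E₆ : IsLv 1 6 ⇑E₆ := IsLv.of_modularForm E₆

theorem hasQ_discriminant : HasQ 1 Δf Ds := by
  have h : Δf = (1728 : ℂ)⁻¹ • (⇑E₄ ^ 3 - ⇑E₆ ^ 2) := by
    funext z
    simp only [Δf, CuspForm.coe_discriminant, ModularForm.discriminant_eq_E₄_cube_sub_E₆_sq,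
      Pi.smul_apply, Pi.sub_apply, Pi.pow_apply, smul_eq_mul]
    ring
  have h2 : Ds = (1728 : ℂ)⁻¹ • (Qs ^ 3 - Rs ^ 2) := by
    have := congrArg toC Qz_cube_sub_Rz_sq
    rw [map_sub, map_pow, map_pow, map_mul, map_ofNat] at this
    rw [show Qs ^ 3 - Rs ^ 2 = 1728 * Ds from this, PowerSeries.smul_eq_C_mul, ← mul_assoc,
      show (1728 : PowerSeries ℂ) = C 1728 from (map_ofNat C 1728).symm, ← map_mul,
      inv_mul_cancel₀ (by norm_num), map_one, one_mul]
  rw [h, h2]
  exact ((hasQ_E₄.pow one_pos 3).sub (hasQ_E₆.pow one_pos 2)).smul _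

namespace IsLv

variable {N : ℕ} {k l : ℤ} {f g : ℍ → ℂ}

theorem congr_weight (hf : IsLv N k f) (h : k = l) : IsLv N l f := h ▸ hf

theorem pow (hf : IsLv N k f) (n : ℕ) : IsLv N (n * k) (f ^ n) := by
  induction n with
  | zero => simpa using! one N
  | succ n ih =>
    rw [pow_succ]
    exact (ih.mul hf).congr_weight (by push_cast; ring)

theorem neg_weight (hf : IsLv 1 k f) (hk : k < 0) : f = 0 :=
  congrArg DFunLike.coe
    (rank_zero_iff_forall_zero.mp (ModularForm.levelOne_neg_weight_rank_zero hk) hf.toMF)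

theorem coe_toMF (hf : IsLv 1 k f) : ⇑hf.toMF = f := rfl

/-- A level one form with vanishing constant term is `Δ` times a level one form. -/
theorem exists_eq_discriminant_mul (hf : IsLv 1 k f) (h0 : coeff 0 (qe f) = 0) :
    ∃ g, IsLv 1 (k - 12) g ∧ f = Δf * g := by
  refine ⟨⇑(CuspForm.discriminantEquiv (ModularForm.toCuspForm hf.toMF h0)),
    IsLv.of_modularForm _, ?_⟩
  funext z
  rw [Pi.mul_apply, Δf, CuspForm.coe_discriminant,
    ModularForm.discriminant_mul_discriminantEquiv_apply]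
  rfl

theorem eq_zero_of_coeff_zero (hf : IsLv 1 k f) (h0 : coeff 0 (qe f) = 0)
    (hk : k < 12 ∨ k = 14) : f = 0 := by
  obtain ⟨g, hg, rfl⟩ := hf.exists_eq_discriminant_mul h0
  rcases hk with hk | rfl
  · rw [hg.neg_weight (by omega), mul_zero]
  · rw [(hg.congr_weight (by norm_num)).levelOne_weight_two, mul_zero]

end IsLv

/-- The `i`-th basis monomial of weight `4a + 6b + 12c`. -/
def monoS (a b c i : ℕ) : PowerSeries ℂ := Qs ^ (a + 3 * (c - i)) * Rs ^ b * Ds ^ i

/-- `O`-integrality of a series. -/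
def IntegralIn (O : Subring ℂ) (A : PowerSeries ℂ) : Prop := ∀ n, coeff n A ∈ O

theorem integralIn_toC (O : Subring ℂ) (A : PowerSeries ℤ) : IntegralIn O (toC A) := fun n => by
  rw [coeff_toC]; exact intCast_mem O _

theorem IntegralIn.mul {O : Subring ℂ} {A B : PowerSeries ℂ} (hA : IntegralIn O A)
    (hB : IntegralIn O B) : IntegralIn O (A * B) := fun n => by
  rw [PowerSeries.coeff_mul]
  exact O.sum_mem fun ij _ => O.mul_mem (hA _) (hB _)

theorem IntegralIn.sub {O : Subring ℂ} {A B : PowerSeries ℂ} (hA : IntegralIn O A)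
    (hB : IntegralIn O B) : IntegralIn O (A - B) := fun n => by
  rw [map_sub]; exact O.sub_mem (hA _) (hB _)

theorem IntegralIn.smul {O : Subring ℂ} {A : PowerSeries ℂ} (hA : IntegralIn O A) {c : ℂ}
    (hc : c ∈ O) : IntegralIn O (c • A) := fun n => by
  rw [PowerSeries.coeff_smul]; exact O.mul_mem hc (hA _)

theorem integralIn_of_Ds_mul {O : Subring ℂ} {G : PowerSeries ℂ}
    (h : IntegralIn O (Ds * G)) : IntegralIn O G := by
  intro n
  induction n using Nat.strong_induction_on with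
  | _ n ih =>
    have h1 := h (n + 1)
    rw [PowerSeries.coeff_mul, Finset.Nat.sum_antidiagonal_succ] at h1
    have h0 : coeff 0 Ds = 0 := by
      rw [Ds, coeff_toC, coeff_zero_eq_constantCoeff_apply]; simp
    simp only [h0, zero_mul, zero_add] at h1
    cases n with
    | zero =>
      simpa [Ds, coeff_one_Dz] using h1
    | succ n =>
      rw [Finset.Nat.sum_antidiagonal_succ] at h1
      have h2 : ∀ x ∈ Finset.HasAntidiagonal.antidiagonal n,
          coeff (x.1 + 1 + 1) Ds * coeff x.2 G ∈ O := by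
        intro x hx
        have hx' := Finset.HasAntidiagonal.mem_antidiagonal.mp hx
        exact O.mul_mem (integralIn_toC O Dz _) (ih _ (by omega))
      have h3 := O.sub_mem h1 (O.sum_mem h2)
      simpa [Ds, coeff_one_Dz] using h3

/-- Normal form of an integral level one form in weight `4a + 6b + 12c`. -/
theorem exists_normal (O : Subring ℂ) {a b : ℕ} (hab : a ≤ 2 ∧ b ≤ 1) (c : ℕ) :
    ∀ {k : ℤ} {f : ℍ → ℂ} {A : PowerSeries ℂ}, k = 4 * a + 6 * b + 12 * c → IsLv 1 k f →
      HasQ 1 f A → IntegralIn O A →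
      ∃ lam : ℕ → ℂ, (∀ i, lam i ∈ O) ∧
        A = ∑ i ∈ Finset.range (c + 1), lam i • monoS a b c i := by
  induction c with
  | zero =>
    intro k f A hk hf hA hint
    refine ⟨fun _ => coeff 0 A, fun _ => hint 0, ?_⟩
    have hg : IsLv 1 k (f - coeff 0 A • (⇑E₄ ^ a * ⇑E₆ ^ b)) :=
      hf.sub ((((isLv_E₄.pow a).mul (isLv_E₆.pow b)).smul _).congr_weight (by rw [hk]; ring))
    have hgQ := hA.sub (((hasQ_E₄.pow one_pos a).mul one_pos (hasQ_E₆.pow one_pos b)).smul
      (coeff 0 A))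
    have hz : coeff 0 (qe (f - coeff 0 A • (⇑E₄ ^ a * ⇑E₆ ^ b))) = 0 := by
      rw [qe, hgQ.qExpansion_eq one_pos]
      simp [coeff_zero_eq_constantCoeff_apply]
    have := hg.eq_zero_of_coeff_zero hz (by omega)
    rw [this] at hgQ
    rw [Finset.sum_range_one, monoS]
    simpa [sub_eq_zero] using HasQ.eq_zero_of_fun hgQ one_pos
  | succ c ih =>
    intro k f A hk hf hA hint
    set e := a + 3 * (c + 1) with he
    have hg : IsLv 1 k (f - coeff 0 A • (⇑E₄ ^ e * ⇑E₆ ^ b)) :=
      hf.sub ((((isLv_E₄.pow e).mul (isLv_E₆.pow b)).smul _).congr_weight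
        (by rw [hk, he]; push_cast; ring))
    have hgQ := hA.sub (((hasQ_E₄.pow one_pos e).mul one_pos (hasQ_E₆.pow one_pos b)).smul
      (coeff 0 A))
    have hz : coeff 0 (qe (f - coeff 0 A • (⇑E₄ ^ e * ⇑E₆ ^ b))) = 0 := by
      rw [qe, hgQ.qExpansion_eq one_pos]
      simp [coeff_zero_eq_constantCoeff_apply]
    obtain ⟨g, hgl, hge⟩ := hg.exists_eq_discriminant_mul hz
    rw [hge] at hgQ
    have hG := HasQ.unique one_pos (hasQ_discriminant.mul one_pos hgl.hasQ) hgQ
    have hGint : IntegralIn O (qe g) := by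
      refine integralIn_of_Ds_mul ?_
      rw [hG]
      refine hint.sub (IntegralIn.smul ?_ (hint 0))
      rw [Qs, Rs, ← map_pow, ← map_pow, ← map_mul]
      exact integralIn_toC O _
    obtain ⟨lam, hlam, hsum⟩ := ih (k := k - 12) (by rw [hk]; push_cast; ring) hgl hgl.hasQ hGint
    refine ⟨fun i => if i = 0 then coeff 0 A else lam (i - 1), fun i => ?_, ?_⟩
    · dsimp only
      split_ifs
      · exact hint 0
      · exact hlam _
    rw [Finset.sum_range_succ']
    simp only [Nat.add_eq_zero_iff, one_ne_zero, and_false, ↓reduceIte, add_tsub_cancel_right]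
    rw [eq_sub_iff_add_eq] at hG
    rw [← hG, hsum, Finset.mul_sum]
    congr 1
    · refine Finset.sum_congr rfl fun i _ => ?_
      rw [mul_smul_comm]
      congr 1
      simp only [monoS, Nat.succ_sub_succ_eq_sub, pow_succ]
      ring
    · simp [monoS, he, coeff_zero_eq_constantCoeff_apply]

/-- Every even weight `k ≥ 0`, `k ≠ 2` has the shape `4a + 6b + 12c`. -/
theorem exists_weight_shape {k : ℤ} (h0 : 0 ≤ k) (he : Even k) (h2 : k ≠ 2) :
    ∃ a b c : ℕ, a ≤ 2 ∧ b ≤ 1 ∧ k = 4 * a + 6 * b + 12 * c := by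
  obtain ⟨m, rfl⟩ := he
  lift m to ℕ using (by omega) with n hn
  rcases (show n % 6 = 0 ∨ n % 6 = 1 ∨ n % 6 = 2 ∨ n % 6 = 3 ∨ n % 6 = 4 ∨ n % 6 = 5 by omega)
    with h | h | h | h | h | h
  · exact ⟨0, 0, n / 6, by omega, by omega, by omega⟩
  · exact ⟨2, 1, n / 6 - 1, by omega, by omega, by omega⟩
  · exact ⟨1, 0, n / 6, by omega, by omega, by omega⟩
  · exact ⟨0, 1, n / 6, by omega, by omega, by omega⟩
  · exact ⟨2, 0, n / 6, by omega, by omega, by omega⟩
  · exact ⟨1, 1, n / 6, by omega, by omega, by omega⟩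

end FA.Eis
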