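import Fermat.Agent.Eisenstein.LevelOne

/-!
# Level one forms paired with their values on a cubic family

`RepZ k` is the space of pairs `(F(E₄, E₆, Δ), F(t⁴ - 24t, -t⁶ + 36t³ - 216, t³ - 27))`
for `F` weighted homogeneous of weight `k`.
-/

set_option autoImplicit false

noncomputable section

open UpperHalfPlane hiding I
open Complex Filter Function Topology PowerSeries CongruenceSubgroup
open scoped Real MatrixGroups ModularForm Pointwise

namespace FA.Eis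

/-- Pairs of a q-series and a polynomial. -/
abbrev P2 : Type := PowerSeries ℂ × Polynomial ℂ

/-- `E₄`. -/
def x2 : P2 := (Qs, Polynomial.X ^ 4 - 24 * Polynomial.X)

/-- `E₆`. -/
def y2 : P2 := (Rs, -Polynomial.X ^ 6 + 36 * Polynomial.X ^ 3 - 216)

/-- `Δ`. -/
def d2 : P2 := (Ds, Polynomial.X ^ 3 - 27)

theorem y2_sq : y2 ^ 2 = x2 ^ 3 - 1728 * d2 := by
  refine Prod.ext ?_ ?_
  · simp only [Prod.pow_fst, Prod.fst_sub, Prod.fst_mul, Prod.fst_ofNat, x2, y2, d2, Qs, Rs, Ds]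
    have h := congrArg toC Qz_cube_sub_Rz_sq
    rw [map_sub, map_pow, map_pow, map_mul, map_ofNat] at h
    linear_combination -h
  · simp only [Prod.pow_snd, Prod.snd_sub, Prod.snd_mul, Prod.snd_ofNat, x2, y2, d2]
    ring

/-- See the module docstring. -/
def RepZ (k : ℤ) : Submodule ℂ P2 :=
  Submodule.span ℂ {m | ∃ i j l : ℕ, 4 * (i : ℤ) + 6 * j + 12 * l = k ∧ m = x2 ^ i * y2 ^ j * d2 ^ l}

theorem mem_RepZ_monomial (i j l : ℕ) :
    x2 ^ i * y2 ^ j * d2 ^ l ∈ RepZ (4 * (i : ℤ) + 6 * j + 12 * l) :=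
  Submodule.subset_span ⟨i, j, l, rfl, rfl⟩

theorem one_mem_RepZ : (1 : P2) ∈ RepZ 0 := by simpa using mem_RepZ_monomial 0 0 0

theorem x2_mem_RepZ : x2 ∈ RepZ 4 := by simpa using mem_RepZ_monomial 1 0 0

theorem y2_mem_RepZ : y2 ∈ RepZ 6 := by simpa using mem_RepZ_monomial 0 1 0

theorem mul_mem_RepZ {k l : ℤ} {z w : P2} (hz : z ∈ RepZ k) (hw : w ∈ RepZ l) :
    z * w ∈ RepZ (k + l) := by
  have h := Submodule.mul_mem_mul hz hw
  rw [RepZ, RepZ, Submodule.span_mul_span] at h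
  refine Submodule.span_le.mpr ?_ h
  rintro _ ⟨_, ⟨i, j, a, hk, rfl⟩, _, ⟨i', j', a', hl, rfl⟩, rfl⟩
  exact Submodule.subset_span ⟨i + i', j + j', a + a', by push_cast; omega, by
    simp only [pow_add]; ring⟩

theorem exists_shape_of_mem {k : ℤ} {z : P2} (hz : z ∈ RepZ k) (hne : z ≠ 0) :
    ∃ a b c : ℕ, a ≤ 2 ∧ b ≤ 1 ∧ k = 4 * a + 6 * b + 12 * c := by
  by_contra hno
  apply hne
  have : RepZ k = ⊥ := by
    rw [RepZ, Submodule.span_eq_bot]
    rintro _ ⟨i, j, l, hk, -⟩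
    exact absurd (exists_weight_shape (by omega) ⟨2 * i + 3 * j + 6 * l, by omega⟩ (by omega)) hno
  rwa [this, Submodule.mem_bot] at hz

theorem exists_normal_of_mem {a b c : ℕ} (hab : a ≤ 2 ∧ b ≤ 1) {z : P2}
    (hz : z ∈ RepZ (4 * (a : ℤ) + 6 * b + 12 * c)) :
    ∃ lam : ℕ → ℂ, z = ∑ i ∈ Finset.range (c + 1),
      lam i • (x2 ^ (a + 3 * (c - i)) * y2 ^ b * d2 ^ i) := by
  set N : Submodule ℂ P2 := Submodule.span ℂ
    ((fun i => x2 ^ (a + 3 * (c - i)) * y2 ^ b * d2 ^ i) '' ↑(Finset.range (c + 1))) with hN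
  have hgen : ∀ j i l : ℕ, 4 * (i : ℤ) + 6 * j + 12 * l = 4 * (a : ℤ) + 6 * b + 12 * c →
      x2 ^ i * y2 ^ j * d2 ^ l ∈ N := by
    intro j
    induction j using Nat.strong_induction_on with
    | _ j ih =>
      intro i l h
      rcases Nat.lt_or_ge j 2 with hj | hj
      · have hjb : j = b := by omega
        refine Submodule.subset_span ⟨l, Finset.mem_coe.mpr (Finset.mem_range.mpr (by omega)), ?_⟩
        dsimp only
        rw [hjb, show a + 3 * (c - l) = i by omega]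
      · obtain ⟨j', rfl⟩ : ∃ j', j = j' + 2 := ⟨j - 2, by omega⟩
        rw [pow_add, y2_sq, show x2 ^ i * (y2 ^ j' * (x2 ^ 3 - 1728 * d2)) * d2 ^ l =
          x2 ^ (i + 3) * y2 ^ j' * d2 ^ l - (1728 : P2) * (x2 ^ i * y2 ^ j' * d2 ^ (l + 1)) by ring,
          show (1728 : P2) = algebraMap ℂ P2 1728 from (map_ofNat (algebraMap ℂ P2) 1728).symm,
          ← Algebra.smul_def]
        refine N.sub_mem (ih j' (by omega) _ _ (by push_cast; omega)) (N.smul_mem _ ?_)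
        exact ih j' (by omega) _ _ (by push_cast; omega)
  have hle : RepZ (4 * (a : ℤ) + 6 * b + 12 * c) ≤ N := Submodule.span_le.mpr (by
    rintro _ ⟨i, j, l, h, rfl⟩
    exact hgen j i l h)
  have h := hle hz
  rw [hN, Submodule.mem_span_image_iff_exists_fun] at h
  obtain ⟨t, ht, cf, hcf⟩ := h
  classical
  refine ⟨fun i => if h : i ∈ t then cf ⟨i, h⟩ else 0, ?_⟩
  rw [← hcf, ← Finset.sum_subset (s₁ := t) (fun i hi => ht hi) fun i _ hi => by simp [hi]]
  rw [← Finset.sum_attach t]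
  exact Finset.sum_congr rfl fun i _ => by simp [i.2]

theorem coeff_monoS_of_lt {a b c i m : ℕ} (h : m ≤ i) :
    coeff m (monoS a b c i) = if m = i then 1 else 0 := by
  obtain ⟨u, hu⟩ : (PowerSeries.X : PowerSeries ℂ) ∣ Ds :=
    PowerSeries.X_dvd_iff.mpr constantCoeff_Ds
  have h1 : constantCoeff u = 1 := by
    rw [← coeff_zero_eq_constantCoeff_apply, ← PowerSeries.coeff_succ_X_mul 0 u, ← hu, Ds,
      coeff_toC, coeff_one_Dz, Int.cast_one]
  rw [monoS, hu, mul_pow, mul_comm, mul_assoc, PowerSeries.coeff_X_pow_mul']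
  rcases eq_or_ne m i with rfl | hne
  · simp [h1]
  · rw [if_neg (by omega), if_neg hne]

theorem monoS_linearIndependent {a b c : ℕ} {lam : ℕ → ℂ}
    (h : ∑ i ∈ Finset.range (c + 1), lam i • monoS a b c i = 0) :
    ∀ i ∈ Finset.range (c + 1), lam i = 0 := by
  intro i
  induction i using Nat.strong_induction_on with
  | _ i ih =>
    intro hi
    have h' := congrArg (coeff i) h
    rw [map_sum, map_zero, Finset.sum_eq_single i (fun j hj hji => ?_) (fun hn => absurd hi hn),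
      PowerSeries.coeff_smul, coeff_monoS_of_lt le_rfl, if_pos rfl, smul_eq_mul, mul_one] at h'
    · exact h'
    · rcases Nat.lt_or_ge j i with hlt | hge
      · rw [ih j hlt hj, zero_smul, map_zero]
      · rw [PowerSeries.coeff_smul, coeff_monoS_of_lt hge, if_neg (Ne.symm hji), smul_zero]

theorem fst_normal {a b c : ℕ} (lam : ℕ → ℂ) :
    (∑ i ∈ Finset.range (c + 1), lam i • (x2 ^ (a + 3 * (c - i)) * y2 ^ b * d2 ^ i)).1 =
      ∑ i ∈ Finset.range (c + 1), lam i • monoS a b c i := by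
  rw [Prod.fst_sum]
  rfl

theorem snd_eq_zero_of_fst {k : ℤ} {z : P2} (hz : z ∈ RepZ k) (h1 : z.1 = 0) : z.2 = 0 := by
  by_contra hne
  obtain ⟨a, b, c, ha, hb, rfl⟩ := exists_shape_of_mem hz (fun h => hne (by rw [h]; rfl))
  obtain ⟨lam, rfl⟩ := exists_normal_of_mem ⟨ha, hb⟩ hz
  rw [fst_normal] at h1
  refine hne ?_
  rw [Finset.sum_eq_zero fun i hi => by rw [monoS_linearIndependent h1 i hi, zero_smul]]
  rfl

theorem exists_form_of_mem {k : ℤ} {z : P2} (hz : z ∈ RepZ k) :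
    ∃ f : ℍ → ℂ, IsLv 1 k f ∧ HasQ 1 f z.1 := by
  induction hz using Submodule.span_induction with
  | mem m hm =>
    obtain ⟨i, j, l, hk, rfl⟩ := hm
    exact ⟨⇑ModularForm.E₄ ^ i * ⇑ModularForm.E₆ ^ j * Δf ^ l,
      (((isLv_E₄.pow i).mul (isLv_E₆.pow j)).mul (isLv_discriminant.pow l)).congr_weight
        (by rw [← hk]; ring),
      ((hasQ_E₄.pow one_pos i).mul one_pos (hasQ_E₆.pow one_pos j)).mul one_pos
        (hasQ_discriminant.pow one_pos l)⟩
  | zero => exact ⟨0, IsLv.zero 1 k, HasQ.zero 1⟩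
  | add x y _ _ hx hy =>
    obtain ⟨f, hf, hfQ⟩ := hx
    obtain ⟨g, hg, hgQ⟩ := hy
    exact ⟨f + g, hf.add hg, hfQ.add hgQ⟩
  | smul c x _ hx =>
    obtain ⟨f, hf, hfQ⟩ := hx
    exact ⟨c • f, hf.smul c, hfQ.smul c⟩

theorem exists_pair_of_form (O : Subring ℂ) {k : ℤ} {a b c : ℕ} (hab : a ≤ 2 ∧ b ≤ 1)
    (hk : k = 4 * a + 6 * b + 12 * c) {f : ℍ → ℂ} {A : PowerSeries ℂ} (hf : IsLv 1 k f)
    (hA : HasQ 1 f A) (hint : IntegralIn O A) :
    ∃ P : Polynomial ℂ, (A, P) ∈ RepZ k ∧ ∀ n, P.coeff n ∈ O := by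
  obtain ⟨lam, hlam, hsum⟩ := exists_normal O hab c hk hf hA hint
  set z : P2 := ∑ i ∈ Finset.range (c + 1), lam i • (x2 ^ (a + 3 * (c - i)) * y2 ^ b * d2 ^ i)
    with hz
  refine ⟨z.2, ?_, ?_⟩
  · have : (A, z.2) = z := Prod.ext (by rw [hsum, hz, fst_normal]) rfl
    rw [this]
    refine Submodule.sum_mem _ fun i hi => Submodule.smul_mem _ _ ?_
    convert mem_RepZ_monomial (a + 3 * (c - i)) b i using 2
    rw [hk]
    have := Finset.mem_range.mp hi
    omega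
  · intro n
    rw [hz, Prod.snd_sum, Polynomial.finsetSum_coeff]
    refine O.sum_mem fun i _ => ?_
    rw [Prod.smul_snd, Polynomial.coeff_smul, smul_eq_mul]
    refine O.mul_mem (hlam i) ?_
    have e : (x2 ^ (a + 3 * (c - i)) * y2 ^ b * d2 ^ i).2 =
        Polynomial.map (Int.castRingHom ℂ) ((Polynomial.X ^ 4 - 24 * Polynomial.X) ^ (a + 3 * (c - i)) *
          (-Polynomial.X ^ 6 + 36 * Polynomial.X ^ 3 - 216) ^ b * (Polynomial.X ^ 3 - 27) ^ i) := by
      simp [x2, y2, d2, Polynomial.map_mul, Polynomial.map_pow, Polynomial.map_sub,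
        Polynomial.map_add, Polynomial.map_neg, Polynomial.map_ofNat]
    rw [e, Polynomial.coeff_map]
    exact intCast_mem O _

theorem exists_pair {m : ℕ} {f : ℍ → ℂ} {A : PowerSeries ℂ} (hf : IsLv 1 (2 * (m : ℤ)) f)
    (hA : HasQ 1 f A) : ∃ P : Polynomial ℂ, (A, P) ∈ RepZ (2 * (m : ℤ)) := by
  rcases eq_or_ne m 1 with rfl | hm
  · have h0 := (hf.congr_weight (by norm_num)).levelOne_weight_two
    rw [h0] at hA
    exact ⟨0, by rw [HasQ.eq_zero_of_fun hA one_pos]; exact zero_mem _⟩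
  · obtain ⟨a, b, c, ha, hb, hk⟩ := exists_weight_shape (k := 2 * (m : ℤ)) (by omega)
      ⟨m, by ring⟩ (by omega)
    obtain ⟨P, hP, -⟩ := exists_pair_of_form ⊤ ⟨ha, hb⟩ hk hf hA fun n => Subring.mem_top _
    exact ⟨P, hP⟩

theorem coeff_snd_mem {O : Subring ℂ} {k : ℤ} {z : P2} (hz : z ∈ RepZ k)
    (hint : IntegralIn O z.1) : ∀ n, z.2.coeff n ∈ O := by
  rcases eq_or_ne z 0 with rfl | hne
  · simp [O.zero_mem]
  obtain ⟨a, b, c, ha, hb, hk⟩ := exists_shape_of_mem hz hne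
  obtain ⟨f, hf, hA⟩ := exists_form_of_mem hz
  obtain ⟨P, hP, hPi⟩ := exists_pair_of_form O ⟨ha, hb⟩ hk hf hA hint
  have := snd_eq_zero_of_fst ((RepZ k).sub_mem hz hP) (by simp)
  rw [Prod.snd_sub, sub_eq_zero] at this
  rw [this]
  exact hPi

end FA.Eis
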