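import Fermat.Agent.Eisenstein.UpperBasic

/-!
# Level one series modulo a positive integer, and two congruences

* `(p - 1) B_{p-1} ≡ -1`, in the form: a nonzero constant mod `ℓ` is a level one form of weight
  `ℓ - 1`;
* `Δ ≡ S - S³ (mod 3)` for `S = ∑ σ₃(n) qⁿ`.
-/

set_option autoImplicit false

noncomputable section

open UpperHalfPlane hiding I
open Complex Filter Function Topology PowerSeries CongruenceSubgroup EisensteinSeries ModularForm
open scoped Real MatrixGroups ModularForm ArithmeticFunction.sigma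

namespace FA.Eis

/-- Reduction of integral series. -/
abbrev red (L : ℕ) : PowerSeries ℤ →+* PowerSeries (ZMod L) :=
  PowerSeries.map (Int.castRingHom (ZMod L))

/-- The parameter `Δ/E₄³` modulo `L`. -/
def tL (L : ℕ) : PowerSeries (ZMod L) :=
  red L Dz * PowerSeries.invOfUnit (red L Qz) 1 ^ 3

variable {L : ℕ}

theorem red_C (z : ℤ) : red L (C z) = C (z : ZMod L) := by simp [red]

theorem constantCoeff_red_Qz : constantCoeff (red L Qz) = 1 := by
  rw [red, ← coeff_zero_eq_constantCoeff_apply, coeff_map, coeff_zero_eq_constantCoeff_apply,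
    constantCoeff_Qz, map_one]

theorem red_Qz_mul_inv : red L Qz * PowerSeries.invOfUnit (red L Qz) 1 = 1 :=
  PowerSeries.mul_invOfUnit _ _ (by rw [constantCoeff_red_Qz, Units.val_one])

theorem red_Qz_isUnit : IsUnit (red L Qz) :=
  IsUnit.of_mul_eq_one _ red_Qz_mul_inv

theorem red_Dz_eq : red L Dz = tL L * red L Qz ^ 3 := by
  rw [tL, mul_assoc, ← mul_pow, mul_comm _ (red L Qz), red_Qz_mul_inv, one_pow, mul_one]

theorem constantCoeff_tL : constantCoeff (tL L) = 0 := by
  rw [tL, map_mul, red, ← coeff_zero_eq_constantCoeff_apply, coeff_map,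
    coeff_zero_eq_constantCoeff_apply, constantCoeff_Dz, map_zero, zero_mul]

theorem coeff_one_tL : coeff 1 (tL L) = 1 := by
  rw [tL, PowerSeries.coeff_one_mul, map_pow, PowerSeries.constantCoeff_invOfUnit,
    inv_one, Units.val_one, one_pow, mul_one, red, coeff_map, coeff_one_Dz, map_one,
    ← coeff_zero_eq_constantCoeff_apply (PowerSeries.map _ Dz), coeff_map,
    coeff_zero_eq_constantCoeff_apply, constantCoeff_Dz, map_zero, mul_zero, add_zero]

section aeval

variable {R : Type*} [CommRing R] {t : PowerSeries R}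

theorem constantCoeff_aeval (ht : constantCoeff t = 0) (P : Polynomial R) :
    constantCoeff (Polynomial.aeval t P) = P.coeff 0 := by
  conv_lhs => rw [← Polynomial.X_mul_divX_add P]
  rw [map_add, map_mul, Polynomial.aeval_X, Polynomial.aeval_C, map_add, map_mul, ht, zero_mul,
    zero_add, PowerSeries.algebraMap_apply, PowerSeries.constantCoeff_C]
  rfl

theorem coeff_one_aeval (ht : constantCoeff t = 0) (h1 : coeff 1 t = 1) (P : Polynomial R) :
    coeff 1 (Polynomial.aeval t P) = P.coeff 1 := by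
  conv_lhs => rw [← Polynomial.X_mul_divX_add P]
  rw [map_add, map_mul, Polynomial.aeval_X, Polynomial.aeval_C, map_add, PowerSeries.coeff_one_mul,
    constantCoeff_aeval ht, ht, h1, PowerSeries.algebraMap_apply, PowerSeries.coeff_C,
    if_neg one_ne_zero, Polynomial.coeff_divX]
  simp

theorem aeval_eq_zero (ht : constantCoeff t = 0) (h1 : coeff 1 t = 1) (P : Polynomial R)
    (h : Polynomial.aeval t P = 0) : P = 0 := by
  obtain ⟨u, rfl⟩ : (PowerSeries.X : PowerSeries R) ∣ t := PowerSeries.X_dvd_iff.mpr ht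
  have hu : IsUnit u := PowerSeries.isUnit_iff_constantCoeff.mpr (by
    rw [← coeff_zero_eq_constantCoeff_apply, ← PowerSeries.coeff_succ_X_mul 0 u, h1]
    exact isUnit_one)
  suffices ∀ (n : ℕ) (P : Polynomial R), P.natDegree ≤ n →
      Polynomial.aeval (PowerSeries.X * u) P = 0 → P = 0 from this _ P le_rfl h
  intro n
  induction n with
  | zero =>
    intro P hP h
    rw [Polynomial.eq_C_of_natDegree_le_zero hP] at h ⊢
    rw [Polynomial.aeval_C, PowerSeries.algebraMap_apply] at h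
    have h' := congrArg constantCoeff h
    simp at h'
    simp [h']
  | succ n ih =>
    intro P hP h
    have h0 : P.coeff 0 = 0 := by
      rw [← constantCoeff_aeval (t := PowerSeries.X * u) (by simp) P, h, map_zero]
    have hP' : P = Polynomial.X * P.divX := by
      conv_lhs => rw [← Polynomial.X_mul_divX_add P, h0, map_zero, add_zero]
    rw [hP', map_mul, Polynomial.aeval_X, mul_assoc] at h
    have h2 := PowerSeries.X_mul_cancel (h.trans (mul_zero _).symm)
    have h3 := ih P.divX (by rw [Polynomial.natDegree_divX_eq_natDegree_tsub_one]; omega)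
      (hu.mul_right_eq_zero.mp h2)
    rw [hP', h3, mul_zero]

theorem map_aeval {S : Type*} [CommRing S] (φ : R →+* S) (t : PowerSeries R) (P : Polynomial R) :
    PowerSeries.map φ (Polynomial.aeval t P) =
      Polynomial.aeval (PowerSeries.map φ t) (P.map φ) := by
  induction P using Polynomial.induction_on' with
  | add a b ha hb => simp [ha, hb]
  | monomial n a => simp [PowerSeries.algebraMap_apply]

end aeval

/-- The polynomial of a normal form, reduced modulo `L`. -/
def polyL (L : ℕ) (lam : ℕ → ℤ) (c : ℕ) : Polynomial (ZMod L) :=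
  ∑ i ∈ Finset.range (c + 1), Polynomial.C (lam i : ZMod L) * Polynomial.X ^ i

theorem natDegree_polyL_le (lam : ℕ → ℤ) (c : ℕ) : (polyL L lam c).natDegree ≤ c :=
  Polynomial.natDegree_sum_le_of_forall_le _ _ fun i hi =>
    (Polynomial.natDegree_C_mul_X_pow_le _ i).trans (by
      have := Finset.mem_range.mp hi; omega)

theorem red_normal (lam : ℕ → ℤ) (a b c : ℕ) :
    red L (∑ i ∈ Finset.range (c + 1), C (lam i) * (Qz ^ (a + 3 * (c - i)) * Rz ^ b * Dz ^ i)) =
      red L Qz ^ (a + 3 * c) * red L Rz ^ b * Polynomial.aeval (tL L) (polyL L lam c) := by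
  rw [polyL, map_sum, map_sum, Finset.mul_sum]
  refine Finset.sum_congr rfl fun i hi => ?_
  have hi' : i ≤ c := by have := Finset.mem_range.mp hi; omega
  rw [map_mul, map_mul, map_mul, map_pow, map_pow, map_pow, red_C, red_Dz_eq, map_mul, map_pow,
    Polynomial.aeval_X, Polynomial.aeval_C, PowerSeries.algebraMap_apply,
    show a + 3 * c = a + 3 * (c - i) + 3 * i by omega, pow_add (red L Qz), mul_pow, ← pow_mul]
  simp only [Algebra.algebraMap_self, RingHom.id_apply]
  ring

/-- Mod `ℓ` a non-zero constant is a level one form of weight `ℓ - 1`. -/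
theorem exists_hasse {ℓ : ℕ} [hℓ : Fact ℓ.Prime] (h5 : 5 ≤ ℓ) :
    ∃ (a b c : ℕ) (B : ZMod ℓ) (Φ : Polynomial (ZMod ℓ)), a ≤ 2 ∧ b ≤ 1 ∧
      4 * a + 6 * b + 12 * c = ℓ - 1 ∧ B ≠ 0 ∧ Φ.natDegree ≤ c ∧
      red ℓ Qz ^ (a + 3 * c) * red ℓ Rz ^ b * Polynomial.aeval (tL ℓ) Φ = C B := by
  have hev : Even (ℓ - 1) := hℓ.out.even_sub_one (by omega)
  obtain ⟨j, hj⟩ : ∃ j, ℓ - 1 = 2 * j := ⟨(ℓ - 1) / 2, by obtain ⟨r, hr⟩ := hev; omega⟩
  set x : ℚ := bernoulli (ℓ - 1) with hx
  have hden : ℓ ∣ x.den := by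
    by_contra hd
    obtain ⟨z, hz⟩ := Bernoulli.vonStaudt_clausen j
    rw [← hj] at hz
    set S := (Finset.range (ℓ - 1 + 2)).filter fun q => q.Prime ∧ q - 1 ∣ ℓ - 1 with hS
    have hmem : ℓ ∈ S := Finset.mem_filter.mpr ⟨Finset.mem_range.mpr (by omega), hℓ.out, dvd_rfl⟩
    rw [← Finset.add_sum_erase S _ hmem] at hz
    have he : (1 : ℚ) / ℓ = ((z : ℚ) - x) + -(∑ q ∈ S.erase ℓ, (1 : ℚ) / q) := by
      rw [hz, hx]; ring
    have h1 : ((1 : ℚ) / ℓ).den = ℓ := by simp [hℓ.out.ne_zero]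
    have hco : Nat.Coprime ℓ (((z : ℚ) - x).den * (-(∑ q ∈ S.erase ℓ, (1 : ℚ) / q)).den) := by
      refine Nat.Coprime.mul_right ?_ ?_
      · refine Nat.Coprime.of_dvd_right (Rat.sub_den_dvd _ _) ?_
        rw [Rat.den_intCast, one_mul]
        exact (Nat.Prime.coprime_iff_not_dvd hℓ.out).mpr hd
      · rw [Rat.den_neg_eq_den]
        refine Nat.Coprime.of_dvd_right (Finset.Rat.den_sum_dvd_prod_den _ _) ?_
        refine Nat.Coprime.prod_right fun q hq => ?_
        obtain ⟨hne, hq⟩ := Finset.mem_erase.mp hq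
        have hqp := (Finset.mem_filter.mp hq).2.1
        rw [show ((1 : ℚ) / q).den = q by simp [hqp.ne_zero]]
        exact (Nat.coprime_primes hℓ.out hqp).mpr (Ne.symm hne)
    have := Rat.add_den_dvd ((z : ℚ) - x) (-(∑ q ∈ S.erase ℓ, (1 : ℚ) / q))
    rw [← he, h1] at this
    exact (Nat.Prime.coprime_iff_not_dvd hℓ.out).mp hco this
  have hnum : (x.num : ZMod ℓ) ≠ 0 := by
    rw [Ne, ZMod.intCast_zmod_eq_zero_iff_dvd]
    intro h
    have h' := Int.natAbs_dvd_natAbs.mpr h
    rw [Int.natAbs_natCast] at h'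
    exact hℓ.out.ne_one (Nat.eq_one_of_dvd_coprimes x.reduced h' hden)
  have hx0 : (x : ℂ) ≠ 0 := by
    rw [Rat.cast_ne_zero]
    intro h
    apply hnum
    simp [h]
  have hk3 : 3 ≤ ℓ - 1 := by omega
  set A : PowerSeries ℤ := C x.num - C (2 * ((ℓ - 1 : ℕ) : ℤ) * (x.den : ℤ)) * sigmaSeries (ℓ - 1 - 1)
  have hA : HasQ 1 ((x.num : ℂ) • ⇑(E hk3)) (toC A) := by
    have h := (hasQ_modularForm (E hk3)).smul (x.num : ℂ)
    convert h using 1
    ext n
    rw [PowerSeries.coeff_smul, qe, EisensteinSeries.E_qExpansion_coeff hk3 hev, coeff_toC, ← hx]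
    simp only [A, map_sub, coeff_C_mul, coeff_C, coeff_sigmaSeries, smul_eq_mul]
    have hxd : (x.num : ℂ) = (x : ℂ) * (x.den : ℂ) := by
      rw [← Rat.cast_natCast x.den, ← Rat.cast_intCast x.num, ← Rat.cast_mul, Rat.mul_den_eq_num]
    split_ifs with hn
    · simp
    · push_cast
      rw [hxd]
      field_simp
      ring
  obtain ⟨a, b, c, ha, hb, habc⟩ := exists_weight_shape (k := ((ℓ - 1 : ℕ) : ℤ)) (by positivity)
    (by exact_mod_cast hev) (by omega)
  obtain ⟨lam, hlam⟩ := exists_normal_int ⟨ha, hb⟩ habc ((IsLv.of_modularForm (E hk3)).smul _) hA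
  refine ⟨a, b, c, (x.num : ZMod ℓ), polyL ℓ lam c, ha, hb, by omega, hnum,
    natDegree_polyL_le lam c, ?_⟩
  rw [← red_normal, ← hlam]
  have hd0 : ((x.den : ℤ) : ZMod ℓ) = 0 := by
    rw [Int.cast_natCast, ZMod.natCast_eq_zero_iff]; exact hden
  simp only [A, map_sub, map_mul, red_C, Int.cast_mul, hd0, mul_zero, map_zero, zero_mul, sub_zero]

theorem sigma_seven : sigmaSeries 7 = sigmaSeries 3 + 120 * sigmaSeries 3 ^ 2 := by
  have hk : 3 ≤ 8 := by norm_num
  have h8 : HasQ 1 ⇑(E hk) (toC (1 + 480 * sigmaSeries 7)) := by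
    have h : qe ⇑(E hk) = toC (1 + 480 * sigmaSeries 7) := by
      ext n
      rw [qe, EisensteinSeries.E_qExpansion_coeff hk ⟨4, rfl⟩,
        show bernoulli 8 = -1 / 30 by decide +kernel, coeff_toC,
        show (480 : PowerSeries ℤ) = C 480 from (map_ofNat C 480).symm, map_add, coeff_C_mul,
        coeff_one, coeff_sigmaSeries]
      split_ifs <;> norm_num
    exact h ▸ hasQ_modularForm (E hk)
  have hQ := (hasQ_E₄.pow one_pos 2).sub h8
  rw [Qs, ← map_pow, ← map_sub] at hQ
  have hz := (((isLv_E₄.pow 2).congr_weight (by norm_num)).sub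
    (IsLv.of_modularForm (E hk))).eq_zero_of_coeff_zero (by
      rw [qe, hQ.qExpansion_eq one_pos, coeff_toC]; simp) (Or.inl (by norm_num))
  rw [hz] at hQ
  have h1 : Qz ^ 2 - (1 + 480 * sigmaSeries 7) = 0 :=
    toC_injective (by rw [HasQ.eq_zero_of_fun hQ one_pos, map_zero])
  rw [Qz] at h1
  have h2 : (480 : PowerSeries ℤ) * (sigmaSeries 3 + 120 * sigmaSeries 3 ^ 2 - sigmaSeries 7) = 0 := by
    linear_combination h1
  have h480 : (480 : PowerSeries ℤ) ≠ 0 := fun h => by
    have := congrArg constantCoeff h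
    rw [map_ofNat, map_zero] at this
    norm_num at this
  exact (sub_eq_zero.mp ((mul_eq_zero.mp h2).resolve_left h480)).symm

/-- `∑ (σ₃(n) + 7σ₅(n) + σ₇(n))/9 Xⁿ`. -/
def sigma357Series : PowerSeries ℤ :=
  PowerSeries.mk fun n => if n = 0 then 0 else
    ((σ 3 n : ℤ) + 7 * (σ 5 n : ℤ) + (σ 7 n : ℤ)) / 9

theorem nine_mul_sigma357Series :
    9 * sigma357Series = sigmaSeries 3 + 7 * sigmaSeries 5 + sigmaSeries 7 := by
  ext n
  rw [show (9 : PowerSeries ℤ) = C 9 from (map_ofNat C 9).symm,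
    show (7 : PowerSeries ℤ) = C 7 from (map_ofNat C 7).symm, map_add, map_add]
  simp only [coeff_C_mul, coeff_sigmaSeries, sigma357Series, coeff_mk]
  split_ifs
  · simp
  · rw [Int.mul_ediv_cancel']
    refine (ZMod.intCast_zmod_eq_zero_iff_dvd _ 9).mp ?_
    simp only [ArithmeticFunction.sigma_apply, Nat.cast_sum, Nat.cast_pow, Int.cast_add,
      Int.cast_mul, Int.cast_sum, Int.cast_pow, Int.cast_natCast, Finset.mul_sum,
      ← Finset.sum_add_distrib]
    refine Finset.sum_eq_zero fun d _ => ?_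
    have h : ∀ x : ZMod 9, x ^ 3 + (7 : ℤ) * x ^ 5 + x ^ 7 = 0 := by decide
    exact h _

theorem red_three_Dz : red 3 Dz = red 3 (sigmaSeries 3) - red 3 (sigmaSeries 3) ^ 3 := by
  have h3 : (3 : PowerSeries ℤ) ≠ 0 := fun h => by
    have := congrArg constantCoeff h
    rw [map_ofNat, map_zero] at this
    norm_num at this
  have h : sigma35Series + sigmaSeries 3 ^ 2 - sigmaSeries 3 =
      3 * (sigma357Series - sigma35Series - 13 * sigmaSeries 3 ^ 2) := by
    apply mul_left_cancel₀ h3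
    linear_combination twelve_mul_sigma35Series - nine_mul_sigma357Series - sigma_seven
  have e : Dz = (sigmaSeries 3 - sigmaSeries 3 ^ 3) +
      3 * (sigma357Series - sigma35Series - 13 * sigmaSeries 3 ^ 2 + 33 * sigmaSeries 3 ^ 2 +
        2667 * sigmaSeries 3 ^ 3 - 49 * sigmaSeries 5 ^ 2) := by
    rw [Dz]
    linear_combination h
  have h30 : red 3 (3 : PowerSeries ℤ) = 0 := by
    rw [show (3 : PowerSeries ℤ) = C 3 from (map_ofNat C 3).symm, red_C,
      show ((3 : ℤ) : ZMod 3) = 0 from rfl, map_zero]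
  rw [e, map_add, map_sub, map_pow, map_mul, h30, zero_mul, add_zero]

end FA.Eis
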