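import Fermat.Agent.Eisenstein.QExp
import Fermat.Prelude.Def_ModularForm_HeckeOperator
import Fermat.Prelude.Thm_ModularFormClass_isBoundedAt_heckeT

/-!
# Elementary slash calculus

`dil p f τ = f (p τ)`, `fdiv p j τ = (τ + j)/p`, and the slash of these by integral matrices.
-/

set_option autoImplicit false

noncomputable section

open UpperHalfPlane hiding I
open Complex Filter Function Topology Matrix.SpecialLinearGroup ModularForm
open scoped Manifold Real MatrixGroups ModularForm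

local notation "𝕢" => Function.Periodic.qParam

namespace FA.Eis

/-- An element of `SL(2, ℤ)` from its entries. -/
def sl2 (a b c d : ℤ) (h : a * d - b * c = 1) : SL(2, ℤ) :=
  ⟨!![a, b; c, d], by rw [Matrix.det_fin_two_of]; exact h⟩

@[simp] theorem sl2_00 (a b c d : ℤ) (h : a * d - b * c = 1) : sl2 a b c d h 0 0 = a := rfl
@[simp] theorem sl2_01 (a b c d : ℤ) (h : a * d - b * c = 1) : sl2 a b c d h 0 1 = b := rfl
@[simp] theorem sl2_10 (a b c d : ℤ) (h : a * d - b * c = 1) : sl2 a b c d h 1 0 = c := rfl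
@[simp] theorem sl2_11 (a b c d : ℤ) (h : a * d - b * c = 1) : sl2 a b c d h 1 1 = d := rfl

theorem sl_det (A : SL(2, ℤ)) : A 0 0 * A 1 1 - A 0 1 * A 1 0 = 1 := by
  have := A.2
  rwa [Matrix.det_fin_two] at this

/-- The denominator of an integral matrix. -/
def den (A : SL(2, ℤ)) (τ : ℂ) : ℂ := (A 1 0 : ℂ) * τ + (A 1 1 : ℂ)

theorem denom_eq_den (A : SL(2, ℤ)) (τ : ℍ) : UpperHalfPlane.denom A τ = den A τ := by
  rw [ModularGroup.denom_apply]
  rfl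

theorem den_ne_zero (A : SL(2, ℤ)) (τ : ℍ) : den A τ ≠ 0 := by
  rw [← denom_eq_den]
  exact UpperHalfPlane.denom_ne_zero _ τ

theorem coe_sl_smul (A : SL(2, ℤ)) (τ : ℍ) :
    ((A • τ : ℍ) : ℂ) = ((A 0 0 : ℂ) * τ + (A 0 1 : ℂ)) / den A τ := by
  rw [coe_specialLinearGroup_apply]
  simp [den]

theorem slash_sl_apply (f : ℍ → ℂ) (k : ℤ) (A : SL(2, ℤ)) (τ : ℍ) :
    (f ∣[k] A) τ = f (A • τ) * den A τ ^ (-k) := by
  rw [ModularForm.SL_slash_apply, denom_eq_den]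

/-- The point `p τ`. -/
def scalePt (p : ℕ) (τ : ℍ) : ℍ := heckeDiagMatrix p • τ

/-- The point `(τ + j)/p`. -/
def fdivPt (p j : ℕ) (τ : ℍ) : ℍ := heckeMatrix p j • τ

@[simp] theorem coe_scalePt {p : ℕ} [NeZero p] (τ : ℍ) :
    ((scalePt p τ : ℍ) : ℂ) = (p : ℂ) * τ :=
  coe_heckeDiagMatrix_smul (NeZero.ne p) τ

@[simp] theorem coe_fdivPt {p : ℕ} [NeZero p] (j : ℕ) (τ : ℍ) :
    ((fdivPt p j τ : ℍ) : ℂ) = ((τ : ℂ) + j) / p :=
  coe_heckeMatrix_smul (NeZero.ne p) j τ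

/-- `dil p f τ = f (p τ)`. -/
def dil (p : ℕ) (f : ℍ → ℂ) : ℍ → ℂ := fun τ => f (scalePt p τ)

/-- `avg p f τ = p⁻¹ ∑_j f ((τ + j)/p)`. -/
def avg (p : ℕ) (f : ℍ → ℂ) : ℍ → ℂ :=
  fun τ => (p : ℂ)⁻¹ * ∑ j ∈ Finset.range p, f (fdivPt p j τ)

theorem scalePt_fdivPt (p : ℕ) [NeZero p] (j : ℕ) (τ : ℍ) :
    ((scalePt p (fdivPt p j τ) : ℍ) : ℂ) = τ + j := by
  have : (p : ℂ) ≠ 0 := NeZero.ne _
  simp only [coe_scalePt, coe_fdivPt]
  field_simp

theorem scalePt_fdivPt_zero (p : ℕ) [NeZero p] (τ : ℍ) :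
    scalePt p (fdivPt p 0 τ) = τ :=
  UpperHalfPlane.ext (by simpa using scalePt_fdivPt p 0 τ)

theorem fdivPt_scalePt (p : ℕ) [NeZero p] (τ : ℍ) :
    fdivPt p 0 (scalePt p τ) = τ := by
  have : (p : ℂ) ≠ 0 := NeZero.ne _
  apply UpperHalfPlane.ext
  simp [mul_div_cancel_left₀ _ this]

theorem dil_mul (p : ℕ) (f g : ℍ → ℂ) : dil p (f * g) = dil p f * dil p g := rfl

theorem dil_smul (p : ℕ) (c : ℂ) (f : ℍ → ℂ) : dil p (c • f) = c • dil p f := rfl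

theorem dil_eq_slash (k : ℤ) (p : ℕ) [NeZero p] (f : ℍ → ℂ) :
    dil p f = ((p : ℂ) ^ (k - 1))⁻¹ • (f ∣[k] heckeDiagMatrix p) := by
  funext τ
  simp only [Pi.smul_apply, slash_heckeDiagMatrix_apply k (NeZero.ne p), smul_eq_mul]
  rw [inv_mul_cancel_left₀ (zpow_ne_zero _ (NeZero.ne _))]
  rfl

theorem avg_eq_heckeU (k : ℤ) (p : ℕ) [NeZero p] (f : ℍ → ℂ) : avg p f = heckeU k p f := by
  funext τ
  rw [heckeU_apply k (NeZero.ne p)]
  rfl

/-- If `p ∣ c` then `(τ ↦ f (pτ)) ∣ (a b; c d) = (f ∣ (a, pb; c/p, d)) (pτ)`. -/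
theorem dil_slash {p : ℕ} [NeZero p] (f : ℍ → ℂ) (k : ℤ) (A : SL(2, ℤ)) {c' : ℤ}
    (hc : A 1 0 = p * c') :
    ∃ B : SL(2, ℤ), B 0 0 = A 0 0 ∧ B 0 1 = p * A 0 1 ∧ B 1 0 = c' ∧ B 1 1 = A 1 1 ∧
      dil p f ∣[k] A = dil p (f ∣[k] B) := by
  have hd : A 0 0 * A 1 1 - p * A 0 1 * c' = 1 := by
    have := sl_det A
    rw [hc] at this
    linarith
  refine ⟨sl2 (A 0 0) (p * A 0 1) c' (A 1 1) hd, rfl, rfl, rfl, rfl, funext fun τ => ?_⟩
  have hden : den (sl2 (A 0 0) (p * A 0 1) c' (A 1 1) hd) (scalePt p τ) = den A τ := by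
    simp only [den, sl2_10, sl2_11, coe_scalePt, hc, Int.cast_mul, Int.cast_natCast]
    ring
  simp only [dil, slash_sl_apply, hden]
  congr 2
  apply UpperHalfPlane.ext
  rw [coe_sl_smul, hden, coe_scalePt, coe_scalePt, coe_sl_smul]
  simp only [sl2_00, sl2_01, Int.cast_mul, Int.cast_natCast]
  field_simp [den_ne_zero A τ]

theorem vadd_eq_T_zpow_smul (n : ℤ) (τ : ℍ) : (n : ℝ) +ᵥ τ = ModularGroup.T ^ n • τ :=
  (UpperHalfPlane.modular_T_zpow_smul τ n).symm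

theorem T_zpow_10 (n : ℤ) : (ModularGroup.T ^ n : SL(2, ℤ)) 1 0 = 0 := by
  have := congrArg (fun M : Matrix (Fin 2) (Fin 2) ℤ => M 1 0) (ModularGroup.coe_T_zpow n)
  simpa using this

theorem T_zpow_11 (n : ℤ) : (ModularGroup.T ^ n : SL(2, ℤ)) 1 1 = 1 := by
  have := congrArg (fun M : Matrix (Fin 2) (Fin 2) ℤ => M 1 1) (ModularGroup.coe_T_zpow n)
  simpa using this

theorem slash_T_zpow_apply (f : ℍ → ℂ) (k : ℤ) (n : ℤ) (τ : ℍ) :
    (f ∣[k] (ModularGroup.T ^ n : SL(2, ℤ))) τ = f ((n : ℝ) +ᵥ τ) := by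
  rw [slash_sl_apply, vadd_eq_T_zpow_smul]
  simp [den, T_zpow_10, T_zpow_11]

theorem slash_S_apply' (f : ℍ → ℂ) (k : ℤ) (τ : ℍ) :
    (f ∣[k] ModularGroup.S) τ = f (ModularGroup.S • τ) * (τ : ℂ) ^ (-k) := by
  rw [slash_sl_apply]
  simp [den, ModularGroup.S]

theorem coe_S_smul (τ : ℍ) : ((ModularGroup.S • τ : ℍ) : ℂ) = -(τ : ℂ)⁻¹ := by
  rw [UpperHalfPlane.modular_S_smul]
  simp only [UpperHalfPlane.coe_mk, inv_neg]

theorem neg_one_slash (f : ℍ → ℂ) {k : ℤ} (hk : Even k) : f ∣[k] (-1 : SL(2, ℤ)) = f := by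
  funext τ
  rw [slash_sl_apply]
  have h1 : (-1 : SL(2, ℤ)) • τ = τ := by
    apply UpperHalfPlane.ext
    simp
  simp [den, hk.neg.neg_one_zpow]

theorem periodic_of_slash_T {f : ℍ → ℂ} {k : ℤ} (h : f ∣[k] ModularGroup.T = f) :
    Periodic (f ∘ ofComplex) 1 := by
  have h1 : ∀ τ : ℍ, f ((1 : ℝ) +ᵥ τ) = f τ := fun τ => by
    have := slash_T_zpow_apply f k 1 τ
    rw [zpow_one, h, Int.cast_one] at this
    exact this.symm
  intro w
  by_cases hw : 0 < w.im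
  · have : 0 < (w + 1).im := by simp [hw]
    simp only [comp_apply, ofComplex_apply_of_im_pos this, ofComplex_apply_of_im_pos hw]
    convert h1 ⟨w, hw⟩ using 2
    ext
    simp [add_comm]
  · have : (w + 1).im ≤ 0 := by simpa using not_lt.mp hw
    simp [ofComplex_apply_of_im_nonpos this, ofComplex_apply_of_im_nonpos (not_lt.mp hw)]

/-- `f` is bounded at every rational cusp in weight `k`. -/
def BddAllCusps (k : ℤ) (f : ℍ → ℂ) : Prop :=
  ∀ A : SL(2, ℤ), IsBoundedAtImInfty (f ∣[k] A)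

theorem BddAllCusps.isBoundedAt {k : ℤ} {f : ℍ → ℂ} (hf : BddAllCusps k f) {c : OnePoint ℝ}
    (hc : IsCusp c 𝒮ℒ) : c.IsBoundedAt f k :=
  (OnePoint.isBoundedAt_iff_forall_SL2Z hc).mpr fun A _ => hf A

/-- Boundedness at all cusps is preserved by slashing with rational matrices. -/
theorem BddAllCusps.slash_rat {k : ℤ} {f : ℍ → ℂ} (hf : BddAllCusps k f) (g : GL (Fin 2) ℚ) :
    BddAllCusps k (f ∣[k] (Matrix.GeneralLinearGroup.map (Rat.castHom ℝ) g)) := by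
  intro A
  have hA : IsCusp ((mapGL ℝ A) • OnePoint.infty) 𝒮ℒ := isCusp_SL2Z_iff'.mpr ⟨A, rfl⟩
  have hc := P2MW.S_ModularFormClass_isBoundedAt_heckeT.ModularForm.S06W2.isCusp_ratCast_smul
    hA g
  have := hf.isBoundedAt hc
  rw [OnePoint.IsBoundedAt.smul_iff] at this
  exact this _ rfl

theorem BddAllCusps.slash_sl {k : ℤ} {f : ℍ → ℂ} (hf : BddAllCusps k f) (B : SL(2, ℤ)) :
    BddAllCusps k (f ∣[k] B) := fun A => by
  rw [← SlashAction.slash_mul]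
  exact hf _

theorem BddAllCusps.add {k : ℤ} {f g : ℍ → ℂ} (hf : BddAllCusps k f) (hg : BddAllCusps k g) :
    BddAllCusps k (f + g) := fun A => by
  rw [SlashAction.add_slash]
  exact (hf A).add (hg A)

theorem BddAllCusps.smul {k : ℤ} {f : ℍ → ℂ} (hf : BddAllCusps k f) (c : ℂ) :
    BddAllCusps k (c • f) := fun A => by
  rw [ModularForm.SL_smul_slash]
  exact (hf A).const_smul_left c

theorem BddAllCusps.sum {k : ℤ} {ι : Type*} (s : Finset ι) {f : ι → ℍ → ℂ}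
    (hf : ∀ i ∈ s, BddAllCusps k (f i)) : BddAllCusps k (∑ i ∈ s, f i) := fun A => by
  rw [SlashAction.sum_slash]
  classical
  induction s using Finset.induction_on with
  | empty => simpa using! Filter.const_boundedAtFilter _ (0 : ℂ)
  | insert a s ha ih =>
    rw [Finset.sum_insert ha]
    exact (hf a (Finset.mem_insert_self a s) A).add
      (ih fun i hi => hf i (Finset.mem_insert_of_mem hi))

theorem BddAllCusps.mul {k l : ℤ} {f g : ℍ → ℂ} (hf : BddAllCusps k f) (hg : BddAllCusps l g) :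
    BddAllCusps (k + l) (f * g) := fun A => by
  rw [ModularForm.mul_slash_SL2]
  exact (hf A).mul (hg A)

theorem BddAllCusps.dil {k : ℤ} {f : ℍ → ℂ} (hf : BddAllCusps k f) (p : ℕ) [NeZero p] :
    BddAllCusps k (FA.Eis.dil p f) := by
  obtain ⟨g, hg⟩ := P2MW.S_ModularFormClass_isBoundedAt_heckeT.ModularForm.S06W2.exists_heckeDiagMatrix_eq_map p
  rw [dil_eq_slash k p f, hg]
  exact (hf.slash_rat g).smul _

theorem BddAllCusps.avg {k : ℤ} {f : ℍ → ℂ} (hf : BddAllCusps k f) (p : ℕ) [NeZero p] :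
    BddAllCusps k (FA.Eis.avg p f) := by
  rw [avg_eq_heckeU k p f, heckeU_def]
  refine BddAllCusps.sum _ fun j _ => ?_
  obtain ⟨g, hg⟩ := P2MW.S_ModularFormClass_isBoundedAt_heckeT.ModularForm.S06W2.exists_heckeMatrix_eq_map p j
  rw [hg]
  exact hf.slash_rat g

end FA.Eis
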