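import Fermat.Agent.Eisenstein.Psi
import Fermat.Agent.Eisenstein.LevelOne

/-!
# Symmetric functions of the translates of a weight two form of prime level
-/

set_option autoImplicit false

noncomputable section

open UpperHalfPlane hiding I
open Complex Filter Function Topology PowerSeries CongruenceSubgroup
open scoped Real MatrixGroups ModularForm

namespace FA.Eis

variable {p : ℕ} [Fact p.Prime]

theorem mul_inv_mem_Gamma0_of_cls {A B : SL(2, ℤ)} (h : cls p A = cls p B) :
    A * B⁻¹ ∈ Gamma0 p := by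
  rw [cls_eq_iff] at h
  rw [Gamma0_mem, Matrix.SpecialLinearGroup.coe_mul, Matrix.SpecialLinearGroup.coe_inv]
  simp [Matrix.adjugate_fin_two, Matrix.mul_apply, Fin.sum_univ_two]
  linear_combination h

/-- Representatives for the cosets of `Γ₀(p)`. -/
def cosetRep (p : ℕ) [Fact p.Prime] (x : Option (ZMod p)) : SL(2, ℤ) :=
  x.elim 1 fun j => ModularGroup.S * ModularGroup.T ^ ((j.val : ℕ) : ℤ)

theorem cls_cosetRep (x : Option (ZMod p)) : cls p (cosetRep p x) = x := by
  rcases x with _ | j
  · simp [cls, cosetRep]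
  · simp [cls, cosetRep, Matrix.mul_apply, Fin.sum_univ_two, ModularGroup.coe_S,
      ModularGroup.coe_T_zpow]

/-- The translates of `f`. -/
def transl (p : ℕ) [Fact p.Prime] (f : ℍ → ℂ) (x : Option (ZMod p)) : ℍ → ℂ :=
  f ∣[(2 : ℤ)] cosetRep p x

/-- The series of the translates, in the parameter `exp (2πiτ/p)`. -/
def translSer (p : ℕ) [Fact p.Prime] (A : PowerSeries ℂ) : Option (ZMod p) → PowerSeries ℂ
  | none => Vp p A
  | some j => rescale (exp (2 * π * I / p) ^ j.val) (-((p : ℂ)⁻¹ • Up p A))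

theorem hasQ_transl {f : ℍ → ℂ} {A : PowerSeries ℂ} (hf : IsLv p 2 f) (hA : HasQ 1 f A)
    (x : Option (ZMod p)) : HasQ (p : ℝ) (transl p f x) (translSer p A x) := by
  rcases x with _ | j
  · simpa [transl, cosetRep] using! hA.changePeriod p
  · have e : transl p f (some j) = fun τ => FA.Eis.W p 2 f (fdivPt p j.val τ) := by
      funext τ
      rw [transl, cosetRep, Option.elim_some, SlashAction.slash_mul]
      exact slash_S_eq_W p 2 f j.val τ
    rw [e]
    exact (hasQ_W_weight_two hf hA).fdiv p j.val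

theorem slash_eq_transl {f : ℍ → ℂ} (hf : IsLv p 2 f) (A : SL(2, ℤ)) :
    f ∣[(2 : ℤ)] A = transl p f (cls p A) :=
  slash_eq_of_coset hf.inv (mul_inv_mem_Gamma0_of_cls (cls_cosetRep _).symm)

theorem prod_slash_sl {ι : Type*} (k : ℤ) (t : Finset ι) (F : ι → ℍ → ℂ) (A : SL(2, ℤ)) :
    (∏ x ∈ t, F x) ∣[(t.card : ℤ) * k] A = ∏ x ∈ t, (F x ∣[k] A) := by
  classical
  induction t using Finset.induction_on with
  | empty => simpa using ModularForm.is_invariant_one A
  | insert a s ha ih =>
    rw [Finset.prod_insert ha, Finset.prod_insert ha, Finset.card_insert_of_notMem ha,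
      show ((s.card + 1 : ℕ) : ℤ) * k = k + (s.card : ℤ) * k by push_cast; ring,
      ModularForm.mul_slash_SL2, ih]

/-- The `a`-th elementary symmetric function of the translates. -/
def esymmT (p : ℕ) [Fact p.Prime] (f : ℍ → ℂ) (a : ℕ) : ℍ → ℂ :=
  ∑ t ∈ Finset.univ.powersetCard a, ∏ x ∈ t, transl p f x

/-- Its series in the parameter `exp (2πiτ/p)`. -/
def esymmSer (p : ℕ) [Fact p.Prime] (A : PowerSeries ℂ) (a : ℕ) : PowerSeries ℂ :=
  ∑ t ∈ Finset.univ.powersetCard a, ∏ x ∈ t, translSer p A x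

theorem isLv_esymmT {f : ℍ → ℂ} {A : PowerSeries ℂ} (hf : IsLv p 2 f) (hA : HasQ 1 f A) (a : ℕ) :
    IsLv 1 (2 * (a : ℤ)) (esymmT p f a) ∧
      ∃ E : PowerSeries ℂ, HasQ 1 (esymmT p f a) E ∧ Vp p E = esymmSer p A a := by
  have hp : (0 : ℝ) < p := by exact_mod_cast (Fact.out : p.Prime).pos
  have hQ : HasQ (p : ℝ) (esymmT p f a) (esymmSer p A a) :=
    HasQ.sum _ fun t _ => HasQ.prod hp _ fun x _ => hasQ_transl hf hA x
  have hinv : ∀ B : SL(2, ℤ), esymmT p f a ∣[2 * (a : ℤ)] B = esymmT p f a := by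
    intro B
    have hbij : Function.Bijective fun x => cls p (cosetRep p x * B) :=
      Finite.injective_iff_bijective.mp fun x y hxy => by
        rw [← cls_cosetRep (p := p) x, ← cls_cosetRep (p := p) y]
        exact cls_mul_right_injective B hxy
    set e : Option (ZMod p) ≃ Option (ZMod p) := Equiv.ofBijective _ hbij with he
    have hstep : ∀ x, transl p f x ∣[(2 : ℤ)] B = transl p f (e x) := fun x => by
      rw [transl, ← SlashAction.slash_mul, slash_eq_transl hf]
      rfl
    rw [esymmT, SlashAction.sum_slash]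
    calc ∑ t ∈ Finset.univ.powersetCard a, (∏ x ∈ t, transl p f x) ∣[2 * (a : ℤ)] B
        = ∑ t ∈ Finset.univ.powersetCard a, ∏ x ∈ t.map e.toEmbedding, transl p f x := by
          refine Finset.sum_congr rfl fun t ht => ?_
          rw [show 2 * (a : ℤ) = (t.card : ℤ) * 2 by
            rw [(Finset.mem_powersetCard.mp ht).2]; ring, prod_slash_sl, Finset.prod_map]
          exact Finset.prod_congr rfl fun x _ => hstep x
      _ = ∑ t ∈ Finset.univ.powersetCard a, ∏ x ∈ t, transl p f x := by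
          conv_rhs => rw [← Finset.map_univ_equiv e, Finset.powersetCard_map, Finset.sum_map]
          rfl
  have hl : IsLv 1 (2 * (a : ℤ)) (esymmT p f a) :=
    ⟨fun γ _ => hinv γ, hQ.mdiff hp, fun B => by rw [hinv B]; exact hQ.bdd hp⟩
  exact ⟨hl, qe (esymmT p f a), hl.hasQ, HasQ.unique hp (hl.hasQ.changePeriod p) hQ⟩

end FA.Eis
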