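import Fermat.Agent.Eisenstein.EForm
import Fermat.Agent.Eisenstein.LevelOne
import Fermat.Agent.Eisenstein.PsiInt

/-!
# Congruences of an Eisenstein-congruent form: first consequences

`CongData p M g G`: a weight two form of level `p` whose q-series `G` is integral and is congruent
to the constant `p - 1` modulo `24 M`.
-/

set_option autoImplicit false

noncomputable section

open UpperHalfPlane hiding I
open Complex Filter Function Topology PowerSeries CongruenceSubgroup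
open scoped Real MatrixGroups ModularForm ArithmeticFunction.sigma

namespace FA.Eis

theorem HasQ.coeff_zero_of_isZero {h : ℝ} {f : ℍ → ℂ} {A : PowerSeries ℂ} (hf : HasQ h f A)
    (hh : 0 < h) (hz : IsZeroAtImInfty f) : coeff 0 A = 0 :=
  tendsto_nhds_unique (hf.tendsto hh) hz

/-- See the module docstring. -/
structure CongData (p M : ℕ) (g : ℍ → ℂ) (G : PowerSeries ℤ) : Prop where
  lv : IsLv p 2 g
  hasQ : HasQ 1 g (toC G)
  coeff_zero : coeff 0 G = (p : ℤ) - 1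
  dvd : ∀ m : ℕ, 1 ≤ m → ((24 * M : ℕ) : ℤ) ∣ coeff m G

theorem exists_congData {p M : ℕ} [Fact p.Prime] (F : CuspForm (Gamma0 p) 2)
    (A : PowerSeries ℤ) (hA : HasQ 1 ⇑F (toC A))
    (hcong : ∀ m : ℕ, 1 ≤ m → (M : ℤ) ∣ coeff m A - sigP p m) :
    ∃ g, CongData p M g (EZ p - C 24 * A) := by
  have h0 : coeff 0 A = 0 := by
    have hF := hA.coeff_zero_of_isZero one_pos (CuspFormClass.zero_at_infty F)
    simpa [-coeff_zero_eq_constantCoeff] using hF
  refine ⟨Efun p - (24 : ℂ) • ⇑F, (isLv_Efun p).sub ((isLv_of_cuspForm F).smul _), ?_, ?_, ?_⟩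
  · have h := (hasQ_Efun p).sub (hA.smul (24 : ℂ))
    convert h using 1
    rw [map_sub, map_mul, PowerSeries.smul_eq_C_mul, toC, PowerSeries.map_C, eq_intCast,
      Int.cast_ofNat]
  · rw [map_sub, coeff_C_mul, h0, coeff_EZ, if_pos rfl, mul_zero, sub_zero]
  · intro m hm
    rw [map_sub, coeff_C_mul, coeff_EZ, if_neg (by omega), Nat.cast_mul, ← mul_sub]
    exact mul_dvd_mul_left _ (dvd_sub_comm.mp (hcong m hm))

/-- The integral series of the level one form attached to `g` and a level one form of weight `k`. -/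
def Pz (p k : ℕ) [NeZero p] (G H : PowerSeries ℤ) : PowerSeries ℤ :=
  C ((p : ℤ) ^ k) * (G * Vp p H) - Up p (Up p G * H)

/-- The integral series of the trace of `H(pτ)`. -/
def F0z (p k : ℕ) [NeZero p] (H : PowerSeries ℤ) : PowerSeries ℤ :=
  C ((p : ℤ) ^ k) * Vp p H + C (p : ℤ) * Up p H

variable {p M : ℕ} [Fact p.Prime] {g : ℍ → ℂ} {G : PowerSeries ℤ}

theorem toC_Vp (A : PowerSeries ℤ) : toC (Vp p A) = Vp p (toC A) :=
  PowerSeries.map_expand p _ _ A

theorem toC_Up (A : PowerSeries ℤ) : toC (Up p A) = Up p (toC A) := map_Up _ p A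

theorem toC_C (z : ℤ) : toC (C z) = C (z : ℂ) := by simp [toC]

theorem exists_F0 {k : ℕ} (hk : Even k) {H : ℍ → ℂ} {Hz : PowerSeries ℤ} (hH : IsLv 1 k H)
    (hQ : HasQ 1 H (toC Hz)) :
    ∃ P : ℍ → ℂ, IsLv 1 k P ∧ HasQ 1 P (toC (F0z p k Hz)) := by
  have hk' : Even (k : ℤ) := by exact_mod_cast hk
  have hp : (p : ℂ) ≠ 0 := NeZero.ne _
  have hW : HasQ 1 (W p k (dil p H)) ((p : ℂ) ^ (-(k : ℤ)) • toC Hz) := by
    rw [W_dil hH]
    exact hQ.smul _
  have hF := hH.dil p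
  refine ⟨(p : ℂ) ^ k • (dil p H + (p : ℂ) • avg p (W p k (dil p H))),
    (isLv_one_trace hk' hF).smul _, ?_⟩
  have h := (hasQ_trace hk' hF (hQ.dil p) hW).smul ((p : ℂ) ^ k)
  convert h using 1
  rw [F0z, map_add, map_mul, map_mul, toC_C, toC_C, toC_Vp, toC_Up, map_smul]
  simp only [PowerSeries.smul_eq_C_mul, Int.cast_pow, Int.cast_natCast, mul_add, ← mul_assoc,
    ← map_mul, zpow_neg, zpow_natCast]
  congr 3
  field_simp

theorem CongData.exists_Pz (hg : CongData p M g G) {k : ℕ} (hk : Even k) {H : ℍ → ℂ}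
    {Hz : PowerSeries ℤ} (hH : IsLv 1 k H) (hQ : HasQ 1 H (toC Hz)) :
    ∃ P : ℍ → ℂ, IsLv 1 ((k : ℤ) + 2) P ∧ HasQ 1 P (toC (Pz p k G Hz)) := by
  have hk' : Even (2 + (k : ℤ)) := even_two.add (by exact_mod_cast hk)
  have hp : (p : ℂ) ≠ 0 := NeZero.ne _
  have hF := hg.lv.mul (hH.dil p)
  have hW : HasQ 1 (W p (2 + k) (g * dil p H))
      (-((p : ℂ)⁻¹ • Up p (toC G)) * ((p : ℂ) ^ (-(k : ℤ)) • toC Hz)) := by
    rw [W_mul, W_dil hH]
    exact (hasQ_W_weight_two hg.lv hg.hasQ).mul one_pos (hQ.smul _)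
  refine ⟨(p : ℂ) ^ k • (g * dil p H + (p : ℂ) • avg p (W p (2 + k) (g * dil p H))),
    ((isLv_one_trace hk' hF).smul _).congr_weight (add_comm _ _), ?_⟩
  have h := (hasQ_trace hk' hF (hg.hasQ.mul one_pos (hQ.dil p)) hW).smul ((p : ℂ) ^ k)
  convert h using 1
  rw [Pz, map_sub, map_mul, map_mul, toC_C, toC_Vp, toC_Up, map_mul, toC_Up, neg_mul,
    smul_mul_assoc, mul_smul_comm, map_neg, map_smul, map_smul]
  simp only [PowerSeries.smul_eq_C_mul, Int.cast_pow, Int.cast_natCast, mul_add, mul_neg,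
    ← mul_assoc, ← map_mul, zpow_neg, zpow_natCast, ← sub_eq_add_neg]
  rw [mul_sub, ← mul_assoc, ← mul_assoc, ← map_mul C, mul_inv_cancel₀ hp, one_mul,
    mul_inv_cancel₀ (pow_ne_zero _ hp), map_one, one_mul]

/-- Normal form over `ℤ`. -/
theorem exists_normal_int {a b c : ℕ} (hab : a ≤ 2 ∧ b ≤ 1) {k : ℤ}
    (hk : k = 4 * a + 6 * b + 12 * c) {f : ℍ → ℂ} {A : PowerSeries ℤ} (hf : IsLv 1 k f)
    (hA : HasQ 1 f (toC A)) :
    ∃ lam : ℕ → ℤ, A = ∑ i ∈ Finset.range (c + 1),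
      C (lam i) * (Qz ^ (a + 3 * (c - i)) * Rz ^ b * Dz ^ i) := by
  obtain ⟨lam, hlam, hsum⟩ := exists_normal (Int.castRingHom ℂ).range hab c hk hf hA
    (integralIn_toC _ A)
  choose z hz using hlam
  refine ⟨z, toC_injective ?_⟩
  rw [hsum, map_sum]
  refine Finset.sum_congr rfl fun i _ => ?_
  rw [map_mul, toC_C, PowerSeries.smul_eq_C_mul, ← hz i]
  simp [monoS, Qs, Rs, Ds]

theorem coeff_zero_Pz (k : ℕ) (G H : PowerSeries ℤ) :
    coeff 0 (Pz p k G H) = coeff 0 G * coeff 0 H * ((p : ℤ) ^ k - 1) := by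
  simp only [Pz, map_sub, coeff_C_mul, coeff_Up, zero_mul, coeff_zero_eq_constantCoeff, map_mul]
  rw [← coeff_zero_eq_constantCoeff_apply, ← coeff_zero_eq_constantCoeff_apply,
    ← coeff_zero_eq_constantCoeff_apply, ← coeff_zero_eq_constantCoeff_apply, coeff_Up, zero_mul,
    coeff_Vp, if_pos (dvd_zero p), Nat.zero_div]
  ring

/-- Modulo `24 M` the series `Pz` only sees the constant of `G`. -/
theorem CongData.map_Pz (hg : CongData p M g G) {L : ℕ} (hL : L ∣ 24 * M) (k : ℕ)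
    (H : PowerSeries ℤ) :
    PowerSeries.map (Int.castRingHom (ZMod L)) (Pz p k G H) =
      C ((p : ZMod L) - 1) * (C ((p : ZMod L) ^ k) * Vp p (PowerSeries.map (Int.castRingHom _) H) -
        Up p (PowerSeries.map (Int.castRingHom _) H)) := by
  have hG : PowerSeries.map (Int.castRingHom (ZMod L)) G = C ((p : ZMod L) - 1) := by
    ext m
    rw [coeff_map, coeff_C, eq_intCast]
    rcases eq_or_ne m 0 with rfl | hm
    · rw [hg.coeff_zero, if_pos rfl]; push_cast; ring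
    · rw [if_neg hm, ZMod.intCast_zmod_eq_zero_iff_dvd]
      exact dvd_trans (Int.natCast_dvd_natCast.mpr hL) (hg.dvd m (by omega))
  rw [Pz, map_sub, map_mul, map_mul, PowerSeries.map_C, map_Vp, map_Up, map_mul, map_Up, hG, Up_C]
  rw [← PowerSeries.smul_eq_C_mul (PowerSeries.map _ H), map_smul, PowerSeries.smul_eq_C_mul]
  simp only [eq_intCast, Int.cast_pow, Int.cast_natCast]
  ring

theorem CongData.dvd_coeff_Pz (hg : CongData p M g G) {L : ℕ} (hL : L ∣ 24 * M) (k : ℕ)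
    (H : PowerSeries ℤ) (n : ℕ) :
    (L : ℤ) ∣ coeff n (Pz p k G H) -
      ((p : ℤ) - 1) * ((p : ℤ) ^ k * coeff n (Vp p H) - coeff (n * p) H) := by
  rw [← ZMod.intCast_zmod_eq_zero_iff_dvd]
  have h := congrArg (coeff n) (hg.map_Pz hL k H)
  rw [coeff_map, coeff_C_mul, map_sub, coeff_C_mul, coeff_Up, ← map_Vp, coeff_map, coeff_map,
    eq_intCast, eq_intCast, eq_intCast] at h
  push_cast
  rw [h, sub_self]

theorem sigma_prime (j : ℕ) {q : ℕ} (hq : q.Prime) : (σ j q : ℤ) = 1 + (q : ℤ) ^ j := by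
  rw [ArithmeticFunction.sigma_apply, hq.divisors, Finset.sum_pair hq.one_lt.ne]
  push_cast
  ring

theorem coeff_Qz {n : ℕ} (hn : n ≠ 0) : coeff n Qz = 240 * (σ 3 n : ℤ) := by
  rw [Qz, show (240 : PowerSeries ℤ) = C 240 from (map_ofNat C 240).symm, map_add, coeff_one,
    if_neg hn, coeff_C_mul, coeff_sigmaSeries, if_neg hn, zero_add]

theorem coeff_Rz {n : ℕ} (hn : n ≠ 0) : coeff n Rz = -(504 * (σ 5 n : ℤ)) := by
  rw [Rz, show (504 : PowerSeries ℤ) = C 504 from (map_ofNat C 504).symm, map_sub, coeff_one,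
    if_neg hn, coeff_C_mul, coeff_sigmaSeries, if_neg hn, zero_sub]

theorem not_dvd_one_p (p : ℕ) [Fact p.Prime] : ¬p ∣ 1 := (Fact.out : p.Prime).not_dvd_one

theorem CongData.dvd_four (hg : CongData p M g G) :
    ((24 * M : ℕ) : ℤ) ∣
      ((p : ℤ) - 1) * (504 * ((p : ℤ) ^ 4 - 1) - 240 * (1 + (p : ℤ) ^ 3)) := by
  obtain ⟨P, hP, hPQ⟩ := hg.exists_Pz (k := 4) (by decide) isLv_E₄ hasQ_E₄
  obtain ⟨lam, hlam⟩ := exists_normal_int (a := 0) (b := 1) (c := 0) (by omega) (by norm_num) hP hPQ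
  simp only [zero_add, Finset.sum_range_one, Nat.sub_zero, mul_zero, add_zero, pow_zero, one_mul,
    pow_one, mul_one] at hlam
  have h0 := coeff_zero_Pz (p := p) 4 G Qz
  rw [hlam, coeff_C_mul, hg.coeff_zero, coeff_zero_eq_constantCoeff, constantCoeff_Rz,
    constantCoeff_Qz] at h0
  have h1 := hg.dvd_coeff_Pz dvd_rfl 4 Qz 1
  rw [hlam, coeff_C_mul, coeff_Rz one_ne_zero, coeff_Vp, if_neg (not_dvd_one_p p), one_mul,
    coeff_Qz (NeZero.ne p), sigma_prime 3 Fact.out, ArithmeticFunction.sigma_one] at h1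
  simp only [mul_one] at h0
  rw [h0] at h1
  refine Int.dvd_neg.mp ?_
  convert h1 using 1
  push_cast
  ring

theorem CongData.dvd_six (hg : CongData p M g G) :
    ((24 * M : ℕ) : ℤ) ∣
      ((p : ℤ) - 1) * (480 * ((p : ℤ) ^ 6 - 1) - 504 * (1 + (p : ℤ) ^ 5)) := by
  obtain ⟨P, hP, hPQ⟩ := hg.exists_Pz (k := 6) (by decide) isLv_E₆ hasQ_E₆
  obtain ⟨lam, hlam⟩ := exists_normal_int (a := 2) (b := 0) (c := 0) (by omega) (by norm_num) hP hPQ
  simp only [zero_add, Finset.sum_range_one, Nat.sub_zero, mul_zero, add_zero, pow_zero,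
    mul_one] at hlam
  have h0 := coeff_zero_Pz (p := p) 6 G Rz
  rw [hlam, coeff_C_mul, hg.coeff_zero, coeff_zero_eq_constantCoeff, map_pow, constantCoeff_Qz,
    constantCoeff_Rz] at h0
  have hQ2 : coeff 1 (Qz ^ 2) = 480 := by
    rw [pow_two, PowerSeries.coeff_one_mul, constantCoeff_Qz, coeff_Qz one_ne_zero,
      ArithmeticFunction.sigma_one]
    norm_num
  have h1 := hg.dvd_coeff_Pz dvd_rfl 6 Rz 1
  rw [hlam, coeff_C_mul, hQ2, coeff_Vp, if_neg (not_dvd_one_p p), one_mul,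
    coeff_Rz (NeZero.ne p), sigma_prime 5 Fact.out] at h1
  convert h1 using 1
  simp only [one_pow, mul_one] at h0
  rw [h0]
  ring

theorem coeff_p_Vp_Dz : coeff p (Vp p Dz) = 1 := by
  rw [coeff_Vp, if_pos dvd_rfl, Nat.div_self (NeZero.pos p), coeff_one_Dz]

theorem coeff_sq_Dz : coeff (p * p) Dz = coeff p Dz ^ 2 - (p : ℤ) ^ 11 := by
  obtain ⟨P, hP, hPQ⟩ := exists_F0 (p := p) (k := 12) (by decide) isLv_discriminant hasQ_discriminant
  obtain ⟨lam, hlam⟩ := exists_normal_int (a := 0) (b := 0) (c := 1) (by omega) (by norm_num) hP hPQ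
  simp only [Finset.sum_range_succ, Finset.sum_range_zero, zero_add, pow_zero, mul_one,
    Nat.sub_zero, Nat.sub_self, mul_zero, pow_one, one_mul] at hlam
  have hV : ∀ n, coeff n (F0z p 12 Dz) =
      (p : ℤ) ^ 12 * coeff n (Vp p Dz) + (p : ℤ) * coeff (n * p) Dz := fun n => by
    rw [F0z, map_add, coeff_C_mul, coeff_C_mul, coeff_Up]
  have hD0 : coeff 0 Dz = 0 := by rw [coeff_zero_eq_constantCoeff_apply, constantCoeff_Dz]
  have h0 := congrArg (coeff 0) hlam
  rw [hV, map_add, coeff_C_mul, coeff_C_mul, zero_mul, coeff_Vp, if_pos (dvd_zero p),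
    Nat.zero_div, hD0, coeff_zero_eq_constantCoeff, map_pow, constantCoeff_Qz] at h0
  have hl0 : lam 0 = 0 := by simpa using h0.symm
  rw [hl0, map_zero, zero_mul, zero_add] at hlam
  have h1 := congrArg (coeff 1) hlam
  rw [hV, coeff_C_mul, coeff_Vp, if_neg (not_dvd_one_p p), one_mul, coeff_one_Dz] at h1
  have h2 := congrArg (coeff p) hlam
  rw [hV, coeff_C_mul, coeff_p_Vp_Dz] at h2
  have hp : (p : ℤ) ≠ 0 := NeZero.ne _
  apply mul_left_cancel₀ hp
  linear_combination h2 - (coeff p Dz) * h1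

theorem CongData.dvd_delta (hg : CongData p M g G) :
    ((24 * M : ℕ) : ℤ) ∣ ((p : ℤ) - 1) * (p : ℤ) ^ 11 * ((p : ℤ) + 1) := by
  obtain ⟨P, hP, hPQ⟩ := hg.exists_Pz (k := 12) (by decide) isLv_discriminant hasQ_discriminant
  have hz : Pz p 12 G Dz = 0 := by
    have h0 := coeff_zero_Pz (p := p) 12 G Dz
    rw [coeff_zero_eq_constantCoeff_apply Dz, constantCoeff_Dz, mul_zero, zero_mul] at h0
    have := hP.eq_zero_of_coeff_zero (by rw [qe, hPQ.qExpansion_eq one_pos, coeff_toC, h0,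
      Int.cast_zero]) (Or.inr (by norm_num))
    rw [this] at hPQ
    exact toC_injective (by rw [HasQ.eq_zero_of_fun hPQ one_pos, map_zero])
  have h1 := hg.dvd_coeff_Pz dvd_rfl 12 Dz 1
  rw [hz, map_zero, coeff_Vp, if_neg (not_dvd_one_p p), one_mul] at h1
  have h2 := hg.dvd_coeff_Pz dvd_rfl 12 Dz p
  rw [hz, map_zero, coeff_p_Vp_Dz, coeff_sq_Dz] at h2
  rw [← dvd_neg]
  convert dvd_add h2 (h1.mul_left (-coeff p Dz)) using 1
  ring

theorem CongData.eq_one_of_lt_five (hg : CongData p M g G) (hp5 : p < 5) : M = 1 := by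
  have h4 := hg.dvd_four
  have h6 := hg.dvd_six
  have hd := hg.dvd_delta
  have h2 := (Fact.out : p.Prime).two_le
  interval_cases p
  · have a : M ∣ 225 := Int.natCast_dvd_natCast.mp ((mul_dvd_mul_iff_left (a := (24 : ℤ))
      (by norm_num)).mp (by norm_num at h4 ⊢; exact h4))
    have b : M ∣ 256 := Int.natCast_dvd_natCast.mp ((mul_dvd_mul_iff_left (a := (24 : ℤ))
      (by norm_num)).mp (by norm_num at hd ⊢; exact hd))
    exact Nat.eq_one_of_dvd_coprimes (by norm_num) a b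
  · have a : M ∣ 2800 := Int.natCast_dvd_natCast.mp ((mul_dvd_mul_iff_left (a := (24 : ℤ))
      (by norm_num)).mp (by norm_num at h4 ⊢; exact h4))
    have b : M ∣ 59049 := Int.natCast_dvd_natCast.mp ((mul_dvd_mul_iff_left (a := (24 : ℤ))
      (by norm_num)).mp (by norm_num at hd ⊢; exact hd))
    exact Nat.eq_one_of_dvd_coprimes (by norm_num) a b
  · exact absurd (Fact.out : Nat.Prime 4) (by norm_num)

theorem CongData.not_dvd (hg : CongData p M g G) (hp5 : 5 ≤ p) : ¬p ∣ M := by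
  intro hpM
  have hp : Prime (p : ℤ) := Nat.prime_iff_prime_int.mp Fact.out
  have hd : (p : ℤ) ∣ ((24 * M : ℕ) : ℤ) := Int.natCast_dvd_natCast.mpr (hpM.mul_left 24)
  have hc : ¬(p : ℤ) ∣ (p : ℤ) - 1 := fun h => by
    have := Int.le_of_dvd zero_lt_one ((dvd_sub_right dvd_rfl).mp h)
    omega
  have a : (p : ℤ) ∣ 744 := by
    have h := (hp.dvd_or_dvd (hd.trans hg.dvd_four)).resolve_left hc
    have h' : (p : ℤ) ∣ 504 * (p : ℤ) ^ 4 - 240 * (p : ℤ) ^ 3 :=
      ⟨504 * (p : ℤ) ^ 3 - 240 * (p : ℤ) ^ 2, by ring⟩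
    have := dvd_sub h' h
    ring_nf at this ⊢
    exact this
  have b : (p : ℤ) ∣ 984 := by
    have h := (hp.dvd_or_dvd (hd.trans hg.dvd_six)).resolve_left hc
    have h' : (p : ℤ) ∣ 480 * (p : ℤ) ^ 6 - 504 * (p : ℤ) ^ 5 :=
      ⟨480 * (p : ℤ) ^ 5 - 504 * (p : ℤ) ^ 4, by ring⟩
    have := dvd_sub h' h
    ring_nf at this ⊢
    exact this
  have h24 : (p : ℤ) ∣ 24 := by
    have := dvd_sub (dvd_mul_of_dvd_right a (-37)) (dvd_mul_of_dvd_right b (-28))
    ring_nf at this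
    exact this
  have hle := Nat.le_of_dvd (by norm_num) (Int.natCast_dvd_natCast.mp (show ((p : ℕ) : ℤ) ∣ ((24 : ℕ) : ℤ) from h24))
  have h24' : p ∣ 24 := Int.natCast_dvd_natCast.mp h24
  have hpp : p.Prime := Fact.out
  interval_cases p <;> first | (exact absurd h24' (by decide)) | (exact absurd hpp (by decide))

theorem CongData.dvd_succ (hg : CongData p M g G) (hp5 : 5 ≤ p) :
    ((24 * M : ℕ) : ℤ) ∣ ((p : ℤ) - 1) * ((p : ℤ) + 1) := by
  have hpp : p.Prime := Fact.out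
  have hco : Nat.Coprime (24 * M) (p ^ 11) := by
    refine Nat.Coprime.pow_right _ (Nat.coprime_comm.mp ((Nat.Prime.coprime_iff_not_dvd hpp).mpr ?_))
    intro h
    rcases (Nat.Prime.dvd_mul hpp).mp h with h | h
    · have := Nat.le_of_dvd (by norm_num) h
      interval_cases p <;> first | (exact absurd h (by decide)) | (exact absurd hpp (by decide))
    · exact hg.not_dvd hp5 h
  refine IsCoprime.dvd_of_dvd_mul_left (y := (p : ℤ) ^ 11) ?_ ?_
  · rw [← Nat.cast_pow, Int.isCoprime_iff_nat_coprime, Int.natAbs_natCast, Int.natAbs_natCast]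
    exact hco
  · have := hg.dvd_delta
    rwa [mul_comm ((p : ℤ) - 1) ((p : ℤ) ^ 11), mul_assoc] at this

end FA.Eis
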