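import Fermat.Agent.Eisenstein.Translates
import Fermat.Agent.Eisenstein.Rep
import Fermat.Agent.Eisenstein.UpperBasic

/-!
# The congruence modulus is odd when `p ≡ 3 (mod 4)`
-/

set_option autoImplicit false

noncomputable section

open UpperHalfPlane hiding I
open Complex Filter Function Topology PowerSeries CongruenceSubgroup
open scoped Real MatrixGroups ModularForm

namespace FA.Eis

/-- The algebraic numbers whose multiples by a power of `p` are integral. -/
def Opt (p : ℕ) : Subring ℂ where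
  carrier := {x | ∃ k : ℕ, IsIntegral ℤ ((p : ℂ) ^ k * x)}
  zero_mem' := ⟨0, by simpa using isIntegral_zero⟩
  one_mem' := ⟨0, by simpa using isIntegral_one⟩
  neg_mem' := fun ⟨k, hk⟩ => ⟨k, by rw [mul_neg]; exact hk.neg⟩
  mul_mem' := fun {x y} ⟨k, hk⟩ ⟨l, hl⟩ => ⟨k + l, by
    rw [pow_add, mul_mul_mul_comm]; exact hk.mul hl⟩
  add_mem' := fun {x y} ⟨k, hk⟩ ⟨l, hl⟩ => ⟨k + l, by
    have hpn : ∀ n : ℕ, IsIntegral ℤ ((p : ℂ) ^ n) := fun n => (isIntegral_natCast p).pow n
    rw [pow_add, show (p : ℂ) ^ k * (p : ℂ) ^ l * (x + y) =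
      (p : ℂ) ^ l * ((p : ℂ) ^ k * x) + (p : ℂ) ^ k * ((p : ℂ) ^ l * y) by ring]
    exact ((hpn l).mul hk).add ((hpn k).mul hl)⟩

theorem mem_Opt_of_isIntegral {p : ℕ} {x : ℂ} (h : IsIntegral ℤ x) : x ∈ Opt p :=
  ⟨0, by simpa using h⟩

theorem inv_p_mem_Opt {p : ℕ} (hp : p ≠ 0) : ((p : ℂ))⁻¹ ∈ Opt p :=
  ⟨1, by rw [pow_one, mul_inv_cancel₀ (by exact_mod_cast hp)]; exact isIntegral_one⟩

theorem root_mem_Opt {p : ℕ} (hp : p ≠ 0) : exp (2 * π * I / p) ∈ Opt p := by
  refine mem_Opt_of_isIntegral (IsIntegral.of_pow (Nat.pos_of_ne_zero hp) ?_)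
  rw [← Complex.exp_nat_mul, mul_div_cancel₀ _ (by exact_mod_cast hp), Complex.exp_two_pi_mul_I]
  exact isIntegral_one

theorem half_not_mem_Opt {p : ℕ} (hp : Odd p) : (1 / 2 : ℂ) ∉ Opt p := by
  rintro ⟨k, hk⟩
  have h1 : IsIntegral ℤ (((p : ℚ) ^ k * (1 / 2) : ℚ)) := by
    apply (isIntegral_algebraMap_iff (B := ℂ) (algebraMap ℚ ℂ).injective).mp
    simpa using hk
  obtain ⟨z, hz⟩ := IsIntegrallyClosed.isIntegral_iff.mp h1
  have h2 : (p : ℤ) ^ k = 2 * z := by
    have : ((p : ℚ) ^ k) = 2 * (z : ℚ) := by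
      rw [eq_intCast] at hz
      rw [hz]; ring
    exact_mod_cast this
  have h3 : Odd ((p : ℤ) ^ k) := (((Int.odd_coe_nat p).mpr hp)).pow
  rw [h2] at h3
  exact (Int.not_even_iff_odd.mpr h3) ⟨z, by ring⟩

/-- Gradedness of a polynomial in `Y, Z, V` with coefficients in `P2`. -/
def Graded (d : ℤ) (N : MvPolynomial (Fin 3) P2) : Prop :=
  ∀ m : Fin 3 →₀ ℕ, N.coeff m ∈ RepZ (2 * (m 0 : ℤ) + 6 * (m 1 : ℤ) + d)

theorem Graded.mul {d e : ℤ} {M N : MvPolynomial (Fin 3) P2} (hM : Graded d M) (hN : Graded e N) :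
    Graded (d + e) (M * N) := by
  classical
  intro m
  rw [MvPolynomial.coeff_mul]
  refine Submodule.sum_mem _ fun x hx => ?_
  have hx' := Finset.HasAntidiagonal.mem_antidiagonal.mp hx
  convert mul_mem_RepZ (hM x.1) (hN x.2) using 2
  simp [← hx']
  ring

theorem Graded.add {d : ℤ} {M N : MvPolynomial (Fin 3) P2} (hM : Graded d M) (hN : Graded d N) :
    Graded d (M + N) := fun m => by
  rw [MvPolynomial.coeff_add]
  exact Submodule.add_mem _ (hM m) (hN m)

theorem Graded.sum {ι : Type*} {d : ℤ} {s : Finset ι} {N : ι → MvPolynomial (Fin 3) P2}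
    (h : ∀ i ∈ s, Graded d (N i)) : Graded d (∑ i ∈ s, N i) := fun m => by
  rw [MvPolynomial.coeff_sum]
  exact Submodule.sum_mem _ fun i hi => h i hi m

theorem graded_monomial {d : ℤ} {m : Fin 3 →₀ ℕ} {z : P2}
    (hz : z ∈ RepZ (2 * (m 0 : ℤ) + 6 * (m 1 : ℤ) + d)) :
    Graded d (MvPolynomial.monomial m z) := fun m' => by
  classical
  rw [MvPolynomial.coeff_monomial]
  split_ifs with h
  · exact h ▸ hz
  · exact Submodule.zero_mem _

theorem graded_one : Graded 0 1 := by
  rw [← MvPolynomial.C_1, ← MvPolynomial.monomial_zero']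
  exact graded_monomial (by simpa using one_mem_RepZ)

theorem Graded.pow {d : ℤ} {N : MvPolynomial (Fin 3) P2} (hN : Graded d N) (n : ℕ) :
    Graded ((n : ℤ) * d) (N ^ n) := by
  induction n with
  | zero => simpa using graded_one
  | succ n ih =>
    rw [pow_succ, show ((n + 1 : ℕ) : ℤ) * d = (n : ℤ) * d + d by push_cast; ring]
    exact ih.mul hN

theorem IntegralIn.of_Vp {O : Subring ℂ} {p : ℕ} [NeZero p] {A : PowerSeries ℂ}
    (h : IntegralIn O (Vp p A)) : IntegralIn O A := fun n => by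
  have := h (n * p)
  rwa [coeff_Vp, if_pos (dvd_mul_left p n), Nat.mul_div_cancel _ (NeZero.pos p)] at this

theorem IntegralIn.exists_lift {O : Subring ℂ} {A : PowerSeries ℂ} (h : IntegralIn O A) :
    ∃ B : PowerSeries O, PowerSeries.map O.subtype B = A :=
  ⟨PowerSeries.mk fun n => ⟨coeff n A, h n⟩, by ext n; simp⟩

theorem IntegralIn.add {O : Subring ℂ} {A B : PowerSeries ℂ} (hA : IntegralIn O A)
    (hB : IntegralIn O B) : IntegralIn O (A + B) := fun n => by
  rw [map_add]; exact O.add_mem (hA _) (hB _)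

theorem IntegralIn.vp {O : Subring ℂ} {p : ℕ} [NeZero p] {A : PowerSeries ℂ}
    (hA : IntegralIn O A) : IntegralIn O (Vp p A) := fun n => by
  rw [coeff_Vp]
  split_ifs
  · exact hA _
  · exact O.zero_mem

variable {p M : ℕ} [Fact p.Prime] {g : ℍ → ℂ} {G : PowerSeries ℤ}

/-- No form congruent to `p - 1` modulo `48` exists when `p ≡ 7 (mod 8)`. -/
theorem CongData.not_two_dvd (hg : CongData p M g G) (h8 : 8 ∣ p + 1) : ¬2 ∣ M := by
  intro hM
  have hpp : p.Prime := Fact.out
  have hpodd : Odd p := by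
    obtain ⟨r, hr⟩ := h8
    exact ⟨4 * r - 1, by omega⟩
  have hp0 : (p : ℂ) ≠ 0 := NeZero.ne _
  -- halve `g`
  obtain ⟨u, hu⟩ : ∃ u : ℤ, (p : ℤ) - 1 = 2 * u := by
    obtain ⟨r, hr⟩ := hpodd
    exact ⟨r, by omega⟩
  have huodd : Odd u := by
    obtain ⟨r, hr⟩ := h8
    exact ⟨2 * (r : ℤ) - 1, by omega⟩
  have h16 : ∀ m, (16 : ℤ) ∣ coeff m G - coeff m (C ((p : ℤ) - 1)) := by
    intro m
    rw [coeff_C]
    rcases eq_or_ne m 0 with rfl | hm
    · rw [hg.coeff_zero, if_pos rfl, sub_self]; exact dvd_zero _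
    · rw [if_neg hm, sub_zero]
      obtain ⟨r, rfl⟩ := hM
      exact dvd_trans ⟨3 * (r : ℤ), by push_cast; ring⟩ (hg.dvd m (by omega))
  choose w hw using h16
  set Gh : PowerSeries ℤ := C u + C 8 * PowerSeries.mk w with hGh
  have hGeq : G = C 2 * Gh := by
    ext m
    have := hw m
    rw [coeff_C_mul, hGh, map_add, coeff_C_mul, coeff_mk]
    rw [coeff_C] at this ⊢
    rcases eq_or_ne m 0 with rfl | hm
    · rw [if_pos rfl] at this ⊢; linarith
    · rw [if_neg hm] at this ⊢; linarith
  set f : ℍ → ℂ := (1 / 2 : ℂ) • g with hf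
  have hfl : IsLv p 2 f := hg.lv.smul _
  have hfQ : HasQ 1 f (toC Gh) := by
    have h := hg.hasQ.smul (1 / 2 : ℂ)
    convert h using 1
    rw [hGeq, map_mul, toC_C, PowerSeries.smul_eq_C_mul, ← mul_assoc, ← map_mul]
    norm_num
  -- the translates
  set O := Opt p with hO
  set γ := translSer p (toC Gh) with hγ
  have hζ : ∀ j : ℕ, exp (2 * π * I / p) ^ j ∈ O := fun j =>
    O.pow_mem (root_mem_Opt hpp.ne_zero) j
  have hw8 : ∀ x, ∃ wx : PowerSeries ℂ, IntegralIn O wx ∧ γ x = C (u : ℂ) + C 8 * wx := by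
    intro x
    rcases x with _ | j
    · refine ⟨Vp p (toC (PowerSeries.mk w)), (integralIn_toC O _).vp, ?_⟩
      rw [hγ, translSer, hGh, map_add, map_mul, toC_C, toC_C, map_add, map_mul,
        PowerSeries.expand_C, PowerSeries.expand_C, Int.cast_ofNat]
    · obtain ⟨r, hr⟩ := h8
      set ζ := exp (2 * π * I / p) ^ j.val
      refine ⟨rescale ζ (-((p : ℂ)⁻¹ • Up p (toC (PowerSeries.mk w)))) +
        C (-(p : ℂ)⁻¹ * (r : ℂ) * u), ?_, ?_⟩
      · refine IntegralIn.add (fun n => ?_) fun n => ?_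
        · rw [coeff_rescale, map_neg, PowerSeries.coeff_smul, coeff_Up, coeff_toC, smul_eq_mul]
          exact O.mul_mem (O.pow_mem (hζ _) _)
            (O.neg_mem (O.mul_mem (inv_p_mem_Opt hpp.ne_zero) (intCast_mem O _)))
        · rw [coeff_C]
          split_ifs
          · exact O.mul_mem (O.mul_mem (O.neg_mem (inv_p_mem_Opt hpp.ne_zero)) (natCast_mem O r))
              (intCast_mem O u)
          · exact O.zero_mem
      · have hr' : (p : ℂ) + 1 = 8 * (r : ℂ) := by exact_mod_cast congrArg (fun n : ℕ => (n : ℂ)) hr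
        ext n
        rw [hγ, translSer, hGh]
        simp only [map_add, coeff_rescale, map_neg, PowerSeries.coeff_smul, coeff_Up, coeff_toC,
          coeff_C_mul, coeff_mk, coeff_C, smul_eq_mul, Int.cast_add, Int.cast_mul, Int.cast_ofNat]
        rcases eq_or_ne n 0 with rfl | hn
        · simp only [zero_mul, if_pos, pow_zero, one_mul]
          field_simp
          linear_combination -((u : ℂ)) * hr'
        · rw [if_neg hn, if_neg (by simp [hn, hpp.ne_zero]), if_neg hn, Int.cast_zero]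
          ring
  choose wx hwx hγw using hw8
  obtain ⟨q1, hq1⟩ : ∃ q1, Qz = 1 + C 8 * q1 := ⟨30 * sigmaSeries 3, by
    rw [Qz, map_ofNat]; ring⟩
  obtain ⟨r1, hr1⟩ : ∃ r1, Rz = 1 + C 8 * r1 := ⟨-63 * sigmaSeries 5, by
    rw [Rz, map_ofNat]; ring⟩
  set φ : Option (ZMod p) → PowerSeries ℂ := fun x =>
    wx x + Vp p (toC q1) * γ x - C (u : ℂ) * Vp p (toC r1) with hφ
  have h8φ : ∀ x, C (8 : ℂ) * φ x = Vp p Qs * γ x - C (u : ℂ) * Vp p Rs := by
    intro x
    simp only [hφ, Qs, Rs, hq1, hr1, map_add, map_one, map_mul, toC_C, PowerSeries.expand_C,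
      Int.cast_ofNat]
    linear_combination -hγw x
  have hγint : ∀ x, IntegralIn O (γ x) := fun x => by
    rw [hγw x]
    refine IntegralIn.add (fun n => ?_) (fun n => ?_)
    · rw [coeff_C]; split_ifs
      exacts [intCast_mem O u, O.zero_mem]
    · rw [coeff_C_mul]; exact O.mul_mem (ofNat_mem O 8) (hwx x n)
  have hφint : ∀ x, IntegralIn O (φ x) := fun x =>
    ((hwx x).add (((integralIn_toC O q1).vp).mul (hγint x))).sub
      (IntegralIn.mul (fun n => by rw [coeff_C]; split_ifs; exacts [intCast_mem O u, O.zero_mem])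
        (integralIn_toC O r1).vp)
  -- the elementary symmetric functions
  have hE : ∀ a : ℕ, ∃ z : P2, z ∈ RepZ (2 * (a : ℤ)) ∧
      Vp p z.1 = esymmSer p (toC Gh) a ∧ (a = 0 → z = 1) := by
    intro a
    rcases eq_or_ne a 0 with rfl | ha
    · exact ⟨1, by simpa using one_mem_RepZ, by simp [esymmSer], fun _ => rfl⟩
    · obtain ⟨hl, E, hEQ, hEV⟩ := isLv_esymmT hfl hfQ a
      obtain ⟨P, hP⟩ := exists_pair hl hEQ
      exact ⟨(E, P), hP, hEV, fun h => absurd h ha⟩
  choose E hER hEV hE0 using hE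
  set n' := Fintype.card (Option (ZMod p)) with hn'
  set s8 : P2 := (1 / 8 : ℂ) • x2 with hs8
  set r8 : P2 := ((u : ℂ) / 8) • y2 with hr8
  set Yv : MvPolynomial (Fin 3) P2 := MvPolynomial.X 0 + MvPolynomial.C s8 * MvPolynomial.X 1
  set Vv : MvPolynomial (Fin 3) P2 := MvPolynomial.X 2 + MvPolynomial.C (-r8) * MvPolynomial.X 1
  set N : MvPolynomial (Fin 3) P2 :=
    ∑ a ∈ Finset.range (n' + 1), MvPolynomial.C (E a) * (Yv ^ a * Vv ^ (n' - a)) with hN
  have hgraded : Graded 0 N := by
    have hY : Graded (-2) Yv := by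
      refine Graded.add ?_ ?_
      · exact graded_monomial (by simpa using one_mem_RepZ)
      · rw [MvPolynomial.C_mul_X_eq_monomial]
        exact graded_monomial (by simpa [hs8] using (RepZ 4).smul_mem (1 / 8 : ℂ) x2_mem_RepZ)
    have hV : Graded 0 Vv := by
      refine Graded.add ?_ ?_
      · exact graded_monomial (by simpa using one_mem_RepZ)
      · rw [MvPolynomial.C_mul_X_eq_monomial]
        refine graded_monomial ?_
        convert neg_mem ((RepZ 6).smul_mem ((u : ℂ) / 8) y2_mem_RepZ) using 2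
        simp
    refine Graded.sum fun a _ => ?_
    have hC : Graded (2 * (a : ℤ)) (MvPolynomial.C (E a)) := by
      rw [← MvPolynomial.monomial_zero']
      exact graded_monomial (by simpa using hER a)
    have := hC.mul ((hY.pow a).mul (hV.pow (n' - a)))
    rwa [show 2 * (a : ℤ) + ((a : ℤ) * -2 + ((n' - a : ℕ) : ℤ) * 0) = 0 by ring] at this
  -- first coordinate
  set ev : P2 →+* PowerSeries ℂ := (Vp p : PowerSeries ℂ →ₐ[ℂ] PowerSeries ℂ).toRingHom.comp
    (RingHom.fst _ _) with hev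
  have hfst : MvPolynomial.map ev N = ∏ x : Option (ZMod p),
      (MvPolynomial.X 2 + MvPolynomial.C (γ x) * MvPolynomial.X 0 +
        MvPolynomial.C (φ x) * MvPolynomial.X 1) := by
    have hs : ev s8 = C (1 / 8) * Vp p Qs := by
      simp [hev, hs8, x2, PowerSeries.smul_eq_C_mul, PowerSeries.expand_C]
    have hr : ev r8 = C ((u : ℂ) / 8) * Vp p Rs := by
      simp [hev, hr8, y2, PowerSeries.smul_eq_C_mul, PowerSeries.expand_C]
    have hfac : ∀ x, MvPolynomial.X 2 + MvPolynomial.C (γ x) * MvPolynomial.X 0 +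
          MvPolynomial.C (φ x) * MvPolynomial.X 1 =
        MvPolynomial.C (γ x) * MvPolynomial.map ev Yv + MvPolynomial.map ev Vv := by
      intro x
      have e : φ x = γ x * (C (1 / 8) * Vp p Qs) - C ((u : ℂ) / 8) * Vp p Rs := by
        have h := congrArg (fun z => C (1 / 8 : ℂ) * z) (h8φ x)
        simp only [← mul_assoc, ← map_mul] at h
        rw [show (1 / 8 : ℂ) * 8 = 1 by norm_num, map_one, one_mul] at h
        rw [h, div_eq_mul_inv (u : ℂ), map_mul, one_div]
        ring
      simp only [Yv, Vv, map_add, map_mul, MvPolynomial.map_X, MvPolynomial.map_C, map_neg, hs, hr]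
      rw [e]
      simp only [map_sub, map_mul]
      ring
    rw [Finset.prod_congr rfl fun x _ => hfac x, Finset.prod_add, Finset.sum_powerset, hN, map_sum,
      Finset.card_univ]
    refine Finset.sum_congr rfl fun a _ => ?_
    rw [map_mul, MvPolynomial.map_C, show ev (E a) = Vp p (E a).1 from rfl, hEV, esymmSer, map_sum,
      Finset.sum_mul]
    refine Finset.sum_congr rfl fun t ht => ?_
    have htc := (Finset.mem_powersetCard.mp ht).2
    rw [Finset.prod_mul_distrib, Finset.prod_const, Finset.prod_const, map_prod,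
      Finset.card_univ_diff, htc, ← hn', map_mul, map_pow, map_pow, mul_assoc]
  have hNint : ∀ m, IntegralIn O (N.coeff m).1 := by
    intro m
    have : IntegralIn O (ev (N.coeff m)) := by
      rw [← MvPolynomial.coeff_map]
      choose Γ hΓ using fun x => (hγint x).exists_lift
      choose Φ hΦ using fun x => (hφint x).exists_lift
      have e : MvPolynomial.map ev N = MvPolynomial.map (PowerSeries.map O.subtype)
          (∏ x : Option (ZMod p), (MvPolynomial.X 2 + MvPolynomial.C (Γ x) * MvPolynomial.X 0 +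
          MvPolynomial.C (Φ x) * MvPolynomial.X 1)) := by
        rw [hfst]
        simp [hΓ, hΦ]
      rw [e, MvPolynomial.coeff_map]
      intro n
      rw [coeff_map]
      exact SetLike.coe_mem _
    exact IntegralIn.of_Vp this
  have hlift : ∀ m, ∃ P : Polynomial O, P.map O.subtype = (N.coeff m).2 := fun m => by
    have h := coeff_snd_mem (hgraded m) (hNint m)
    have : (N.coeff m).2 ∈ Polynomial.lifts O.subtype := by
      rw [Polynomial.lifts_iff_coeff_lifts]
      exact fun n => ⟨⟨_, h n⟩, rfl⟩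
    exact this
  choose Pl hPl using hlift
  set N' : MvPolynomial (Fin 3) (Polynomial O) :=
    ∑ m ∈ N.support, MvPolynomial.monomial m (Pl m) with hN'
  have hmapN : MvPolynomial.map (Polynomial.mapRingHom O.subtype) N' =
      MvPolynomial.map (RingHom.snd _ _) N := by
    conv_rhs => rw [N.as_sum]
    simp only [hN', map_sum, MvPolynomial.map_monomial, Polynomial.coe_mapRingHom, hPl,
      RingHom.coe_snd]
  set X0 : Polynomial O := Polynomial.C ((9 * u : ℤ) : O) * Polynomial.X ^ 3 -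
    Polynomial.C ((54 * u : ℤ) : O) with hX0
  set vA : Fin 3 → Polynomial O := ![6 * Polynomial.X, 2, X0]
  set vB : Fin 3 → Polynomial O := ![0, 0, X0]
  -- second coordinate
  have hev2 : ∀ v : Fin 3 → Polynomial O, (MvPolynomial.eval v N').map O.subtype =
      ∑ a ∈ Finset.range (n' + 1), (E a).2 *
        (((v 0).map O.subtype + s8.2 * (v 1).map O.subtype) ^ a *
          ((v 2).map O.subtype + (-r8).2 * (v 1).map O.subtype) ^ (n' - a)) := by
    intro v
    rw [← Polynomial.coe_mapRingHom, MvPolynomial.map_eval, hmapN, hN]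
    simp [Yv, Vv, Function.comp_def]
  have hX0m : X0.map O.subtype = Polynomial.C (9 * (u : ℂ)) * Polynomial.X ^ 3 -
      Polynomial.C (54 * (u : ℂ)) := by
    rw [hX0, Polynomial.map_sub, Polynomial.map_mul, Polynomial.map_pow, Polynomial.map_X,
      Polynomial.map_C, Polynomial.map_C, map_intCast O.subtype, map_intCast O.subtype]
    push_cast
    rfl
  have h30 : n' * 3 < 4 * n' := by
    have : 0 < n' := Fintype.card_pos
    omega
  have hA0 : (MvPolynomial.eval vA N').coeff (n' * 3) = 0 := by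
    have key : Polynomial.X ^ (4 * n') ∣ (MvPolynomial.eval vA N').map O.subtype := by
      rw [hev2]
      refine Finset.dvd_sum fun a ha => dvd_mul_of_dvd_right ?_ _
      have e1 : (vA 0).map O.subtype + s8.2 * (vA 1).map O.subtype =
          Polynomial.C (1 / 4 : ℂ) * Polynomial.X ^ 4 := by
        have h2 : (2 : Polynomial ℂ) = Polynomial.C 2 := (map_ofNat Polynomial.C 2).symm
        simp [vA, hs8, x2, Polynomial.map_mul, Polynomial.map_ofNat, Polynomial.smul_eq_C_mul, h2]
        rw [show (6 : Polynomial ℂ) = Polynomial.C 6 from (map_ofNat Polynomial.C 6).symm,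
          show (24 : Polynomial ℂ) = Polynomial.C 24 from (map_ofNat Polynomial.C 24).symm]
        ext i
        simp [Polynomial.coeff_X_pow, Polynomial.coeff_X, mul_comm _ (Polynomial.C (2 : ℂ))]
        split_ifs <;> norm_num
      have e2 : (vA 2).map O.subtype + (-r8).2 * (vA 1).map O.subtype =
          Polynomial.C ((u : ℂ) / 4) * Polynomial.X ^ 6 := by
        have c1 : Polynomial.C (9 * (u : ℂ)) = Polynomial.C ((u : ℂ) / 4) * 36 := by
          rw [← map_ofNat Polynomial.C 36, ← map_mul]; congr 1; ring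
        have c2 : Polynomial.C (54 * (u : ℂ)) = Polynomial.C ((u : ℂ) / 4) * 216 := by
          rw [← map_ofNat Polynomial.C 216, ← map_mul]; congr 1; ring
        have c3 : Polynomial.C ((u : ℂ) / 8) * 2 = Polynomial.C ((u : ℂ) / 4) := by
          rw [← map_ofNat Polynomial.C 2, ← map_mul]; congr 1; ring
        simp [vA, hr8, y2, Polynomial.map_ofNat, Polynomial.smul_eq_C_mul, hX0m, -map_mul,
          -Polynomial.C_mul]
        rw [c1, c2]
        linear_combination (Polynomial.X ^ 6 - 36 * Polynomial.X ^ 3 + 216) * c3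
      rw [e1, e2, mul_pow, mul_pow, ← pow_mul, ← pow_mul, mul_mul_mul_comm, ← pow_add]
      refine dvd_mul_of_dvd_right (pow_dvd_pow _ ?_) _
      have := Finset.mem_range.mp ha
      omega
    have := Polynomial.X_pow_dvd_iff.mp key _ h30
    rw [Polynomial.coeff_map] at this
    exact Subtype.ext this
  have hB : MvPolynomial.eval vB N' = X0 ^ n' := by
    apply Polynomial.map_injective O.subtype Subtype.coe_injective
    rw [hev2, Finset.sum_eq_single 0]
    · simp [vB, hE0 0 rfl, Polynomial.map_pow]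
    · intro a _ ha
      simp [vB, zero_pow ha]
    · simp
  -- reduce modulo 2
  set I₂ : Ideal O := Ideal.span {2}
  set π₂ := Polynomial.mapRingHom (Ideal.Quotient.mk I₂)
  have h2 : (Ideal.Quotient.mk I₂) 2 = 0 :=
    Ideal.Quotient.eq_zero_iff_mem.mpr (Ideal.mem_span_singleton_self 2)
  have h2' : π₂ 2 = 0 := by
    rw [show (2 : Polynomial O) = Polynomial.C 2 from (map_ofNat Polynomial.C 2).symm]
    simp [π₂, h2]
  have heq : π₂ (MvPolynomial.eval vA N') = π₂ (MvPolynomial.eval vB N') := by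
    rw [← RingHom.comp_apply, ← RingHom.comp_apply]
    refine RingHom.congr_fun (MvPolynomial.ringHom_ext (fun r => by simp) fun i => ?_) N'
    rw [RingHom.comp_apply, RingHom.comp_apply, MvPolynomial.eval_X, MvPolynomial.eval_X]
    fin_cases i
    · show π₂ (6 * Polynomial.X) = π₂ 0
      rw [show (6 : Polynomial O) = 2 * 3 by norm_num, map_mul, map_mul, h2']
      simp
    · show π₂ 2 = π₂ 0
      rw [h2', map_zero]
    · rfl
  have hco := congrArg (fun P => Polynomial.coeff P (n' * 3)) heq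
  simp only [π₂, Polynomial.coe_mapRingHom, Polynomial.coeff_map, hA0, map_zero, hB] at hco
  rw [Polynomial.coeff_pow_of_natDegree_le (by rw [hX0]; compute_degree)] at hco
  have hX03 : X0.coeff 3 = ((9 * u : ℤ) : O) := by
    rw [hX0, Polynomial.coeff_sub, Polynomial.coeff_C_mul_X_pow, Polynomial.coeff_C]
    simp
  obtain ⟨v, hv⟩ : Odd (9 * u) := Odd.mul ⟨4, rfl⟩ huodd
  rw [hX03, hv, Int.cast_add, Int.cast_mul, Int.cast_ofNat, Int.cast_one, map_pow, map_add,
    map_mul, h2, zero_mul, zero_add, map_one, one_pow] at hco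
  obtain ⟨t, ht⟩ := Ideal.mem_span_singleton.mp
    (Ideal.Quotient.eq_zero_iff_mem.mp (hco.symm.trans rfl : Ideal.Quotient.mk I₂ (1 : O) = 0))
  refine half_not_mem_Opt hpodd ?_
  have := congrArg (fun z : O => (z : ℂ)) ht
  rw [show (1 / 2 : ℂ) = (t : ℂ) by
    push_cast at this
    rw [show ((2 : O) : ℂ) = 2 from map_ofNat O.subtype 2] at this
    linear_combination (1 / 2 : ℂ) * this]
  exact t.2

end FA.Eis
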