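import Fermat.Agent.Eisenstein.WeightShift
import Fermat.Agent.Eisenstein.TwoAdic
import Fermat.Prelude.Def_ModularCurve_ModularUnit

/-!
# The congruence modulus divides the Eisenstein numerator
-/

set_option autoImplicit false

noncomputable section

open UpperHalfPlane hiding I
open Complex Filter Function Topology PowerSeries CongruenceSubgroup
open scoped Real MatrixGroups ModularForm

namespace FA.Eis

theorem CongData.dvd_numerator {p M : ℕ} [hp : Fact p.Prime] {g : ℍ → ℂ} {G : PowerSeries ℤ}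
    (hg : CongData p M g G) : M ∣ ModularCurve.eisensteinNumerator p := by
  rcases Nat.lt_or_ge p 5 with h5 | h5
  · rw [hg.eq_one_of_lt_five h5]
    exact one_dvd _
  obtain ⟨d, hd⟩ : ∃ d, p + 1 = 2 * d := by
    obtain ⟨r, hr⟩ := hp.out.odd_of_ne_two (by omega)
    exact ⟨r + 1, by omega⟩
  have h : 24 * M ∣ (p - 1) * (p + 1) := by
    have := hg.dvd_succ h5
    rw [← Int.natCast_dvd_natCast, Nat.cast_mul (p - 1), Nat.cast_sub (by omega : 1 ≤ p)]
    exact_mod_cast this
  have hodd2 : 2 ∣ M → d % 2 = 1 := by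
    intro hM
    by_contra hd2
    apply hg.not_two_dvd (h8 := ?_) hM
    obtain ⟨e, rfl⟩ : ∃ e, d = 2 * e := ⟨d / 2, by omega⟩
    have h16 : 16 ∣ (p - 1) * (p + 1) := (Nat.dvd_trans (by
      obtain ⟨r, rfl⟩ := hM; exact ⟨3 * r, by ring⟩) h)
    rw [show (p - 1) * (p + 1) = 8 * ((2 * e - 1) * e) by
      rw [hd, show p - 1 = 2 * (2 * e - 1) by omega]; ring] at h16
    have h2 : 2 ∣ (2 * e - 1) * e := (Nat.mul_dvd_mul_iff_left (show 0 < 8 by norm_num)).mp h16
    rcases (Nat.Prime.dvd_mul Nat.prime_two).mp h2 with h' | h' <;> omega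
  have hco : Nat.Coprime M d := by
    refine Nat.coprime_of_dvd fun ℓ hℓ hℓM hℓd => ?_
    have hℓp : ℓ ∣ p + 1 := hd ▸ hℓd.mul_left 2
    rcases eq_or_ne ℓ 2 with rfl | h2
    · have := hodd2 hℓM
      omega
    rcases eq_or_ne ℓ 3 with rfl | h3
    · apply hg.not_nine_dvd_succ hℓM
      have h9 : 9 ∣ (p - 1) * (p + 1) := (Nat.dvd_trans (by
        obtain ⟨r, rfl⟩ := hℓM; exact ⟨8 * r, by ring⟩) h)
      refine (Nat.Coprime.dvd_mul_left ?_).mp h9
      have : ¬3 ∣ p - 1 := by omega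
      exact Nat.Coprime.pow_left 2 ((Nat.Prime.coprime_iff_not_dvd Nat.prime_three).mpr this)
    haveI : Fact ℓ.Prime := ⟨hℓ⟩
    refine hg.not_dvd_succ_of_five ?_ hℓM hℓp
    have := hℓ.two_le
    rcases eq_or_ne ℓ 4 with rfl | h4
    · exact absurd hℓ (by decide)
    · omega
  rw [hd] at h
  have h12 : 12 * M ∣ (p - 1) * d := by
    apply (Nat.mul_dvd_mul_iff_left (show 0 < 2 by norm_num)).mp
    rw [show 2 * (12 * M) = 24 * M by ring, show 2 * ((p - 1) * d) = (p - 1) * (2 * d) by ring]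
    exact h
  set g' := Nat.gcd (p - 1) 12 with hg'
  have hg0 : 0 < g' := Nat.gcd_pos_of_pos_right _ (by norm_num)
  have hn : g' * ModularCurve.eisensteinNumerator p = p - 1 := by
    rw [ModularCurve.eisensteinNumerator, ← hg', Nat.mul_div_cancel' (Nat.gcd_dvd_left _ _)]
  rw [← hn, mul_assoc] at h12
  have h1 : g' * M ∣ g' * (ModularCurve.eisensteinNumerator p * d) :=
    Nat.dvd_trans (Nat.mul_dvd_mul_right (Nat.gcd_dvd_right _ _) M) h12
  exact hco.dvd_of_dvd_mul_right ((Nat.mul_dvd_mul_iff_left hg0).mp h1)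

/-- An integral cusp form congruent to the Eisenstein series modulo `M` forces `M ∣ n`. -/
theorem dvd_numerator_of_congr {p M : ℕ} [Fact p.Prime] (F : CuspForm (Gamma0 p) 2)
    (A : PowerSeries ℤ) (hA : HasQ 1 ⇑F (toC A))
    (hcong : ∀ m : ℕ, 1 ≤ m → (M : ℤ) ∣ coeff m A - sigP p m) :
    M ∣ ModularCurve.eisensteinNumerator p :=
  (exists_congData F A hA hcong).choose_spec.dvd_numerator

end FA.Eis
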