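import Fermat.Agent.Eisenstein.SeriesMod

/-!
# The congruence modulus is prime to `p + 1` at the odd primes

If `L ∈ {ℓ ≥ 5, 9}` divided both `24 M` and `p + 1`, a level one form with unit linear coefficient
would be congruent mod `L` to a form of weight two more; this is impossible.
-/

set_option autoImplicit false

noncomputable section

open UpperHalfPlane hiding I
open Complex Filter Function Topology PowerSeries CongruenceSubgroup
open scoped Real MatrixGroups ModularForm

namespace FA.Eis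

theorem coeff_zero_Dz_pow {m : ℕ} (hm : m ≠ 0) : coeff 0 (Dz ^ m) = 0 := by
  rw [coeff_zero_eq_constantCoeff_apply, map_pow, constantCoeff_Dz, zero_pow hm]

theorem coeff_self_Dz_pow (m : ℕ) : coeff m (Dz ^ m) = 1 := by
  obtain ⟨u, hu⟩ : (PowerSeries.X : PowerSeries ℤ) ∣ Dz :=
    PowerSeries.X_dvd_iff.mpr constantCoeff_Dz
  have h1 : constantCoeff u = 1 := by
    rw [← coeff_zero_eq_constantCoeff_apply, ← PowerSeries.coeff_succ_X_mul 0 u, ← hu, coeff_one_Dz]
  rw [hu, mul_pow, PowerSeries.coeff_X_pow_mul', if_pos le_rfl, Nat.sub_self,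
    coeff_zero_eq_constantCoeff_apply, map_pow, h1, one_pow]

variable {p M : ℕ} [Fact p.Prime] {g : ℍ → ℂ} {G : PowerSeries ℤ}

/-- The congruence between forms of weights `12p` and `12p + 2`. -/
theorem CongData.exists_shift (hg : CongData p M g G) {L : ℕ} (hL : L ∣ 24 * M)
    (hp1 : L ∣ p + 1) :
    ∃ X Y : Polynomial (ZMod L), Y.coeff 1 = 2 ∧
      red L Rz * Polynomial.aeval (tL L) X = red L Qz * Polynomial.aeval (tL L) Y := by
  have hp : (p : ZMod L) = -1 := by
    rw [eq_neg_iff_add_eq_zero]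
    exact_mod_cast (ZMod.natCast_eq_zero_iff (p + 1) L).mpr hp1
  have hpp : p.Prime := Fact.out
  have hk : Even (12 * p) := ⟨6 * p, by ring⟩
  have hH : IsLv 1 ((12 * p : ℕ) : ℤ) (Δf ^ p) :=
    (isLv_discriminant.pow p).congr_weight (by push_cast; ring)
  have hHQ : HasQ 1 (Δf ^ p) (toC (Dz ^ p)) := by
    rw [map_pow]; exact hasQ_discriminant.pow one_pos p
  obtain ⟨P, hP, hPQ⟩ := hg.exists_Pz hk hH hHQ
  obtain ⟨F, hF, hFQ⟩ := exists_F0 (p := p) hk hH hHQ
  obtain ⟨μ, hμ⟩ := exists_normal_int (a := 2) (b := 1) (c := p - 1) (by omega)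
    (by push_cast [Nat.cast_sub hpp.one_le]; ring) hP hPQ
  obtain ⟨lam, hlam⟩ := exists_normal_int (a := 0) (b := 0) (c := p) (by omega)
    (by push_cast; ring) hF hFQ
  have h1 := congrArg (red L) hμ
  have h2 := congrArg (red L) hlam
  rw [red_normal] at h1 h2
  rw [pow_one] at h1
  rw [pow_zero, mul_one, zero_add] at h2
  set X := polyL L μ (p - 1)
  set Y₀ := polyL L lam p
  have hrel : red L (Pz p (12 * p) G (Dz ^ p)) = C (-2) * red L (F0z p (12 * p) (Dz ^ p)) := by
    rw [red, hg.map_Pz hL, F0z, map_add, map_mul, map_mul, PowerSeries.map_C, PowerSeries.map_C,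
      map_Vp, map_Up]
    simp only [eq_intCast, Int.cast_pow, Int.cast_natCast, hp, hk.neg_one_pow, map_one, one_mul,
      map_neg, neg_mul]
    rw [show ((-1 : ZMod L) - 1) = -2 by ring, map_neg, neg_mul, sub_eq_add_neg]
  rw [h1, h2] at hrel
  refine ⟨X, Polynomial.C (-2) * Y₀, ?_, ?_⟩
  · have hV : ∀ n, coeff n (F0z p (12 * p) (Dz ^ p)) =
        (p : ℤ) ^ (12 * p) * coeff n (Vp p (Dz ^ p)) + (p : ℤ) * coeff (n * p) (Dz ^ p) := fun n => by
      rw [F0z, map_add, coeff_C_mul, coeff_C_mul, coeff_Up]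
    have e0 := congrArg (coeff 0) h2
    rw [coeff_map, hV, zero_mul, coeff_Vp, if_pos (dvd_zero p), Nat.zero_div,
      coeff_zero_Dz_pow hpp.ne_zero, coeff_zero_eq_constantCoeff_apply, map_mul, map_pow,
      constantCoeff_red_Qz, one_pow, one_mul, constantCoeff_aeval constantCoeff_tL] at e0
    have e0' : Y₀.coeff 0 = 0 := by simpa using e0.symm
    have e1 := congrArg (coeff 1) h2
    rw [coeff_map, hV, one_mul, coeff_Vp, if_neg (not_dvd_one_p p), coeff_self_Dz_pow, mul_zero,
      zero_add, mul_one, PowerSeries.coeff_one_mul, constantCoeff_aeval constantCoeff_tL, e0',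
      mul_zero, zero_add, map_pow constantCoeff, constantCoeff_red_Qz, one_pow, mul_one,
      coeff_one_aeval constantCoeff_tL coeff_one_tL, eq_intCast, Int.cast_natCast, hp] at e1
    rw [Polynomial.coeff_C_mul]
    linear_combination (2 : ZMod L) * e1
  · rw [map_mul, Polynomial.aeval_C, PowerSeries.algebraMap_apply, Algebra.algebraMap_self,
      RingHom.id_apply]
    have hQ := red_Qz_isUnit (L := L)
    apply (hQ.pow (3 * p - 1)).mul_left_cancel
    rw [show 2 + 3 * (p - 1) = 3 * p - 1 by have := hpp.one_le; omega] at hrel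
    rw [show red L Qz ^ (3 * p) = red L Qz ^ (3 * p - 1) * red L Qz by
      rw [← pow_succ]; congr 1; have := hpp.one_le; omega] at hrel
    linear_combination hrel

/-- No prime `ℓ ≥ 5` divides both the modulus and `p + 1`. -/
theorem CongData.not_dvd_succ_of_five (hg : CongData p M g G) {ℓ : ℕ} [hℓ : Fact ℓ.Prime]
    (h5 : 5 ≤ ℓ) (hM : ℓ ∣ M) : ¬ℓ ∣ p + 1 := by
  intro hp1
  obtain ⟨X, Y, hY, hXY⟩ := hg.exists_shift (hM.mul_left 24) hp1
  obtain ⟨a, b, c, B, Φ, ha, hb, habc, hB, hΦd, hΦ⟩ := exists_hasse h5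
  set q := red ℓ Qz with hq
  set r := red ℓ Rz with hr
  set t := tL ℓ with ht
  set qi := PowerSeries.invOfUnit q 1 with hqi
  have hqq : q * qi = 1 := red_Qz_mul_inv
  set S : Polynomial (ZMod ℓ) := 1 - Polynomial.C (1728 : ZMod ℓ) * Polynomial.X with hS
  set e := a + 3 * c + b with he
  set m := (ℓ - 1) / 2 with hm
  have hm' : m = 2 * (a + 3 * c) + 3 * b := by omega
  have hW2 : (r * qi) ^ 2 = q * Polynomial.aeval t S := by
    have h := congrArg (red ℓ) Qz_cube_sub_Rz_sq
    rw [map_sub, map_pow, map_pow, map_mul, map_ofNat, red_Dz_eq, ← hq, ← hr, ← ht] at h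
    rw [hS, map_sub, map_one, map_mul, Polynomial.aeval_X, Polynomial.aeval_C, map_ofNat]
    linear_combination (-(qi ^ 2)) * h + (1 - 1728 * t) * q * (q * qi + 1) * hqq
  have hX : r * qi * Polynomial.aeval t X = Polynomial.aeval t Y := by
    linear_combination qi * hXY + Polynomial.aeval t Y * hqq
  have hΦ' : (r * qi) ^ m * Polynomial.aeval t Φ = C B * Polynomial.aeval t S ^ e := by
    calc (r * qi) ^ m * Polynomial.aeval t Φ
        = ((r * qi) ^ 2) ^ e * (r * qi) ^ b * Polynomial.aeval t Φ := by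
          rw [← pow_mul, ← pow_add, show 2 * e + b = m by omega]
      _ = Polynomial.aeval t S ^ e * (q ^ (a + 3 * c) * r ^ b * Polynomial.aeval t Φ) *
            (q * qi) ^ b := by
          rw [hW2, he, pow_add q (a + 3 * c) b |> fun h => (show (q * Polynomial.aeval t S) ^
            (a + 3 * c + b) = q ^ (a + 3 * c) * q ^ b * Polynomial.aeval t S ^ (a + 3 * c + b) by
              rw [mul_pow, h])]
          ring
      _ = C B * Polynomial.aeval t S ^ e := by rw [hqq, one_pow, mul_one, hΦ, mul_comm]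
  have hpoly : Y ^ m * Φ = Polynomial.C B * S ^ e * X ^ m := by
    refine sub_eq_zero.mp (aeval_eq_zero constantCoeff_tL coeff_one_tL _ ?_)
    rw [map_sub, map_mul, map_mul, map_mul, map_pow, map_pow, map_pow, Polynomial.aeval_C,
      PowerSeries.algebraMap_apply, Algebra.algebraMap_self, RingHom.id_apply, ← ht, ← hX, ← hΦ',
      sub_eq_zero]
    ring
  have h2 : (2 : ZMod ℓ) ≠ 0 := by
    intro h
    have := (ZMod.natCast_eq_zero_iff 2 ℓ).mp (by exact_mod_cast h)
    have := Nat.le_of_dvd (by norm_num) this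
    omega
  have hYne : Y ≠ 0 := fun h => h2 (by rw [← hY, h, Polynomial.coeff_zero])
  have hXne : X ≠ 0 := fun h => hYne (aeval_eq_zero constantCoeff_tL coeff_one_tL _ (by
    rw [← hX, h, map_zero, mul_zero]))
  have h1728 : (1728 : ZMod ℓ) ≠ 0 := by
    intro h
    have h' := (ZMod.natCast_eq_zero_iff 1728 ℓ).mp (by exact_mod_cast h)
    rw [show 1728 = 2 ^ 6 * 3 ^ 3 by norm_num] at h'
    rcases (Nat.Prime.dvd_mul hℓ.out).mp h' with h' | h' <;>
    · have := Nat.le_of_dvd (by norm_num) (hℓ.out.dvd_of_dvd_pow h')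
      omega
  set x : ZMod ℓ := (1728 : ZMod ℓ)⁻¹ with hx
  have hSx : S = Polynomial.C (-(1728 : ZMod ℓ)) * (Polynomial.X - Polynomial.C x) := by
    rw [hS, mul_sub, ← map_mul, hx, neg_mul, mul_inv_cancel₀ h1728, map_neg, map_neg, map_one]
    ring
  have hΦne : Φ ≠ 0 := by
    intro h
    rw [h, map_zero, mul_zero] at hΦ
    exact hB (by simpa using congrArg constantCoeff hΦ.symm)
  have hmul : ∀ (Z : Polynomial (ZMod ℓ)) (n : ℕ), Z ≠ 0 →
      (Z ^ n).rootMultiplicity x = n * Z.rootMultiplicity x := by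
    intro Z n hZ
    induction n with
    | zero => rw [pow_zero, zero_mul, ← Polynomial.C_1, Polynomial.rootMultiplicity_C]
    | succ n ih =>
      rw [pow_succ, Polynomial.rootMultiplicity_mul (mul_ne_zero (pow_ne_zero _ hZ) hZ), ih]
      ring
  have hSne : S ^ e ≠ 0 := pow_ne_zero _ (by
    rw [hSx]; exact mul_ne_zero (by simpa using h1728) (Polynomial.X_sub_C_ne_zero x))
  have hval := congrArg (Polynomial.rootMultiplicity x) hpoly
  rw [Polynomial.rootMultiplicity_mul (mul_ne_zero (pow_ne_zero _ hYne) hΦne), hmul _ _ hYne,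
    Polynomial.rootMultiplicity_mul (mul_ne_zero (mul_ne_zero (by simpa using hB) hSne)
      (pow_ne_zero _ hXne)), hmul _ _ hXne,
    Polynomial.rootMultiplicity_mul (mul_ne_zero (by simpa using hB) hSne),
    Polynomial.rootMultiplicity_C, zero_add, hSx, mul_pow, ← map_pow,
    Polynomial.rootMultiplicity_mul (mul_ne_zero (by simpa using pow_ne_zero e (neg_ne_zero.mpr h1728))
      (pow_ne_zero _ (Polynomial.X_sub_C_ne_zero x))),
    Polynomial.rootMultiplicity_C, zero_add, Polynomial.rootMultiplicity_X_sub_C_pow] at hval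
  have hμ : Φ.rootMultiplicity x ≤ c := by
    have h := Polynomial.natDegree_le_of_dvd (Polynomial.pow_rootMultiplicity_dvd Φ x) hΦne
    rw [Polynomial.natDegree_pow, Polynomial.natDegree_X_sub_C, mul_one] at h
    omega
  rcases Nat.lt_or_ge (X.rootMultiplicity x) (Y.rootMultiplicity x) with h | h
  · have := Nat.mul_le_mul_left m h
    rw [Nat.succ_eq_add_one, mul_add, mul_one] at this
    omega
  · have := Nat.mul_le_mul_left m h
    omega

/-- `9` cannot divide `p + 1` when `3` divides the modulus. -/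
theorem CongData.not_nine_dvd_succ (hg : CongData p M g G) (hM : 3 ∣ M) : ¬9 ∣ p + 1 := by
  intro hp1
  obtain ⟨X, Y, hY, hXY⟩ := hg.exists_shift
    ((show 9 ∣ 24 * 3 by norm_num).trans (Nat.mul_dvd_mul_left 24 hM)) hp1
  set A := red 9 (sigmaSeries 3) with hA
  have h9 : (9 : PowerSeries (ZMod 9)) = 0 := by
    rw [show (9 : PowerSeries (ZMod 9)) = C 9 from (map_ofNat C 9).symm,
      show (9 : ZMod 9) = 0 from rfl, map_zero]
  have hq : red 9 Qz = 1 + 6 * A := by
    rw [Qz, map_add, map_one, map_mul, map_ofNat]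
    linear_combination (26 * A) * h9
  have hr : red 9 Rz = 1 := by
    rw [Rz, map_sub, map_one, map_mul, map_ofNat]
    linear_combination (-56 * red 9 (sigmaSeries 5)) * h9
  have ht : tL 9 = red 9 Dz := by
    have h3 : red 9 Qz ^ 3 = 1 := by
      rw [hq]; linear_combination (2 * A + 12 * A ^ 2 + 24 * A ^ 3) * h9
    have := red_Dz_eq (L := 9)
    rw [h3, mul_one] at this
    exact this.symm
  rw [hr, one_mul, hq] at hXY
  -- modulo `3`
  set κ : ZMod 9 →+* ZMod 3 := ZMod.castHom (by norm_num) (ZMod 3)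
  have hκred : ∀ A : PowerSeries ℤ, PowerSeries.map κ (red 9 A) = red 3 A := fun A => by
    ext n
    simp [red]
  have ht3 : PowerSeries.map κ (tL 9) = red 3 Dz := by rw [ht, hκred]
  have hD1 : coeff 1 (red 3 Dz) = 1 := by rw [red, coeff_map, coeff_one_Dz, map_one]
  have hD0 : constantCoeff (red 3 Dz) = 0 := by
    rw [red, ← coeff_zero_eq_constantCoeff_apply, coeff_map, coeff_zero_eq_constantCoeff_apply,
      constantCoeff_Dz, map_zero]
  have hsub : (X - Y).map κ = 0 := by
    apply aeval_eq_zero hD0 hD1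
    rw [← ht3, ← map_aeval, map_sub, hXY,
      show (1 + 6 * A) * Polynomial.aeval (tL 9) Y - Polynomial.aeval (tL 9) Y =
        6 * A * Polynomial.aeval (tL 9) Y by ring, map_mul, map_mul, map_ofNat,
      show (6 : PowerSeries (ZMod 3)) = C 6 from (map_ofNat C 6).symm,
      show (6 : ZMod 3) = 0 from rfl, map_zero, zero_mul, zero_mul]
  have h93 : ∀ x : ZMod 9, κ x = 0 → (3 : ZMod 9) ∣ x := by
    intro x hx
    have : ∀ x : ZMod 9, κ x = 0 → ∃ y, x = 3 * y := by decide
    exact this x hx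
  obtain ⟨Z, hZ⟩ : Polynomial.C (3 : ZMod 9) ∣ X - Y := by
    rw [Polynomial.C_dvd_iff_dvd_coeff]
    intro n
    refine h93 _ ?_
    rw [← Polynomial.coeff_map, hsub, Polynomial.coeff_zero]
  have h3 : (3 : PowerSeries (ZMod 9)) *
      (Polynomial.aeval (tL 9) Z - 2 * A * Polynomial.aeval (tL 9) Y) = 0 := by
    have := congrArg (Polynomial.aeval (tL 9)) hZ
    rw [map_sub, map_mul, Polynomial.aeval_C, map_ofNat] at this
    linear_combination hXY - this
  have h4 : PowerSeries.map κ
      (Polynomial.aeval (tL 9) Z - 2 * A * Polynomial.aeval (tL 9) Y) = 0 := by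
    ext n
    have := congrArg (coeff n) h3
    rw [show (3 : PowerSeries (ZMod 9)) = C 3 from (map_ofNat C 3).symm, coeff_C_mul, map_zero] at this
    rw [coeff_map, map_zero]
    have h : ∀ x : ZMod 9, 3 * x = 0 → κ x = 0 := by decide
    exact h _ this
  rw [map_sub, map_mul, map_mul, map_ofNat, map_aeval, map_aeval, ht3, hκred] at h4
  set T := red 3 (sigmaSeries 3)
  set P := Polynomial.C (2 : ZMod 3) * Z.map κ with hPdef
  set Y' := Y.map κ
  have hAY : T * Polynomial.aeval (red 3 Dz) Y' = Polynomial.aeval (red 3 Dz) P := by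
    rw [hPdef, map_mul, Polynomial.aeval_C, map_ofNat]
    have h30 : (3 : PowerSeries (ZMod 3)) = 0 := by
      rw [show (3 : PowerSeries (ZMod 3)) = C 3 from (map_ofNat C 3).symm,
        show (3 : ZMod 3) = 0 from rfl, map_zero]
    linear_combination (-2) * h4 - (T * Polynomial.aeval (red 3 Dz) Y') * h30
  have hkey : Polynomial.X * Y' ^ 3 = P * Y' ^ 2 - P ^ 3 := by
    refine sub_eq_zero.mp (aeval_eq_zero hD0 hD1 _ ?_)
    simp only [map_sub, map_mul, map_pow, Polynomial.aeval_X, ← hAY]
    have hT : red 3 Dz = T - T ^ 3 := red_three_Dz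
    generalize Polynomial.aeval (red 3 Dz) Y' = u
    rw [hT]
    ring
  have hY' : Y' ≠ 0 := fun h => by
    have := congrArg (fun P => Polynomial.coeff P 1) h
    simp only [Y', Polynomial.coeff_map, hY, Polynomial.coeff_zero] at this
    exact absurd this (by decide)
  have hdeg := congrArg Polynomial.natDegree hkey
  rw [Polynomial.natDegree_mul Polynomial.X_ne_zero (pow_ne_zero _ hY'), Polynomial.natDegree_X,
    Polynomial.natDegree_pow] at hdeg
  have h1 : (P * Y' ^ 2).natDegree ≤ P.natDegree + 2 * Y'.natDegree :=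
    Polynomial.natDegree_mul_le.trans (Nat.add_le_add_left Polynomial.natDegree_pow_le _)
  rcases Nat.lt_or_ge Y'.natDegree P.natDegree with h | h
  · rw [Polynomial.natDegree_sub_eq_right_of_natDegree_lt (by rw [Polynomial.natDegree_pow]; omega),
      Polynomial.natDegree_pow] at hdeg
    omega
  · have h2 : (P * Y' ^ 2 - P ^ 3).natDegree ≤ 3 * Y'.natDegree :=
      (Polynomial.natDegree_sub_le _ _).trans (max_le (by omega)
        (by rw [Polynomial.natDegree_pow]; omega))
    omega

end FA.Eis
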