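import Fermat.Agent.Eisenstein.Slash

/-!
# The quasi-periodic function `Z(w, τ)`

`Z(w, τ)` is the Eisenstein-summed logarithmic derivative of the odd theta function.
We prove `Z(w/(cτ+d), Aτ) = (cτ+d) Z(w, τ) + 2πi c w`.
-/

set_option autoImplicit false

noncomputable section

open UpperHalfPlane hiding I
open Complex Filter Function Topology Asymptotics Set
open scoped Real MatrixGroups

namespace FA.Eis

/-- `x/(x-1)`. -/
def rr (x : ℂ) : ℂ := x / (x - 1)

/-- `exp (2πi w)`. -/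
def eu (w : ℂ) : ℂ := exp (2 * π * I * w)

@[simp] theorem eu_zero : eu 0 = 1 := by simp [eu]

theorem eu_ne_zero (w : ℂ) : eu w ≠ 0 := exp_ne_zero _

theorem eu_add (v w : ℂ) : eu (v + w) = eu v * eu w := by rw [eu, eu, eu, ← exp_add]; ring_nf

theorem eu_neg (w : ℂ) : eu (-w) = (eu w)⁻¹ := by rw [eu, eu, mul_neg, exp_neg]

@[simp] theorem eu_intCast (n : ℤ) : eu n = 1 := by
  rw [eu, mul_comm]; exact exp_int_mul_two_pi_mul_I n

@[simp] theorem eu_one : eu 1 = 1 := by simpa using eu_intCast 1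

theorem eu_int_mul (n : ℤ) (w : ℂ) : eu (n * w) = eu w ^ n := by
  rw [eu, eu, ← exp_int_mul]; ring_nf

theorem eu_nat_mul (n : ℕ) (w : ℂ) : eu (n * w) = eu w ^ n := by
  have := eu_int_mul n w
  rw [zpow_natCast] at this
  exact_mod_cast this

theorem differentiable_eu : Differentiable ℂ eu := by unfold eu; fun_prop

theorem eu_eq_one_iff (w : ℂ) : eu w = 1 ↔ ∃ n : ℤ, w = n := by
  rw [eu, exp_eq_one_iff]
  refine exists_congr fun n => ?_
  rw [show (n : ℂ) * (2 * π * I) = 2 * π * I * n by ring,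
    mul_right_inj' two_pi_I_ne_zero]

/-- The nome. -/
abbrev qq (τ : ℍ) : ℂ := eu τ

theorem norm_qq_lt_one (τ : ℍ) : ‖qq τ‖ < 1 :=
  UpperHalfPlane.norm_exp_two_pi_I_lt_one τ

/-- The regular part of `Z`. -/
def Zreg (w : ℂ) (τ : ℍ) : ℂ :=
  ∑' n : ℕ, (rr (eu w * qq τ ^ (n + 1)) - rr (qq τ ^ (n + 1) / eu w))

/-- The singular part of `Z`. -/
def Zhead (w : ℂ) : ℂ := (eu w + 1) / (eu w - 1)

/-- `Z(w, τ)`. -/
def Zf (w : ℂ) (τ : ℍ) : ℂ := π * I * (Zhead w + 2 * Zreg w τ)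

/-- `w` is not in the lattice `ℤτ + ℤ`. -/
def OffL (τ : ℍ) (w : ℂ) : Prop := ∀ m : ℤ, eu w * qq τ ^ m ≠ 1

theorem not_offL_iff (τ : ℍ) (w : ℂ) : ¬OffL τ w ↔ ∃ m n : ℤ, w = m * τ + n := by
  unfold OffL
  push_neg
  constructor
  · rintro ⟨m, hm⟩
    rw [qq, ← eu_int_mul, ← eu_add, eu_eq_one_iff] at hm
    obtain ⟨n, hn⟩ := hm
    exact ⟨-m, n, by push_cast; linear_combination hn⟩
  · rintro ⟨m, n, rfl⟩
    exact ⟨-m, by rw [qq, ← eu_int_mul, ← eu_add, eu_eq_one_iff]; exact ⟨n, by push_cast; ring⟩⟩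

/-- The coordinates of `w` in the basis `τ, 1`. -/
def latX (τ : ℍ) (w : ℂ) : ℝ := w.im / τ.im

/-- See `latX`. -/
def latY (τ : ℍ) (w : ℂ) : ℝ := w.re - latX τ w * τ.re

theorem eq_lat_combination (τ : ℍ) (w : ℂ) : w = latX τ w * (τ : ℂ) + latY τ w := by
  have := τ.im_ne_zero
  apply Complex.ext <;> simp [latX, latY] <;> field_simp

theorem lat_intCast (τ : ℍ) (m n : ℤ) :
    latX τ (m * τ + n) = m ∧ latY τ (m * τ + n) = n := by
  have := τ.im_ne_zero
  have h1 : latX τ (m * τ + n) = m := by simp [latX, this]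
  refine ⟨h1, ?_⟩
  simp [latY, h1]

theorem isOpen_offL (τ : ℍ) : IsOpen {w | OffL τ w} := by
  have hc : IsClosed ((fun w => (latX τ w, latY τ w)) ⁻¹'
      (range ((↑) : ℤ → ℝ) ×ˢ range ((↑) : ℤ → ℝ))) :=
    IsClosed.preimage (by unfold latY latX; fun_prop)
      (Int.isClosedEmbedding_coe_real.isClosed_range.prod
        Int.isClosedEmbedding_coe_real.isClosed_range)
  convert hc.isOpen_compl using 1
  ext w
  rw [mem_setOf_eq, mem_compl_iff, iff_not_comm, not_offL_iff, mem_preimage, mem_prod]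
  constructor
  · rintro ⟨⟨m, hm⟩, ⟨n, hn⟩⟩
    refine ⟨m, n, ?_⟩
    conv_lhs => rw [eq_lat_combination τ w]
    dsimp only at hm hn
    rw [← hm, ← hn]
    push_cast
    rfl
  · rintro ⟨m, n, rfl⟩
    exact ⟨⟨m, (lat_intCast τ m n).1.symm⟩, ⟨n, (lat_intCast τ m n).2.symm⟩⟩

theorem offL_neg {τ : ℍ} {w : ℂ} (h : OffL τ w) : OffL τ (-w) := by
  by_contra h'
  obtain ⟨m, n, hmn⟩ := (not_offL_iff τ _).mp h'
  exact (not_offL_iff τ w).mpr ⟨-m, -n, by push_cast; linear_combination -hmn⟩ h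

theorem offL_add_lattice {τ : ℍ} {w : ℂ} (h : OffL τ w) (m n : ℤ) :
    OffL τ (w + (m * τ + n)) := by
  by_contra h'
  obtain ⟨a, b, hab⟩ := (not_offL_iff τ _).mp h'
  exact (not_offL_iff τ w).mpr ⟨a - m, b - n, by push_cast; linear_combination hab⟩ h

theorem norm_rr_le {x : ℂ} (h : ‖x‖ ≤ 1 / 2) : ‖rr x‖ ≤ 2 * ‖x‖ := by
  have h1 : 1 / 2 ≤ ‖x - 1‖ := by
    have := norm_sub_norm_le (1 : ℂ) x
    rw [norm_one, norm_sub_rev] at this
    linarith
  rw [rr, norm_div, div_le_iff₀ (by linarith)]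
  nlinarith [norm_nonneg x]

theorem rr_add_rr_inv {u : ℂ} (h0 : u ≠ 0) (h1 : u ≠ 1) : rr u + rr u⁻¹ = 1 := by
  have h2 : u - 1 ≠ 0 := sub_ne_zero.mpr h1
  have h3 : (1 : ℂ) - u ≠ 0 := sub_ne_zero.mpr h1.symm
  rw [rr, rr, show u⁻¹ - 1 = (1 - u) / u by field_simp]
  field_simp
  ring

theorem two_rr_sub_one {u : ℂ} (h1 : u ≠ 1) : (u + 1) / (u - 1) = 2 * rr u - 1 := by
  have h2 : u - 1 ≠ 0 := sub_ne_zero.mpr h1
  rw [rr]
  field_simp
  ring

theorem summable_rr_mul_pow (c : ℂ) (τ : ℍ) : Summable fun n : ℕ => rr (c * qq τ ^ n) := by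
  refine Summable.of_norm_bounded_eventually_nat (g := fun n => 2 * ‖c‖ * ‖qq τ‖ ^ n)
    ((summable_geometric_of_lt_one (norm_nonneg _) (norm_qq_lt_one τ)).mul_left _) ?_
  have h : Tendsto (fun n => ‖c * qq τ ^ n‖) atTop (𝓝 0) := by
    simpa using ((tendsto_pow_atTop_nhds_zero_of_norm_lt_one (norm_qq_lt_one τ)).const_mul c).norm
  filter_upwards [h.eventually_le_const (show (0 : ℝ) < 1 / 2 by norm_num)] with n hn
  calc ‖rr (c * qq τ ^ n)‖ ≤ 2 * ‖c * qq τ ^ n‖ := norm_rr_le hn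
    _ = 2 * ‖c‖ * ‖qq τ‖ ^ n := by rw [norm_mul, norm_pow, mul_assoc]

theorem summable_rr_succ (c : ℂ) (τ : ℍ) : Summable fun n : ℕ => rr (c * qq τ ^ (n + 1)) :=
  (summable_nat_add_iff (f := fun n => rr (c * qq τ ^ n)) 1).mpr (summable_rr_mul_pow c τ)

theorem Zreg_eq_sub (w : ℂ) (τ : ℍ) :
    Zreg w τ = ∑' n : ℕ, rr (eu w * qq τ ^ (n + 1)) -
      ∑' n : ℕ, rr ((eu w)⁻¹ * qq τ ^ (n + 1)) := by
  rw [Zreg, ← (summable_rr_succ _ τ).tsum_sub (summable_rr_succ _ τ)]
  exact tsum_congr fun n => by rw [div_eq_inv_mul]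

theorem Zf_add_one (w : ℂ) (τ : ℍ) : Zf (w + 1) τ = Zf w τ := by
  simp [Zf, Zhead, Zreg, eu_add]

theorem Zf_neg (w : ℂ) (τ : ℍ) : Zf (-w) τ = -Zf w τ := by
  have hu := eu_ne_zero w
  have h1 : Zhead (-w) = -Zhead w := by
    rw [Zhead, Zhead, eu_neg]
    rcases eq_or_ne (eu w) 1 with h | h
    · simp [h]
    · have h2 : eu w - 1 ≠ 0 := sub_ne_zero.mpr h
      have h3 : 1 - eu w ≠ 0 := sub_ne_zero.mpr h.symm
      rw [show (eu w)⁻¹ - 1 = (1 - eu w) / eu w by field_simp,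
        show (eu w)⁻¹ + 1 = (1 + eu w) / eu w by field_simp]
      field_simp
      ring
  rw [Zf, Zf, h1, Zreg_eq_sub, Zreg_eq_sub, eu_neg, inv_inv]
  ring

theorem Zf_zero (τ : ℍ) : Zf 0 τ = 0 := by simp [Zf, Zhead, Zreg]

theorem Zf_add_self {τ : ℍ} {w : ℂ} (h : OffL τ w) :
    Zf (w + τ) τ = Zf w τ - 2 * π * I := by
  have hu := eu_ne_zero w
  have hq : qq τ ≠ 0 := eu_ne_zero _
  have hu1 : eu w ≠ 1 := by simpa using h 0
  have huq : eu w * qq τ ≠ 1 := by simpa using h 1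
  have hA := (summable_rr_succ (eu w) τ).tsum_eq_zero_add
  have hB := (summable_rr_mul_pow (eu w)⁻¹ τ).tsum_eq_zero_add
  have e1 : (fun n : ℕ => rr (eu (w + τ) * qq τ ^ (n + 1))) =
      fun n : ℕ => rr (eu w * qq τ ^ (n + 1 + 1)) := by
    funext n; rw [eu_add, pow_succ' _ (n + 1)]; ring_nf
  have e2 : (fun n : ℕ => rr ((eu (w + τ))⁻¹ * qq τ ^ (n + 1))) =
      fun n : ℕ => rr ((eu w)⁻¹ * qq τ ^ n) := by
    funext n
    rw [eu_add, show (eu w * qq τ)⁻¹ * qq τ ^ (n + 1) = (eu w)⁻¹ * qq τ ^ n from by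
      rw [pow_succ]; field_simp]
  rw [Zf, Zf, Zreg_eq_sub, Zreg_eq_sub, e1, e2, hA, hB]
  simp only [Zhead, eu_add, pow_zero, mul_one, zero_add, pow_one]
  rw [two_rr_sub_one hu1, two_rr_sub_one huq]
  linear_combination (-2 * (π : ℂ) * I) * rr_add_rr_inv hu hu1

/-- The regular part is differentiable where no term has a pole. -/
theorem differentiableAt_Zreg (τ : ℍ) {w : ℂ}
    (h : ∀ n : ℕ, eu w * qq τ ^ (n + 1) ≠ 1 ∧ qq τ ^ (n + 1) / eu w ≠ 1) :
    DifferentiableAt ℂ (fun v => Zreg v τ) w := by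
  -- a bound for `‖eu‖` and its inverse near `w`
  set C := max ‖eu w‖ ‖(eu w)⁻¹‖ + 1 with hC
  have hCpos : 0 < C := by positivity
  have hev : ∀ᶠ v in 𝓝 w, ‖eu v‖ < C ∧ ‖(eu v)⁻¹‖ < C := by
    have c1 : ContinuousAt (fun v => ‖eu v‖) w := differentiable_eu.continuous.norm.continuousAt
    have c2 : ContinuousAt (fun v => ‖(eu v)⁻¹‖) w :=
      ((differentiable_eu.continuous.continuousAt).inv₀ (eu_ne_zero w)).norm
    exact (c1.eventually_lt_const (lt_of_le_of_lt (le_max_left _ _) (lt_add_one _))).and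
      (c2.eventually_lt_const (lt_of_le_of_lt (le_max_right _ _) (lt_add_one _)))
  obtain ⟨U, hU, hUo, hwU⟩ := eventually_nhds_iff.mp hev
  obtain ⟨N, hN⟩ : ∃ N : ℕ, C * ‖qq τ‖ ^ N ≤ 1 / 2 := by
    have h := (tendsto_pow_atTop_nhds_zero_of_lt_one (norm_nonneg _) (norm_qq_lt_one τ)).const_mul C
    rw [mul_zero] at h
    exact (h.eventually_le_const (show (0 : ℝ) < 1 / 2 by norm_num)).exists
  set T : ℕ → ℂ → ℂ := fun n v => rr (eu v * qq τ ^ (n + 1)) - rr (qq τ ^ (n + 1) / eu v)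
  have hT : ∀ v, Zreg v τ = ∑ n ∈ Finset.range N, T n v + ∑' n, T (n + N) v := by
    intro v
    refine (Summable.sum_add_tsum_nat_add N ?_).symm
    refine ((summable_rr_succ (eu v) τ).sub (summable_rr_succ (eu v)⁻¹ τ)).congr fun n => ?_
    simp [T, div_eq_inv_mul]
  have hbound : ∀ (n : ℕ) (v : ℂ), v ∈ U →
      ‖eu v * qq τ ^ (n + N + 1)‖ ≤ C * ‖qq τ‖ ^ (n + N + 1) ∧
      ‖qq τ ^ (n + N + 1) / eu v‖ ≤ C * ‖qq τ‖ ^ (n + N + 1) ∧
      C * ‖qq τ‖ ^ (n + N + 1) ≤ 1 / 2 := by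
    intro n v hv
    refine ⟨?_, ?_, le_trans ?_ hN⟩
    · rw [norm_mul, norm_pow]
      exact mul_le_mul_of_nonneg_right (hU v hv).1.le (by positivity)
    · rw [div_eq_inv_mul, norm_mul, norm_pow]
      exact mul_le_mul_of_nonneg_right (hU v hv).2.le (by positivity)
    · exact mul_le_mul_of_nonneg_left
        (pow_le_pow_of_le_one (norm_nonneg _) (norm_qq_lt_one τ).le (by omega)) hCpos.le
  have htail : DifferentiableOn ℂ (fun v => ∑' n, T (n + N) v) U := by
    refine Complex.differentiableOn_tsum_of_summable_norm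
      (u := fun n => 4 * C * ‖qq τ‖ ^ (n + N + 1)) ?_ ?_ hUo ?_
    · refine Summable.mul_left _ ?_
      exact (summable_nat_add_iff (f := fun n => ‖qq τ‖ ^ (n + 1)) N).mpr
        ((summable_nat_add_iff 1).mpr
          (summable_geometric_of_lt_one (norm_nonneg _) (norm_qq_lt_one τ)))
    · intro n v hv
      obtain ⟨b1, b2, b3⟩ := hbound n v hv
      have ne1 : ∀ x : ℂ, ‖x‖ ≤ 1 / 2 → x - 1 ≠ 0 := by
        intro x hx h0
        rw [sub_eq_zero.mp h0, norm_one] at hx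
        norm_num at hx
      have d0 := (differentiable_eu v)
      refine DifferentiableAt.differentiableWithinAt ?_
      simp only [T, rr]
      exact ((d0.mul_const _).div ((d0.mul_const _).sub_const 1) (ne1 _ (b1.trans b3))).sub
        (((differentiableAt_const _).div d0 (eu_ne_zero v)).div
          (((differentiableAt_const _).div d0 (eu_ne_zero v)).sub_const 1) (ne1 _ (b2.trans b3)))
    · intro n v hv
      obtain ⟨b1, b2, b3⟩ := hbound n v hv
      refine le_trans (norm_sub_le _ _) ?_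
      have r1 := norm_rr_le (b1.trans b3)
      have r2 := norm_rr_le (b2.trans b3)
      linarith
  have hhead : DifferentiableAt ℂ (fun v => ∑ n ∈ Finset.range N, T n v) w := by
    apply DifferentiableAt.fun_sum
    intro n _
    have d0 := (differentiable_eu w)
    simp only [T, rr]
    exact ((d0.mul_const _).div ((d0.mul_const _).sub_const 1) (sub_ne_zero.mpr (h n).1)).sub
      (((differentiableAt_const _).div d0 (eu_ne_zero w)).div
        (((differentiableAt_const _).div d0 (eu_ne_zero w)).sub_const 1) (sub_ne_zero.mpr (h n).2))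
  refine (hhead.add (htail.differentiableAt (hUo.mem_nhds hwU))).congr_of_eventuallyEq ?_
  exact Eventually.of_forall fun v => hT v

theorem differentiableAt_Zreg_zero (τ : ℍ) : DifferentiableAt ℂ (fun v => Zreg v τ) 0 := by
  refine differentiableAt_Zreg τ fun n => ?_
  have : qq τ ^ (n + 1) ≠ 1 := by
    intro hh
    have := congrArg norm hh
    rw [norm_pow, norm_one] at this
    exact absurd this (pow_lt_one₀ (norm_nonneg _) (norm_qq_lt_one τ) (by omega)).ne
  simp [this]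

theorem differentiableAt_Zf {τ : ℍ} {w : ℂ} (h : OffL τ w) :
    DifferentiableAt ℂ (fun v => Zf v τ) w := by
  have h1 : DifferentiableAt ℂ (fun v => Zreg v τ) w := by
    refine differentiableAt_Zreg τ fun n => ⟨?_, fun hh => ?_⟩
    · have := h ((n + 1 : ℕ) : ℤ)
      rwa [zpow_natCast] at this
    have := h (-((n + 1 : ℕ) : ℤ))
    rw [zpow_neg, zpow_natCast] at this
    apply this
    rw [div_eq_one_iff_eq (eu_ne_zero w)] at hh
    rw [hh, mul_inv_cancel₀ (eu_ne_zero w)]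
  have h2 : DifferentiableAt ℂ Zhead w := by
    have d0 := differentiable_eu w
    exact (d0.add_const 1).div (d0.sub_const 1) (sub_ne_zero.mpr (by simpa using h 0))
  unfold Zf
  exact (h2.add (h1.const_mul 2)).const_mul _

theorem tendsto_mul_Zhead :
    Tendsto (fun w => w * Zhead w) (𝓝[≠] 0) (𝓝 ((π : ℂ) * I)⁻¹) := by
  have hd : HasDerivAt eu (2 * π * I) 0 := by
    have := ((hasDerivAt_id (0 : ℂ)).const_mul (2 * π * I)).cexp
    unfold eu
    simp only [id, mul_one, mul_zero, Complex.exp_zero, one_mul] at this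
    exact this
  have hs : Tendsto (slope eu 0) (𝓝[≠] 0) (𝓝 (2 * π * I)) := hasDerivAt_iff_tendsto_slope.mp hd
  have hi := hs.inv₀ two_pi_I_ne_zero
  have hc : Tendsto (fun w => eu w + 1) (𝓝[≠] (0 : ℂ)) (𝓝 2) := by
    have h0 : Tendsto (fun w => eu w + 1) (𝓝 (0 : ℂ)) (𝓝 (eu 0 + 1)) :=
      ((differentiable_eu 0).continuousAt.tendsto).add_const 1
    rw [eu_zero, show (1 : ℂ) + 1 = 2 by norm_num] at h0
    exact h0.mono_left nhdsWithin_le_nhds
  have h3 := hc.mul hi
  have e : (2 : ℂ) * (2 * π * I)⁻¹ = ((π : ℂ) * I)⁻¹ := by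
    have : (π : ℂ) * I ≠ 0 := mul_ne_zero (ofReal_ne_zero.mpr Real.pi_ne_zero) I_ne_zero
    field_simp
  rw [e] at h3
  refine h3.congr' ?_
  filter_upwards [self_mem_nhdsWithin] with w hw
  simp only [slope_def_field, eu_zero, sub_zero, inv_div, Zhead]
  ring

/-- The lattice transformation property at a matrix `A`. -/
def ZLaw (A : SL(2, ℤ)) : Prop :=
  ∀ (τ : ℍ) (w : ℂ), OffL τ w → OffL (A • τ) (w / den A τ) ∧
    Zf (w / den A τ) (A • τ) = den A τ * Zf w τ + 2 * π * I * (A 1 0 : ℂ) * w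

theorem ofComplex_coe_T_zpow (n : ℤ) (τ : ℍ) : qq ((n : ℝ) +ᵥ τ) = qq τ := by
  simp [qq, UpperHalfPlane.coe_vadd, eu_add]

theorem Zf_vadd (n : ℤ) (w : ℂ) (τ : ℍ) : Zf w ((n : ℝ) +ᵥ τ) = Zf w τ := by
  simp only [Zf, Zreg, ofComplex_coe_T_zpow]

theorem ZLaw_T_zpow (n : ℤ) : ZLaw (ModularGroup.T ^ n) := by
  intro τ w h
  have hden : den (ModularGroup.T ^ n) τ = 1 := by simp [den, T_zpow_10, T_zpow_11]
  rw [hden, div_one, ← vadd_eq_T_zpow_smul, Zf_vadd, T_zpow_10]
  refine ⟨fun m => ?_, by simp⟩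
  rw [ofComplex_coe_T_zpow]
  exact h m

theorem offL_S {τ : ℍ} {w : ℂ} (h : OffL τ w) : OffL (ModularGroup.S • τ) (w / τ) := by
  by_contra h'
  obtain ⟨m, n, hmn⟩ := (not_offL_iff _ _).mp h'
  have hτ := UpperHalfPlane.ne_zero τ
  rw [coe_S_smul] at hmn
  refine (not_offL_iff τ w).mpr ⟨n, -m, ?_⟩ h
  field_simp at hmn
  push_cast
  linear_combination hmn

/-- The difference of the two sides of the transformation law under `S`. -/
def Sdiff (τ : ℍ) (w : ℂ) : ℂ :=
  (τ : ℂ)⁻¹ * Zf (w / τ) (ModularGroup.S • τ) - Zf w τ - 2 * π * I * w / τ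

theorem Sdiff_add_one {τ : ℍ} {w : ℂ} (h : OffL τ w) : Sdiff τ (w + 1) = Sdiff τ w := by
  have hτ := UpperHalfPlane.ne_zero τ
  set τ' := ModularGroup.S • τ
  have h' : OffL τ' ((w + 1) / τ) := offL_S (by simpa using offL_add_lattice h 0 1)
  have h1 := Zf_add_self h'
  have e : (w + 1) / (τ : ℂ) + (τ' : ℂ) = w / τ := by
    rw [coe_S_smul]; field_simp; ring
  rw [e] at h1
  rw [Sdiff, Sdiff, Zf_add_one]
  linear_combination (τ : ℂ)⁻¹ * (-1 : ℂ) * h1

theorem Sdiff_add_self {τ : ℍ} {w : ℂ} (h : OffL τ w) : Sdiff τ (w + τ) = Sdiff τ w := by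
  have hτ := UpperHalfPlane.ne_zero τ
  rw [Sdiff, Sdiff, Zf_add_self h, show (w + (τ : ℂ)) / τ = w / τ + 1 by field_simp, Zf_add_one]
  field_simp
  ring

theorem Sdiff_neg (τ : ℍ) (w : ℂ) : Sdiff τ (-w) = -Sdiff τ w := by
  rw [Sdiff, Sdiff, neg_div, Zf_neg, Zf_neg]
  ring

theorem Sdiff_periodic (τ : ℍ) {w : ℂ} (h : OffL τ w) (m n : ℤ) :
    Sdiff τ (w + (m * τ + n)) = Sdiff τ w := by
  have one : ∀ (n : ℤ) {v : ℂ}, OffL τ v → Sdiff τ (v + n) = Sdiff τ v := by
    intro n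
    induction n using Int.induction_on with
    | zero => simp
    | succ i ih =>
      intro v hv
      have := Sdiff_add_one (by simpa using offL_add_lattice hv 0 i : OffL τ (v + (i : ℤ)))
      rw [← ih hv, ← this]
      push_cast
      ring_nf
    | pred i ih =>
      intro v hv
      have := Sdiff_add_one (by simpa using offL_add_lattice hv 0 (-i - 1) :
        OffL τ (v + ((-i - 1 : ℤ) : ℂ)))
      rw [← ih hv, ← this]
      push_cast
      ring_nf
  have two : ∀ (m : ℤ) {v : ℂ}, OffL τ v → Sdiff τ (v + m * τ) = Sdiff τ v := by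
    intro m
    induction m using Int.induction_on with
    | zero => simp
    | succ i ih =>
      intro v hv
      have := Sdiff_add_self (by simpa using offL_add_lattice hv i 0 :
        OffL τ (v + (i : ℤ) * (τ : ℂ)))
      rw [← ih hv, ← this]
      push_cast
      ring_nf
    | pred i ih =>
      intro v hv
      have := Sdiff_add_self (by simpa using offL_add_lattice hv (-i - 1) 0 :
        OffL τ (v + ((-i - 1 : ℤ) : ℂ) * (τ : ℂ)))
      rw [← ih hv, ← this]
      push_cast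
      ring_nf
  rw [← add_assoc, one n (by simpa using offL_add_lattice h m 0), two m h]

theorem differentiableAt_Sdiff {τ : ℍ} {w : ℂ} (h : OffL τ w) :
    DifferentiableAt ℂ (Sdiff τ) w := by
  unfold Sdiff
  refine ((DifferentiableAt.const_mul ?_ _).sub (differentiableAt_Zf h)).sub (by fun_prop)
  exact DifferentiableAt.comp w (g := fun v => Zf v (ModularGroup.S • τ))
    (differentiableAt_Zf (offL_S h)) (by fun_prop)

theorem tendsto_mul_Sdiff (τ : ℍ) : Tendsto (fun w => w * Sdiff τ w) (𝓝[≠] 0) (𝓝 0) := by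
  have hτ := UpperHalfPlane.ne_zero τ
  have hpi : (π : ℂ) * I ≠ 0 := mul_ne_zero (ofReal_ne_zero.mpr Real.pi_ne_zero) I_ne_zero
  have hdiv : Tendsto (fun w : ℂ => w / τ) (𝓝[≠] 0) (𝓝[≠] 0) := by
    refine tendsto_nhdsWithin_iff.mpr ⟨?_, ?_⟩
    · have := ((continuous_id.div_const (τ : ℂ)).tendsto 0)
      simp only [id, zero_div] at this
      exact this.mono_left nhdsWithin_le_nhds
    · filter_upwards [self_mem_nhdsWithin] with w hw
      exact div_ne_zero hw hτ
  have a1 := tendsto_mul_Zhead.comp hdiv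
  have a2 := tendsto_mul_Zhead
  have r1 : Tendsto (fun w : ℂ => Zreg (w / τ) (ModularGroup.S • τ)) (𝓝[≠] 0)
      (𝓝 (Zreg 0 (ModularGroup.S • τ))) :=
    ((differentiableAt_Zreg_zero (ModularGroup.S • τ)).continuousAt.tendsto).comp
      (hdiv.mono_right nhdsWithin_le_nhds)
  have r2 : Tendsto (fun w : ℂ => Zreg w τ) (𝓝[≠] 0) (𝓝 (Zreg 0 τ)) :=
    ((differentiableAt_Zreg_zero τ).continuousAt.tendsto).mono_left nhdsWithin_le_nhds
  have hw : Tendsto (fun w : ℂ => w) (𝓝[≠] (0 : ℂ)) (𝓝 0) :=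
    tendsto_id.mono_left nhdsWithin_le_nhds
  have key := (((a1.sub a2).const_mul ((π : ℂ) * I)).add
    (((hw.mul r1).const_mul (2 * π * I / τ)).sub ((hw.mul r2).const_mul (2 * π * I)))).sub
    ((hw.mul hw).const_mul (2 * π * I / τ))
  simp only [sub_self, mul_zero, zero_mul, add_zero] at key
  refine key.congr' (Eventually.of_forall fun w => ?_)
  simp only [Function.comp, Sdiff, Zf]
  field_simp
  ring

theorem ZLaw_S : ZLaw ModularGroup.S := by
  intro τ w hw
  have hτ := UpperHalfPlane.ne_zero τ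
  have hden : den ModularGroup.S τ = τ := by simp [den, ModularGroup.S]
  rw [hden]
  refine ⟨offL_S hw, ?_⟩
  classical
  set L := limUnder (𝓝[≠] (0 : ℂ)) (Sdiff τ)
  set D : ℂ → ℂ := fun v => if OffL τ v then Sdiff τ v else L with hD
  -- a neighbourhood of `0` free of other lattice points
  obtain ⟨s, hs, hsep⟩ : ∃ s ∈ 𝓝 (0 : ℂ), ∀ v ∈ s, v ≠ 0 → OffL τ v := by
    refine ⟨(fun v => (latX τ v, latY τ v)) ⁻¹' (Ioo (-1) 1 ×ˢ Ioo (-1) 1),
      (IsOpen.preimage (by unfold latY latX; fun_prop) (isOpen_Ioo.prod isOpen_Ioo)).mem_nhds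
        (by simp [latX, latY]), fun v hv hv0 => ?_⟩
    by_contra h'
    obtain ⟨m, n, rfl⟩ := (not_offL_iff τ v).mp h'
    obtain ⟨⟨a1, a2⟩, ⟨b1, b2⟩⟩ := hv
    simp only [(lat_intCast τ m n).1, (lat_intCast τ m n).2] at a1 a2 b1 b2
    have hm : m = 0 := by
      have : (-1 : ℤ) < m ∧ m < 1 := ⟨by exact_mod_cast a1, by exact_mod_cast a2⟩
      omega
    have hn : n = 0 := by
      have : (-1 : ℤ) < n ∧ n < 1 := ⟨by exact_mod_cast b1, by exact_mod_cast b2⟩
      omega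
    simp [hm, hn] at hv0
  have hzero : ¬OffL τ 0 := (not_offL_iff τ 0).mpr ⟨0, 0, by simp⟩
  have hper : ∀ (v : ℂ) (m n : ℤ), D (v + (m * τ + n)) = D v := by
    intro v m n
    by_cases hv : OffL τ v
    · simp [hD, hv, offL_add_lattice hv m n, Sdiff_periodic τ hv]
    · have : ¬OffL τ (v + (m * τ + n)) := by
        intro h
        apply hv
        have := offL_add_lattice h (-m) (-n)
        convert this using 1
        push_cast; ring
      simp [hD, hv, this]
  have hd0 : DifferentiableAt ℂ D 0 := by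
    have ho : (fun z => Sdiff τ z - Sdiff τ 0) =o[𝓝[≠] 0] fun z => (z - 0)⁻¹ := by
      refine isLittleO_of_tendsto' ?_ ?_
      · filter_upwards [self_mem_nhdsWithin] with z hz h
        simp at h
        exact absurd h hz
      · have := (tendsto_mul_Sdiff τ).sub
          ((tendsto_id.mono_left nhdsWithin_le_nhds : Tendsto id (𝓝[≠] (0 : ℂ)) (𝓝 0)).mul_const
            (Sdiff τ 0))
        simp only [zero_mul, sub_zero] at this
        refine this.congr' (Eventually.of_forall fun z => ?_)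
        simp only [id, sub_zero, div_inv_eq_mul]
        ring
    have hdd : DifferentiableOn ℂ (update (Sdiff τ) 0 L) s :=
      Complex.differentiableOn_update_limUnder_of_isLittleO hs
        (fun z hz => (differentiableAt_Sdiff (hsep z hz.1 (by simpa using hz.2))).differentiableWithinAt)
        ho
    refine (hdd.differentiableAt hs).congr_of_eventuallyEq ?_
    filter_upwards [hs] with z hz
    rcases eq_or_ne z 0 with rfl | hz0
    · simp [hD, hzero]
    · simp [hD, hsep z hz hz0, update_of_ne hz0]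
  have hdiff : Differentiable ℂ D := by
    intro v
    by_cases hv : OffL τ v
    · refine (differentiableAt_Sdiff hv).congr_of_eventuallyEq ?_
      filter_upwards [(isOpen_offL τ).mem_nhds hv] with z hz
      simp [hD, show OffL τ z from hz]
    · obtain ⟨m, n, rfl⟩ := (not_offL_iff τ v).mp hv
      have h1 : DifferentiableAt ℂ (fun z => D (z - (m * τ + n))) (m * τ + n) := by
        refine DifferentiableAt.comp _ (g := D) (f := fun z => z - ((m : ℂ) * τ + n)) ?_ (by fun_prop)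
        simpa using hd0
      refine h1.congr_of_eventuallyEq (Eventually.of_forall fun z => ?_)
      conv_lhs => rw [show z = (z - (m * τ + n)) + (m * τ + n) by ring]
      exact hper _ m n
  have hbdd : Bornology.IsBounded (range D) := by
    set φ : ℝ × ℝ → ℂ := fun x => x.1 * (τ : ℂ) + x.2
    have hK : IsCompact (D '' (φ '' (Icc 0 1 ×ˢ Icc 0 1))) :=
      ((isCompact_Icc.prod isCompact_Icc).image (by fun_prop)).image hdiff.continuous
    refine hK.isBounded.subset ?_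
    rintro _ ⟨v, rfl⟩
    refine ⟨φ (Int.fract (latX τ v), Int.fract (latY τ v)), ⟨_, ⟨⟨Int.fract_nonneg _,
      (Int.fract_lt_one _).le⟩, ⟨Int.fract_nonneg _, (Int.fract_lt_one _).le⟩⟩, rfl⟩, ?_⟩
    rw [← hper _ ⌊latX τ v⌋ ⌊latY τ v⌋]
    congr 1
    conv_rhs => rw [eq_lat_combination τ v, ← Int.fract_add_floor (latX τ v),
      ← Int.fract_add_floor (latY τ v)]
    simp only [φ, Complex.ofReal_add, Complex.ofReal_intCast]
    ring
  have hconst := hdiff.apply_eq_apply_of_bounded hbdd w (-w)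
  have h0 : Sdiff τ w = 0 := by
    simp only [hD, hw, offL_neg hw, if_true, Sdiff_neg] at hconst
    linear_combination hconst / 2
  rw [Sdiff] at h0
  have hS10 : (ModularGroup.S 1 0 : ℂ) = 1 := by simp [ModularGroup.S]
  rw [hS10, mul_one]
  field_simp at h0 ⊢
  linear_combination h0

theorem den_mul (A B : SL(2, ℤ)) (τ : ℍ) : den (A * B) τ = den A (B • τ : ℍ) * den B τ := by
  have hB := den_ne_zero B τ
  rw [den, den, coe_sl_smul, Matrix.SpecialLinearGroup.coe_mul]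
  simp only [Matrix.mul_apply, Fin.sum_univ_two, Int.cast_add, Int.cast_mul]
  field_simp
  rw [den]
  ring

theorem ZLaw.mul {A B : SL(2, ℤ)} (hA : ZLaw A) (hB : ZLaw B) : ZLaw (A * B) := by
  intro τ w hw
  obtain ⟨o1, e1⟩ := hB τ w hw
  obtain ⟨o2, e2⟩ := hA (B • τ) _ o1
  have hdB := den_ne_zero B τ
  rw [mul_smul, den_mul, mul_comm (den A _), ← div_div]
  refine ⟨o2, ?_⟩
  rw [e2, e1]
  have key : (B 1 0 : ℂ) * den A (B • τ : ℍ) + (A 1 0 : ℂ) / den B τ = ((A * B) 1 0 : ℂ) := by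
    have hdet : (B 0 0 : ℂ) * (B 1 1 : ℂ) - (B 0 1 : ℂ) * (B 1 0 : ℂ) = 1 := by
      exact_mod_cast sl_det B
    rw [den, coe_sl_smul, Matrix.SpecialLinearGroup.coe_mul]
    simp only [Matrix.mul_apply, Fin.sum_univ_two, Int.cast_add, Int.cast_mul]
    field_simp
    rw [den]
    linear_combination -(A 1 0 : ℂ) * hdet
  rw [← key]
  ring

theorem ZLaw_neg_one : ZLaw (-1 : SL(2, ℤ)) := by
  intro τ w hw
  have h1 : (-1 : SL(2, ℤ)) • τ = τ := by
    apply UpperHalfPlane.ext; simp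
  have hden : den (-1 : SL(2, ℤ)) τ = -1 := by simp [den]
  rw [h1, hden, div_neg, div_one, Zf_neg]
  exact ⟨offL_neg hw, by simp⟩

/-- The transformation law. -/
theorem zLaw (A : SL(2, ℤ)) : ZLaw A := by
  have hA : A ∈ Subgroup.closure {ModularGroup.S, ModularGroup.T} := by
    rw [SpecialLinearGroup.SL2Z_generators]; trivial
  refine (Subgroup.closure_induction (p := fun g _ => ZLaw g ∧ ZLaw g⁻¹) ?_ ?_ ?_ ?_ hA).1
  · intro g hg
    rcases hg with rfl | rfl
    · refine ⟨ZLaw_S, ?_⟩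
      have : (ModularGroup.S)⁻¹ = (-1 : SL(2, ℤ)) * ModularGroup.S := by
        ext i j
        fin_cases i <;> fin_cases j <;>
          simp [Matrix.SpecialLinearGroup.coe_inv, ModularGroup.coe_S, Matrix.adjugate_fin_two]
      rw [this]
      exact ZLaw_neg_one.mul ZLaw_S
    · exact ⟨by simpa using ZLaw_T_zpow 1, by simpa using ZLaw_T_zpow (-1)⟩
  · have := ZLaw_T_zpow 0
    simp only [zpow_zero] at this
    exact ⟨this, by simpa using this⟩
  · rintro a b - - ⟨ha, ha'⟩ ⟨hb, hb'⟩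
    exact ⟨ha.mul hb, by rw [mul_inv_rev]; exact hb'.mul ha'⟩
  · rintro a - ⟨ha, ha'⟩
    exact ⟨ha', by rwa [inv_inv]⟩

end FA.Eis
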